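import Mathlib
import Fermat.Prelude.Def_ModularCurve_LaurentCoeff
import Fermat.Prelude.Def_ModularCurve_X0
import Fermat.Prelude.Def_ModularCurve_X0ModL

/-!
Laurent series tools: the substitution `q ↦ u q`, deflation, and the `ℓ`-th power in characteristic
`ℓ`.
-/

set_option autoImplicit false

noncomputable section

open ModularCurve

namespace FLTAgent.Reduction

variable {R S : Type*} [CommRing R] [CommRing S]

/-- the coefficients of `f (u q)` -/
def twistFun (u : Rˣ) (f : LaurentSeries R) : LaurentSeries R :=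
  ⟨fun n => ((u ^ n : Rˣ) : R) * f.coeff n,
    f.isPWO_support.mono fun n hn h => hn (by simp [h])⟩

theorem twistFun_coeff (u : Rˣ) (f : LaurentSeries R) (n : ℤ) :
    (twistFun u f).coeff n = ((u ^ n : Rˣ) : R) * f.coeff n := rfl

theorem twistFun_support (u : Rˣ) (f : LaurentSeries R) :
    (twistFun u f).support = f.support := by
  ext n
  simp [twistFun_coeff]

/-- the substitution `q ↦ u q` -/
def twist (u : Rˣ) : LaurentSeries R →+* LaurentSeries R where
  toFun := twistFun u
  map_one' := by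
    ext n
    rw [twistFun_coeff, HahnSeries.coeff_one]
    split_ifs with h
    · simp [h]
    · simp
  map_zero' := by ext n; simp [twistFun_coeff]
  map_add' f g := by ext n; simp [twistFun_coeff, mul_add]
  map_mul' f g := by
    ext n
    rw [twistFun_coeff, HahnSeries.coeff_mul, HahnSeries.coeff_mul, Finset.mul_sum]
    refine Finset.sum_congr (by simp only [twistFun_support]) fun ij hij => ?_
    have hn : ij.1 + ij.2 = n := (Finset.mem_antidiagonal.mp hij).2.2
    rw [twistFun_coeff, twistFun_coeff, ← hn, zpow_add, Units.val_mul]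
    ring

theorem twist_coeff (u : Rˣ) (f : LaurentSeries R) (n : ℤ) :
    (twist u f).coeff n = ((u ^ n : Rˣ) : R) * f.coeff n := rfl

theorem twist_one_apply (f : LaurentSeries R) : twist 1 f = f := by
  ext n
  simp [twist_coeff]

theorem twist_single_zero (u : Rˣ) (a : R) :
    twist u (HahnSeries.single (0 : ℤ) a) = HahnSeries.single 0 a := by
  ext n
  rw [twist_coeff, HahnSeries.coeff_single]
  split_ifs with h
  · simp [h]
  · simp

theorem twist_qExpand (u : Rˣ) (ℓ : ℕ) [NeZero ℓ] (hu : u ^ ℓ = 1) (f : LaurentSeries R) :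
    twist u (qExpand R ℓ f) = qExpand R ℓ f := by
  ext n
  rw [twist_coeff]
  by_cases hn : (ℓ : ℤ) ∣ n
  · obtain ⟨m, rfl⟩ := hn
    rw [zpow_mul, zpow_natCast, hu, one_zpow, Units.val_one, one_mul]
  · rw [qExpand_coeff_of_not_dvd ℓ f hn, mul_zero]

theorem coeffMap_twist (φ : R →+* S) (u : Rˣ) (f : LaurentSeries R) :
    coeffMap φ (twist u f) = twist (Units.map (φ : R →* S) u) (coeffMap φ f) := by
  ext n
  rw [coeffMap_coeff, twist_coeff, twist_coeff, coeffMap_coeff, map_mul, ← map_zpow,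
    Units.coe_map]
  rfl

/-- the series whose `q ↦ q^ℓ` substitution is the given one, if there is such -/
def deflate (ℓ : ℕ) [NeZero ℓ] (H : LaurentSeries R) : LaurentSeries R :=
  HahnSeries.ofSuppBddBelow (fun k => H.coeff ((ℓ : ℤ) * k)) ⟨-|H.order|, fun k hk => by
    have h1 : H.order ≤ (ℓ : ℤ) * k := HahnSeries.order_le_of_coeff_ne_zero hk
    have h2 : (1 : ℤ) ≤ ℓ := by exact_mod_cast Nat.one_le_iff_ne_zero.mpr (NeZero.ne ℓ)
    rcases le_or_gt 0 k with hk0 | hk0
    · linarith [abs_nonneg H.order]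
    · nlinarith [neg_abs_le H.order]⟩

theorem qExpand_deflate (ℓ : ℕ) [NeZero ℓ] (H : LaurentSeries R)
    (h : ∀ k : ℤ, ¬ (ℓ : ℤ) ∣ k → H.coeff k = 0) : qExpand R ℓ (deflate ℓ H) = H := by
  ext k
  by_cases hk : (ℓ : ℤ) ∣ k
  · obtain ⟨m, rfl⟩ := hk
    rw [qExpand_coeff_mul]
    rfl
  · rw [qExpand_coeff_of_not_dvd ℓ _ hk, h k hk]

theorem ofPowerSeries_expand (ℓ : ℕ) [NeZero ℓ] (p : PowerSeries R) :
    HahnSeries.ofPowerSeries ℤ R (PowerSeries.expand ℓ (NeZero.ne ℓ) p) =
      qExpand R ℓ (HahnSeries.ofPowerSeries ℤ R p) := by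
  ext k
  by_cases hk : (ℓ : ℤ) ∣ k
  · obtain ⟨m, rfl⟩ := hk
    rw [qExpand_coeff_mul]
    rcases le_or_gt 0 m with hm | hm
    · lift m to ℕ using hm
      rw [← Nat.cast_mul, HahnSeries.ofPowerSeries_apply_coeff, HahnSeries.ofPowerSeries_apply_coeff,
        PowerSeries.coeff_expand_mul]
    · rw [ofPowerSeries_coeff_of_neg _ hm, ofPowerSeries_coeff_of_neg _
        (mul_neg_of_pos_of_neg (by exact_mod_cast Nat.pos_of_ne_zero (NeZero.ne ℓ)) hm)]
  · rw [qExpand_coeff_of_not_dvd ℓ _ hk]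
    rcases le_or_gt 0 k with hm | hm
    · lift k to ℕ using hm
      rw [HahnSeries.ofPowerSeries_apply_coeff, PowerSeries.coeff_expand_of_not_dvd]
      exact fun h => hk (Int.natCast_dvd_natCast.mpr h)
    · rw [ofPowerSeries_coeff_of_neg _ hm]

theorem pow_char_eq {k : Type*} [Field k] (ℓ : ℕ) [NeZero ℓ] [ExpChar k ℓ] (y : LaurentSeries k) :
    y ^ ℓ = qExpand k ℓ (coeffMap (frobenius k ℓ) y) := by
  conv_lhs => rw [← LaurentSeries.single_order_mul_powerSeriesPart y]
  conv_rhs => rw [← LaurentSeries.single_order_mul_powerSeriesPart y]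
  rw [mul_pow, map_mul, map_mul, coeffMap_single, map_one (frobenius k ℓ), qExpand_single,
    HahnSeries.single_pow, one_pow, nsmul_eq_mul, coeffMap_ofPowerSeries, ← map_pow,
    ← ofPowerSeries_expand]
  congr 2
  rw [← PowerSeries.map_expand]
  exact (MvPowerSeries.map_frobenius_expand ℓ (NeZero.ne ℓ)).symm

end FLTAgent.Reduction
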