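import Fermat.Agent.Reduction.Independence
import Fermat.Agent.Reduction.Twist

/-!
The action of Frobenius on the special fibre, and compatibility of the reduction with the Galois
action.
-/

set_option autoImplicit false
set_option linter.unusedSectionVars false
set_option synthInstance.maxHeartbeats 200000

noncomputable section

open ModularCurve AlgebraicCurve IsLocalRing
open scoped Pointwise

namespace FLTAgent.Reduction

section Full

variable {k : Type*} [Field k] (τ : k ≃+* k) (N : ℕ)

theorem coeffMap_mem_fullC {x : LaurentSeries k} (hx : x ∈ modularFunctionFieldFullC k N) :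
    coeffMap (τ : k →+* k) x ∈ modularFunctionFieldFullC k N := by
  rw [modularFunctionFieldFullC] at hx ⊢
  induction hx using IntermediateField.adjoin_induction with
  | mem y hy =>
      obtain ⟨d, hd, hdN, rfl⟩ := hy
      rw [coeffMap_qExpand, coeffMap_jqModC]
      exact IntermediateField.subset_adjoin _ _ ⟨d, hd, hdN, rfl⟩
  | algebraMap a =>
      rw [algebraMap_laurentSeries_eq_single, coeffMap_single, ← algebraMap_laurentSeries_eq_single]
      exact IntermediateField.algebraMap_mem _ _
  | add x y _ _ hx hy => rw [map_add]; exact add_mem hx hy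
  | inv x _ hx => rw [map_inv₀]; exact inv_mem hx
  | mul x y _ _ hx hy => rw [map_mul]; exact mul_mem hx hy

/-- the ring automorphism of the special fibre function field given by an automorphism of constants -/
def fullRingAut : modularFunctionFieldFullC k N ≃+* modularFunctionFieldFullC k N where
  toFun x := ⟨coeffMap (τ : k →+* k) (x : LaurentSeries k), coeffMap_mem_fullC τ N x.2⟩
  invFun x := ⟨coeffMap (τ.symm : k →+* k) (x : LaurentSeries k), coeffMap_mem_fullC τ.symm N x.2⟩
  left_inv x := Subtype.ext <| by
    show coeffMap _ (coeffMap _ (x : LaurentSeries k)) = (x : LaurentSeries k)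
    rw [coeffMap_coeffMap, coeffMap_congr (g := RingHom.id k)
      (RingHom.ext fun a => τ.symm_apply_apply a) (x : LaurentSeries k), coeffMap_id]
  right_inv x := Subtype.ext <| by
    show coeffMap _ (coeffMap _ (x : LaurentSeries k)) = (x : LaurentSeries k)
    rw [coeffMap_coeffMap, coeffMap_congr (g := RingHom.id k)
      (RingHom.ext fun a => τ.apply_symm_apply a) (x : LaurentSeries k), coeffMap_id]
  map_mul' x y := Subtype.ext (map_mul (coeffMap (τ : k →+* k)) _ _)
  map_add' x y := Subtype.ext (map_add (coeffMap (τ : k →+* k)) _ _)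

/-- as a semilinear automorphism -/
def fullAut : SemilinearAut k (modularFunctionFieldFullC k N) :=
  ⟨(fullRingAut τ N, τ), fun a => Subtype.ext (by
    show coeffMap (τ : k →+* k) (algebraMap k (LaurentSeries k) a) =
      algebraMap k (LaurentSeries k) (τ a)
    rw [algebraMap_laurentSeries_eq_single, algebraMap_laurentSeries_eq_single, coeffMap_single]
    rfl)⟩

theorem coe_fullAut_smul (x : modularFunctionFieldFullC k N) :
    ((fullAut τ N • x : modularFunctionFieldFullC k N) : LaurentSeries k) =
      coeffMap (τ : k →+* k) (x : LaurentSeries k) := rfl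

theorem coe_fullAut_inv_smul (x : modularFunctionFieldFullC k N) :
    (((fullAut τ N)⁻¹ • x : modularFunctionFieldFullC k N) : LaurentSeries k) =
      coeffMap (τ.symm : k →+* k) (x : LaurentSeries k) := rfl

theorem fullAut_refl : fullAut (RingEquiv.refl k) N = 1 :=
  Subtype.ext (Prod.ext (RingEquiv.ext fun x => Subtype.ext
    ((coeffMap_congr (g := RingHom.id k) (RingHom.ext fun _ => rfl) _).trans (coeffMap_id _))) rfl)

end Full

section Divisors

variable {K F : Type*} [Field K] [Field F] [Algebra K F]

/-- the divisor of the image function -/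
theorem smul_divisor_eq_ord (g : SemilinearAut K F) {E : Divisor K F} {f : F}
    (hE : ∀ P, E P = P.ord f) (w : Place K F) : (g • E) w = w.ord (g • f) := by
  rw [SemilinearAut.divisor_smul_apply, hE]
  have h := SemilinearAut.ord_smul g (g⁻¹ • w) f
  rw [smul_inv_smul] at h
  exact h.symm

end Divisors

variable {A : ValuationSubring Qb} {N : ℕ} [NeZero N] {ℓ : ℕ} (C : Ctx A N ℓ)
include C

/-- `σ` induces `τ` on the residue field -/
def Induces (A : ValuationSubring Qb) (σ : Qb ≃ₐ[ℚ] Qb) (τ : kA A ≃+* kA A) : Prop :=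
  ∀ a : A, ∃ h : σ (a : Qb) ∈ A, residue A ⟨σ a, h⟩ = τ (residue A a)

set_option maxHeartbeats 1000000 in
/-- the reduction of places commutes with the Galois action, on divisors of degree zero -/
theorem mapDomain_rP_smul {σ : Qb ≃ₐ[ℚ] Qb} {τ : kA A ≃+* kA A} (hσ : Induces A σ τ)
    (D : Divisor Qb (FB N)) (hD : Divisor.degree D = 0) :
    Finsupp.mapDomain (rP C) (arithmeticGalois (modularFunctionFieldFull N) σ • D) =
      fullAut τ N • Finsupp.mapDomain (rP C) D := by
  classical
  set g := arithmeticGalois (modularFunctionFieldFull N) σ with hg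
  set Φ := fullAut τ N with hΦ
  set r : Divisor Qb (FB N) →+ Divisor (kA A) (FS A N) := Finsupp.mapDomain.addMonoidHom (rP C)
  set Δ : Divisor Qb (FB N) →+ (PS A N →₀ ℤ) :=
    r.comp (DistribSMul.toAddMonoidHom _ g) -
      (DistribSMul.toAddMonoidHom (Divisor (kA A) (FS A N)) Φ).comp r with hΔ
  have happ : ∀ D, Δ D =
      Finsupp.mapDomain (rP C) (g • D) - Φ • Finsupp.mapDomain (rP C) D := fun D => rfl
  let σA : A →+* A :=
    { toFun := fun a => ⟨σ (a : Qb), (hσ a).1⟩
      map_one' := Subtype.ext (map_one σ)
      map_mul' := fun a b => Subtype.ext (map_mul σ _ _)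
      map_zero' := Subtype.ext (map_zero σ)
      map_add' := fun a b => Subtype.ext (map_add σ _ _) }
  have hint : ∀ E ∈ integralPrincipalDivisors A (residue A) N, Δ E = 0 := by
    rintro E ⟨y, hy, hyk, hne, hE⟩
    have h1 : coeffMap A.subtype (coeffMap σA y) =
        coeffMap (σ : Qb →+* Qb) (coeffMap A.subtype y) := by
      rw [coeffMap_coeffMap, coeffMap_coeffMap]
      exact coeffMap_congr (RingHom.ext fun _ => rfl) y
    have h2 : coeffMap (residue A) (coeffMap σA y) =
        coeffMap (τ : kA A →+* kA A) (coeffMap (residue A) y) := by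
      rw [coeffMap_coeffMap, coeffMap_coeffMap]
      exact coeffMap_congr (RingHom.ext fun a => (hσ a).2) y
    have hy' : coeffMap A.subtype (coeffMap σA y) ∈ modularFunctionFieldBar N := by
      rw [h1]; exact coeffMap_mem_laurentBaseChange σ hy
    have hyk' : coeffMap (residue A) (coeffMap σA y) ∈ modularFunctionFieldFullC (kA A) N := by
      rw [h2]; exact coeffMap_mem_fullC τ N hyk
    have hne' : coeffMap (residue A) (coeffMap σA y) ≠ 0 := by
      rw [h2]
      intro h0
      refine hne (HahnSeries.ext (funext fun n => ?_))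
      have h3 := congrArg (fun s : LaurentSeries (kA A) => s.coeff n) h0
      simpa using h3
    have hval : ∀ P, (g • E) P = P.ord (⟨_, hy'⟩ : FB N) := fun P => by
      rw [smul_divisor_eq_ord g hE]
      exact congrArg P.ord (Subtype.ext h1.symm)
    rw [happ, sub_eq_zero]
    refine Finsupp.ext fun Q => ?_
    have h4 := (isPlaceReduction_rP C).2 y hy hyk hne E hE
    rw [(isPlaceReduction_rP C).2 (coeffMap σA y) hy' hyk' hne' _ hval Q,
      smul_divisor_eq_ord Φ h4]
    exact congrArg Q.ord (Subtype.ext h2)
  have hp : ∀ E ∈ Divisor.principal (K := Qb) (F := FB N), Δ E = 0 := fun E hE =>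
    (AddSubgroup.closure_le Δ.ker).mpr hint (principalGenerated C hE)
  have h := eq_zero_of_bounded Δ hp 2 (fun P Q => by
    rw [happ, SemilinearAut.smul_single, Finsupp.mapDomain_single, Finsupp.mapDomain_single,
      SemilinearAut.smul_single, Finsupp.sub_apply]
    refine (abs_sub _ _).trans ?_
    simp only [Finsupp.single_apply]
    split_ifs <;> simp) D hD
  rwa [happ, sub_eq_zero] at h

/-- reduction is equivariant -/
theorem reductionModL_smul {σ : Qb ≃ₐ[ℚ] Qb} {τ : kA A ≃+* kA A} (hσ : Induces A σ τ)
    (x : JZero N) : reductionModL A N (σ • x) = fullAut τ N • reductionModL A N x := by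
  obtain ⟨D, rfl⟩ := Pic0.mk_surjective x
  rw [galois_smul_pic0_def, SemilinearAut.pic0_smul_mk, reductionModL_mk_rP C,
    reductionModL_mk_rP C, SemilinearAut.pic0_smul_mk]
  exact congrArg Pic0.mk (Subtype.ext (mapDomain_rP_smul C hσ D.1 (Divisor.mem_degZero.mp D.2)))

/-- Frobenius of the residue field -/
def frobK : kA A ≃+* kA A :=
  haveI := Fact.mk C.prime
  haveI := charP_residue A C.prime C.lies
  RingEquiv.ofBijective (frobenius (kA A) ℓ) ⟨frobenius_inj (kA A) ℓ, fun y =>
    IsAlgClosed.exists_pow_nat_eq y C.prime.pos⟩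

theorem frobK_apply (x : kA A) : frobK C x = x ^ ℓ := rfl

/-- the semilinear Frobenius of the special fibre -/
def frobS : SemilinearAut (kA A) (FS A N) := fullAut (frobK C) N

theorem induces_frobenius {σ : Qb ≃ₐ[ℚ] Qb} (hσ : A.IsFrobeniusAt σ ℓ) :
    Induces A σ (frobK C) := by
  intro a
  have h1 := hσ.smul_residue_eq (residue A a)
  rw [← IsLocalRing.ResidueField.residue_smul] at h1
  exact ⟨((⟨σ, hσ.mem_decompositionSubgroup⟩ : A.decompositionSubgroup ℚ) • a).2, h1⟩

theorem induces_inertia {σ : Qb ≃ₐ[ℚ] Qb} (hσ : σ ∈ A.inertiaSubgroupIn ℚ) :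
    Induces A σ (RingEquiv.refl _) := by
  obtain ⟨s, hs, rfl⟩ := Subgroup.mem_map.mp hσ
  intro a
  have h0 : MulSemiringAction.toRingAut (A.decompositionSubgroup ℚ) (kA A) s = 1 :=
    MonoidHom.mem_ker.mp hs
  have h1 : s • residue A a = residue A a := congrArg (fun e : RingAut (kA A) => e (residue A a)) h0
  rw [← IsLocalRing.ResidueField.residue_smul] at h1
  exact ⟨(s • a).2, h1⟩

theorem reductionModL_frobenius {σ : Qb ≃ₐ[ℚ] Qb} (hσ : A.IsFrobeniusAt σ ℓ) (x : JZero N) :
    reductionModL A N (σ • x) = frobS C • reductionModL A N x :=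
  reductionModL_smul C (induces_frobenius C hσ) x

theorem reductionModL_inertia {σ : Qb ≃ₐ[ℚ] Qb} (hσ : σ ∈ A.inertiaSubgroupIn ℚ) (x : JZero N) :
    reductionModL A N (σ • x) = reductionModL A N x := by
  rw [reductionModL_smul C (induces_inertia C hσ) x, fullAut_refl, one_smul]

end FLTAgent.Reduction
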