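import Mathlib

/-! Elements integral over both charts are algebraic. -/

set_option autoImplicit false

noncomputable section

open Polynomial

namespace FLTAgent.Reduction

theorem mem_valuationSubring_of_isIntegralElem {K F : Type*} [Field K] [Field F] [Algebra K F]
    (V : ValuationSubring F) (hK : ∀ c : K, algebraMap K F c ∈ V) {t x : F} (ht : t ∈ V)
    (hx : (Polynomial.aeval (R := K) t).toRingHom.IsIntegralElem x) : x ∈ V := by
  obtain ⟨p, hp, hpx⟩ := hx
  have hmem : ∀ q : K[X], Polynomial.aeval t q ∈ V := by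
    intro q
    induction q using Polynomial.induction_on' with
    | add q q' h h' => rw [map_add]; exact add_mem h h'
    | monomial n a =>
        rw [← Polynomial.C_mul_X_pow_eq_monomial, map_mul, map_pow, aeval_C, aeval_X]
        exact mul_mem (hK a) (pow_mem ht n)
  set φ : K[X] →+* V :=
    (Polynomial.aeval (R := K) t).toRingHom.codRestrict V.toSubring hmem with hφ
  have hint : IsIntegral V x := by
    refine ⟨p.map φ, hp.map _, ?_⟩
    rw [Polynomial.eval₂_map]
    exact hpx
  obtain ⟨y, hy⟩ := IsIntegrallyClosed.isIntegral_iff.mp hint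
  rw [← hy]
  exact y.2

/-- integral over `K[t]` and over `K[1/t]` implies algebraic over `K` -/
theorem isAlgebraic_of_isIntegral_both {K F : Type*} [Field K] [Field F] [Algebra K F] {t x : F}
    (h0 : (Polynomial.aeval (R := K) t).toRingHom.IsIntegralElem x)
    (h1 : (Polynomial.aeval (R := K) t⁻¹).toRingHom.IsIntegralElem x) : IsAlgebraic K x := by
  by_contra hx
  have hxi : Transcendental K x⁻¹ := fun h => hx (IsAlgebraic.inv_iff.mp h)
  set R : Subring F := (Polynomial.aeval (R := K) x⁻¹).toRingHom.range with hR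
  have hxR : x⁻¹ ∈ R := ⟨Polynomial.X, by simp⟩
  have hI : Ideal.span ({⟨x⁻¹, hxR⟩} : Set R) ≠ ⊤ := by
    rw [Ne, Ideal.eq_top_iff_one, Ideal.mem_span_singleton']
    rintro ⟨⟨_, p, rfl⟩, hp⟩
    have h := congrArg Subtype.val hp
    have h' : Polynomial.aeval x⁻¹ (p * Polynomial.X - 1) = 0 := by
      simp only [map_sub, map_mul, Polynomial.aeval_X, map_one, sub_eq_zero]
      exact h
    have h2 := transcendental_iff.mp hxi _ h'
    have h3 := congrArg (Polynomial.eval (0 : K)) h2
    simp at h3
  obtain ⟨V, hV, hnu⟩ := Ideal.image_subset_nonunits_valuationSubring _ hI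
  have hK : ∀ c : K, algebraMap K F c ∈ V := fun c =>
    hV ⟨Polynomial.C c, by simp⟩
  have hn : x⁻¹ ∈ V.nonunits :=
    hnu ⟨⟨x⁻¹, hxR⟩, Ideal.mem_span_singleton_self _, rfl⟩
  have hxV : x ∈ V := by
    rcases V.mem_or_inv_mem t with ht | ht
    · exact mem_valuationSubring_of_isIntegralElem V hK ht h0
    · exact mem_valuationSubring_of_isIntegralElem V hK ht h1
  rw [V.mem_nonunits_iff, map_inv₀, inv_lt_one_iff₀] at hn
  rcases hn with hn | hn
  · have h0' : x = 0 := (Valuation.zero_iff _).mp (le_antisymm hn zero_le)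
    exact hx (h0' ▸ isAlgebraic_zero)
  · exact absurd ((V.valuation_le_one_iff x).mpr hxV) (not_le.mpr hn)

end FLTAgent.Reduction
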