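import Fermat.Agent.RR.API

/-!
Rigidity: a homomorphism from divisors to a free abelian group which kills principal divisors and is
bounded on places kills all divisors of degree zero.
-/

set_option autoImplicit false
set_option linter.unusedSectionVars false

noncomputable section

open AlgebraicCurve

namespace FLTAgent.Reduction

variable {K F : Type*} [Field K] [Field F] [Algebra K F] [IsAlgClosed K] [CharZero K]
  [hF : RR.FnField K F]

include hF

/-- a divisor of large degree is linearly equivalent to an effective one -/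
theorem exists_effective : ∃ g : ℕ, ∀ E : Divisor K F, (g : ℤ) ≤ Divisor.degree E →
    ∃ f : F, f ≠ 0 ∧ ∀ v : Place K F, 0 ≤ E v + v.ord f := by
  obtain ⟨x, hx, -⟩ := hF.exists_transcendental
  refine ⟨RR.genusX hx, fun E hE => ?_⟩
  have h := RR.rr hx E
  have hpos : 0 < Module.finrank K (riemannRochSpace E) := by
    have : (0 : ℤ) < RR.ell E := by omega
    exact_mod_cast this
  haveI := RR.finiteDimensional_rr (K := K) E
  obtain ⟨⟨f, hf⟩, hne⟩ := Module.finrank_pos_iff_exists_ne_zero.mp hpos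
  have hf0 : f ≠ 0 := fun h0 => hne (Subtype.ext h0)
  refine ⟨f, hf0, fun v => ?_⟩
  have := ((mem_riemannRochSpace_iff).mp hf v).resolve_left hf0
  omega

theorem eq_zero_of_bounded {ι : Type*} (Δ : Divisor K F →+ (ι →₀ ℤ))
    (hp : ∀ D ∈ Divisor.principal (K := K) (F := F), Δ D = 0) (B : ℕ)
    (hB : ∀ (P : Place K F) (i : ι), |Δ (Finsupp.single P 1) i| ≤ B) (D : Divisor K F)
    (hD : Divisor.degree D = 0) : Δ D = 0 := by
  classical
  obtain ⟨g, hg⟩ := exists_effective (K := K) (F := F)
  obtain ⟨x, hx, -⟩ := hF.exists_transcendental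
  obtain ⟨v₀, -⟩ := RR.exists_zero (K := K) hx
  ext i
  by_contra hne
  rw [Finsupp.zero_apply] at hne
  set j : ℕ := 2 * g * B + 1 with hj
  set E : Divisor K F := (j : ℤ) • D + Finsupp.single v₀ (g : ℤ) with hE
  have hdeg : Divisor.degree E = g := by
    rw [hE, map_add, map_zsmul, hD, smul_zero, zero_add, Divisor.degree_single, RR.deg_place]
    simp
  obtain ⟨f, hf, heff⟩ := hg E hdeg.ge
  obtain ⟨G, hG⟩ := RR.exists_divisor (K := K) hf
  set E' := E + G with hE'
  have hGp : G ∈ Divisor.principal (K := K) (F := F) := ⟨f, hf, hG⟩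
  have hdeg' : Divisor.degree E' = g := by
    rw [hE', map_add, hdeg, RR.degree_divisor hf hG, add_zero]
  have hnn : ∀ v, 0 ≤ E' v := fun v => by rw [hE', Finsupp.add_apply, hG]; exact heff v
  have hbound : |Δ E' i| ≤ g * B := by
    have hsum : Δ E' = ∑ P ∈ E'.support, E' P • Δ (Finsupp.single P 1) := by
      conv_lhs => rw [← Finsupp.sum_single E', Finsupp.sum]
      rw [map_sum]
      refine Finset.sum_congr rfl fun P _ => ?_
      rw [← map_zsmul, Finsupp.smul_single, smul_eq_mul, mul_one]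
    rw [hsum, Finset.sum_apply']
    refine (Finset.abs_sum_le_sum_abs _ _).trans ?_
    refine le_trans (Finset.sum_le_sum (g := fun P => E' P * (B : ℤ)) fun P _ => ?_) ?_
    · rw [Finsupp.smul_apply, smul_eq_mul, abs_mul, abs_of_nonneg (hnn P)]
      exact mul_le_mul_of_nonneg_left (hB P i) (hnn P)
    · rw [← Finset.sum_mul]
      refine mul_le_mul_of_nonneg_right ?_ (by positivity)
      rw [RR.degree_eq_sum] at hdeg'
      exact hdeg'.le
  have hB0 := hB v₀ i
  rw [hE', hE, map_add, hp G hGp, add_zero, map_add, map_zsmul,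
    show Finsupp.single v₀ (g : ℤ) = (g : ℤ) • Finsupp.single v₀ (1 : ℤ) by simp, map_zsmul,
    Finsupp.add_apply, Finsupp.smul_apply, Finsupp.smul_apply, smul_eq_mul, smul_eq_mul] at hbound
  have h1 : (1 : ℤ) ≤ |Δ D i| := Int.one_le_abs hne
  have h2 : |(j : ℤ) * Δ D i| ≤ |(j : ℤ) * Δ D i + g * Δ (Finsupp.single v₀ 1) i| +
      |(g : ℤ) * Δ (Finsupp.single v₀ 1) i| := by
    have := abs_sub ((j : ℤ) * Δ D i + g * Δ (Finsupp.single v₀ 1) i)
      ((g : ℤ) * Δ (Finsupp.single v₀ 1) i)
    rwa [add_sub_cancel_right] at this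
  rw [abs_mul, Nat.abs_cast] at h2
  have h3 : |(g : ℤ) * Δ (Finsupp.single v₀ 1) i| ≤ g * B := by
    rw [abs_mul, Nat.abs_cast]
    exact mul_le_mul_of_nonneg_left hB0 (by positivity)
  have h4 : (j : ℤ) ≤ (j : ℤ) * |Δ D i| := le_mul_of_one_le_right (by positivity) h1
  have hj' : (j : ℤ) = 2 * g * B + 1 := by rw [hj]; push_cast; ring
  nlinarith

end FLTAgent.Reduction
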