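import Fermat.Agent.Reduction.Compat
import Fermat.Agent.Reduction.Rigid
import Fermat.Agent.Reduction.Constants

/-!
The reduction map on the Jacobian does not depend on the choice of reduction data.
-/

set_option autoImplicit false
set_option linter.unusedSectionVars false
set_option synthInstance.maxHeartbeats 100000

noncomputable section

open ModularCurve AlgebraicCurve Polynomial IsLocalRing

namespace FLTAgent.Reduction

variable {A : ValuationSubring Qb} {N : ℕ} [NeZero N] {ℓ : ℕ}

theorem abs_single_le {α β : Type*} (r : α → β) (P : α) (Q : β) :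
    |Finsupp.mapDomain r (Finsupp.single P (1 : ℤ)) Q| ≤ 1 := by
  classical
  rw [Finsupp.mapDomain_single, Finsupp.single_apply]
  split_ifs <;> simp

/-- two compatible reductions agree on divisors of degree zero -/
theorem mapDomain_eq_of_isPlaceReduction {r r' : PB N → PS A N}
    (hr : IsPlaceReductionModL A N r) (hr' : IsPlaceReductionModL A N r')
    (hgen : PrincipalGeneratedByIntegral A (residue A) N) (D : Divisor Qb (FB N))
    (hD : Divisor.degree D = 0) : Finsupp.mapDomain r D = Finsupp.mapDomain r' D := by
  classical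
  set Δ : Divisor Qb (FB N) →+ (PS A N →₀ ℤ) :=
    Finsupp.mapDomain.addMonoidHom r - Finsupp.mapDomain.addMonoidHom r' with hΔ
  have happ : ∀ D, Δ D = Finsupp.mapDomain r D - Finsupp.mapDomain r' D := fun D => rfl
  have hint : ∀ E ∈ integralPrincipalDivisors A (residue A) N, Δ E = 0 := by
    rintro E ⟨y, hy, hyk, hne, hE⟩
    rw [happ, sub_eq_zero]
    exact Finsupp.ext fun Q => (hr.2 y hy hyk hne E hE Q).trans (hr'.2 y hy hyk hne E hE Q).symm
  have hp : ∀ E ∈ Divisor.principal (K := Qb) (F := FB N), Δ E = 0 := fun E hE =>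
    (AddSubgroup.closure_le Δ.ker).mpr hint (hgen hE)
  have h := eq_zero_of_bounded Δ hp 2 (fun P Q => by
    rw [happ, Finsupp.sub_apply]
    refine (abs_sub _ _).trans ?_
    have h1 := abs_single_le r P Q
    have h2 := abs_single_le r' P Q
    push_cast
    omega) D hD
  rwa [happ, sub_eq_zero] at h

variable (C : Ctx A N ℓ)
include C

theorem reductionModL_mk_rP (D : Divisor.degZero (K := Qb) (F := FB N)) :
    reductionModL A N (Pic0.mk D) = Pic0.mk (reductionDegZeroAlong (rP C) (deg_rP C) D) := by
  rw [reductionModL_mk (reductionInputs C) D]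
  refine congrArg Pic0.mk (Subtype.ext ?_)
  exact mapDomain_eq_of_isPlaceReduction (isPlaceReductionModL_placeReductionModL (reductionInputs C))
    (isPlaceReduction_rP C) (principalGenerated C) D.1 (Divisor.mem_degZero.mp D.2)

/-- functions on the special fibre without zeros and poles are constant -/
theorem exists_const_of_ord_eq_zero {x : FS A N} (hx : x ≠ 0) (h : ∀ Q : PS A N, Q.ord x = 0) :
    ∃ c : kA A, c ≠ 0 ∧ x = algebraMap (kA A) (FS A N) c := by
  have hb : ∀ s, x ∈ regOn (kA A) (tS A N s) := fun s Q _ =>
    RR.bd_iff.mpr (Or.inr (by rw [h Q]; simp))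
  have h1 : BS A N true x := (BS_iff C).mpr (hb true)
  have halg := isAlgebraic_of_isIntegral_both (K := kA A) (t := jS A N) (x := x)
    ((BS_iff C).mpr (hb false)) h1
  have hd := IsAlgClosed.degree_eq_one_of_irreducible (kA A) (minpoly.irreducible halg.isIntegral)
  obtain ⟨c, hc⟩ := minpoly.mem_range_of_degree_eq_one (kA A) x hd
  refine ⟨c, fun h0 => hx ?_, hc.symm⟩
  rw [← hc, h0]
  exact map_zero _

end FLTAgent.Reduction
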