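import Fermat.Agent.Reduction.Norm
import Fermat.Agent.Reduction.Torsion

/-!
Kronecker's congruence on the Jacobian: `red ∘ T_ℓ = (Φ + ℓ Φ⁻¹) ∘ red`.
-/

set_option autoImplicit false
set_option linter.unusedSectionVars false
set_option synthInstance.maxHeartbeats 200000

noncomputable section

open ModularCurve AlgebraicCurve IsLocalRing
open scoped Pointwise

namespace FLTAgent.Reduction

section Effective

variable {K F F' : Type*} [Field K] [Field F] [Field F'] [Algebra K F] [Algebra K F']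

theorem le_degree_of_nonneg [IsAlgClosed K] [CharZero K] [RR.FnField K F] (D : Divisor K F)
    (hD : ∀ v, 0 ≤ D v) (v : Place K F) : D v ≤ Divisor.degree D := by
  classical
  have h : Divisor.degree D = ∑ w ∈ D.support, D w := by
    show (D.sum fun w n => n * (w.deg : ℤ)) = _
    refine Finset.sum_congr rfl fun w _ => ?_
    show D w * (w.deg : ℤ) = D w
    rw [RR.deg_place, Nat.cast_one, mul_one]
  rw [h]
  by_cases hv : v ∈ D.support
  · exact Finset.single_le_sum (fun w _ => hD w) hv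
  · rw [Finsupp.notMem_support_iff.mp hv]
    exact Finset.sum_nonneg fun w _ => hD w

theorem mapDomain_nonneg_le {α β : Type*} (r : α → β) (D : α →₀ ℤ) (hD : ∀ a, 0 ≤ D a) (b : β) :
    0 ≤ Finsupp.mapDomain r D b ∧ Finsupp.mapDomain r D b ≤ D.sum fun _ n => n := by
  classical
  rw [mapDomain_apply_eq_sum r D b D.support subset_rfl]
  exact ⟨Finset.sum_nonneg fun a _ => hD a,
    Finset.sum_le_sum_of_subset_of_nonneg (Finset.filter_subset _ _) fun a _ _ => hD a⟩

theorem correspondence_single_nonneg [HasPrincipalDivisors K F'] (φ ψ : F →ₐ[K] F')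
    (hφ : φ.toRingHom.IsIntegral) (hψ : ψ.toRingHom.IsIntegral) (P : Place K F) (w : Place K F) :
    0 ≤ Divisor.correspondence φ ψ hφ hψ (Finsupp.single P 1) w := by
  classical
  rw [Divisor.correspondence_apply, Divisor.pullbackAlong_single, map_sum, Finset.sum_apply']
  refine Finset.sum_nonneg fun W _ => ?_
  rw [Divisor.pushforwardAlong_single, Finsupp.single_apply]
  split_ifs <;> positivity

end Effective

variable {A : ValuationSubring Qb} {N : ℕ} [NeZero N] {ℓ : ℕ} [NeZero ℓ] (C : Ctx A N ℓ)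
include C

set_option maxHeartbeats 1600000 in
/-- the divisor form of Kronecker's congruence -/
theorem mapDomain_rP_correspondence [HasPrincipalDivisors Qb (FB (N * ℓ))]
    (hα : (heckeAlphaBar Qb N ℓ).toRingHom.IsIntegral)
    (hβ : (heckeBetaBar Qb N ℓ).toRingHom.IsIntegral)
    (hFI : FundamentalIdentityAlong Qb (heckeBetaBar Qb N ℓ) hβ)
    (hfin : FiniteAlong Qb (heckeAlphaBar Qb N ℓ))
    (hN : NormFormulaAlong Qb (heckeAlphaBar Qb N ℓ) hfin)
    (D : Divisor Qb (FB N)) (hD : Divisor.degree D = 0) :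
    Finsupp.mapDomain (rP C)
        (Divisor.correspondence (heckeBetaBar Qb N ℓ) (heckeAlphaBar Qb N ℓ) hβ hα D) =
      frobS C • Finsupp.mapDomain (rP C) D +
        ℓ • ((frobS C)⁻¹ • Finsupp.mapDomain (rP C) D) := by
  classical
  set T := Divisor.correspondence (heckeBetaBar Qb N ℓ) (heckeAlphaBar Qb N ℓ) hβ hα with hT
  set r : Divisor Qb (FB N) →+ Divisor (kA A) (FS A N) := Finsupp.mapDomain.addMonoidHom (rP C)
  set Φ := frobS C with hΦ
  set Δ : Divisor Qb (FB N) →+ (PS A N →₀ ℤ) :=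
    r.comp T - ((DistribSMul.toAddMonoidHom (Divisor (kA A) (FS A N)) Φ).comp r +
      ℓ • ((DistribSMul.toAddMonoidHom (Divisor (kA A) (FS A N)) Φ⁻¹).comp r)) with hΔ
  have happ : ∀ E, Δ E = Finsupp.mapDomain (rP C) (T E) -
      (Φ • Finsupp.mapDomain (rP C) E + ℓ • (Φ⁻¹ • Finsupp.mapDomain (rP C) E)) := fun E => rfl
  have hint : ∀ E ∈ integralPrincipalDivisors A (residue A) N, Δ E = 0 := by
    rintro E ⟨y, hy, hyk, hne, hE⟩
    set f : FB N := ⟨_, hy⟩ with hf
    set fr : FS A N := ⟨_, hyk⟩ with hfr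
    have hf0 : f ≠ 0 := fun h => hne (by
      have h1 : coeffMap A.subtype y = 0 := congrArg Subtype.val h
      rw [toBar_injective A (h1.trans (map_zero _).symm), map_zero])
    have hfr0 : fr ≠ 0 := fun h => hne (congrArg Subtype.val h)
    obtain ⟨hgG, hgr⟩ := red_normBeta C (f := f) (G := y) rfl (fr := fr) rfl
    have h0 : Φ • fr ≠ 0 := (smul_ne_zero_iff_ne Φ).mpr hfr0
    have h0' : Φ⁻¹ • fr ≠ 0 := (smul_ne_zero_iff_ne Φ⁻¹).mpr hfr0
    have hgU : UG A N (normBeta N ℓ f) :=
      ⟨hgG, by rw [hgr]; exact mul_ne_zero h0 (pow_ne_zero _ h0')⟩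
    have hpush : T E = dv (normBeta N ℓ f) := by
      refine Finsupp.ext fun v => ?_
      rw [dv_apply, hT, Divisor.correspondence_apply]
      letI := algebraAlong (heckeAlphaBar Qb N ℓ)
      haveI := isScalarTower_along (heckeAlphaBar Qb N ℓ)
      haveI := isIntegral_along (heckeAlphaBar Qb N ℓ) hα
      haveI : Module.Finite (FB N) (FB (N * ℓ)) := hfin
      refine hN (heckeBetaBar Qb N ℓ f) ((map_ne_zero _).mpr hf0) _ (fun w => ?_) v
      rw [Divisor.pullbackAlong_apply, hE, Place.ord_restrictAlong _ hβ]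
    have h4 := (isPlaceReduction_rP C).2 y hy hyk hne E hE
    rw [happ, sub_eq_zero]
    refine Finsupp.ext fun Q => ?_
    have h5 := defect_eq_zero C hgU Q
    rw [defect, sub_eq_zero] at h5
    rw [hpush, h5, hgr, Finsupp.add_apply, Finsupp.smul_apply, smul_divisor_eq_ord Φ h4,
      smul_divisor_eq_ord Φ⁻¹ h4, Q.ord_mul h0 (pow_ne_zero _ h0'), RR.ord_pow, nsmul_eq_mul]
  have hp : ∀ E ∈ Divisor.principal (K := Qb) (F := FB N), Δ E = 0 := fun E hE =>
    (AddSubgroup.closure_le Δ.ker).mpr hint (principalGenerated C hE)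
  set B := finrankAlong Qb (heckeBetaBar Qb N ℓ) with hB
  have h := eq_zero_of_bounded Δ hp (B + 1 + ℓ) (fun P Q => by
    have hnn := correspondence_single_nonneg (heckeBetaBar Qb N ℓ) (heckeAlphaBar Qb N ℓ) hβ hα P
    have hdeg : (T (Finsupp.single P 1)).sum (fun _ n => n) = (B : ℤ) := by
      have h1 := Divisor.degree_correspondence (heckeBetaBar Qb N ℓ) (heckeAlphaBar Qb N ℓ) hβ hα
        hFI (Finsupp.single P 1)
      rw [Divisor.degree_single, RR.deg_place, Nat.cast_one, mul_one, mul_one] at h1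
      rw [hB, ← h1]
      exact Finset.sum_congr rfl fun w _ => ((fun n => by rw [RR.deg_place, Nat.cast_one, mul_one]) :
        ∀ n : ℤ, n = n * (w.deg : ℤ)) _
    obtain ⟨h1, h2⟩ := mapDomain_nonneg_le (rP C) _ hnn Q
    rw [hdeg] at h2
    rw [happ, Finsupp.mapDomain_single, SemilinearAut.smul_single, SemilinearAut.smul_single,
      Finsupp.sub_apply, Finsupp.add_apply, Finsupp.smul_apply, Finsupp.single_apply,
      Finsupp.single_apply, nsmul_eq_mul]
    rw [abs_le]
    push_cast
    split_ifs <;> constructor <;> linarith) D hD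
  rwa [happ, sub_eq_zero] at h

set_option maxHeartbeats 1600000 in
/-- Kronecker's congruence -/
theorem reductionModL_hecke (x : JZero N) :
    reductionModL A N (heckeOperatorBar N ⟨ℓ, C.prime⟩ x) =
      frobS C • reductionModL A N x + ℓ • ((frobS C)⁻¹ • reductionModL A N x) := by
  haveI : HasPrincipalDivisors Qb (FB (N * ℓ)) := HeckeJ.hasPrincipalDivisors_bar (N * ℓ)
  have hα : (heckeAlphaBar Qb N ℓ).toRingHom.IsIntegral := HeckeJ.heckeAlphaBarIntegral N ℓ
  have hβ : (heckeBetaBar Qb N ℓ).toRingHom.IsIntegral := HeckeJ.heckeBetaBarIntegral N ℓ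
  have hFI : FundamentalIdentityAlong Qb (heckeBetaBar Qb N ℓ) hβ := HeckeJ.fundamentalIdentityAlong _ _
  have hfin : FiniteAlong Qb (heckeAlphaBar Qb N ℓ) := HeckeJ.finiteAlong _
  have hN : NormFormulaAlong Qb (heckeAlphaBar Qb N ℓ) hfin := HeckeJ.normFormulaAlong _ _
  obtain ⟨D, rfl⟩ := Pic0.mk_surjective x
  have e : heckeOperatorBar N ⟨ℓ, C.prime⟩ (Pic0.mk D) =
      Pic0.mk (Pic0.degZeroCorrespondence (heckeBetaBar Qb N ℓ) (heckeAlphaBar Qb N ℓ) hβ hα hFI D) := by
    show heckeOperatorAlong Qb N ℓ (Pic0.mk D) = _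
    rw [heckeOperatorAlong_eq hα hβ hFI hfin hN]
    rfl
  rw [e, reductionModL_mk_rP C, reductionModL_mk_rP C,
    SemilinearAut.pic0_smul_mk, SemilinearAut.pic0_smul_mk]
  show Pic0.mk _ = Pic0.mk _ + ℓ • (QuotientAddGroup.mk _ : Pic0 _ _)
  rw [← QuotientAddGroup.mk_nsmul]
  show Pic0.mk _ = Pic0.mk (_ + _)
  refine congrArg Pic0.mk (Subtype.ext ?_)
  rw [AddSubgroup.coe_add, AddSubgroupClass.coe_nsmul]
  exact mapDomain_rP_correspondence C hα hβ hFI hfin hN D.1 (Divisor.mem_degZero.mp D.2)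

/-- the quadratic relation of Frobenius, after reduction -/
theorem reductionModL_quadratic (x : JZero N) :
    frobS C • frobS C • reductionModL A N x -
        frobS C • reductionModL A N (heckeOperatorBar N ⟨ℓ, C.prime⟩ x) +
      ℓ • reductionModL A N x = 0 := by
  have h : frobS C • reductionModL A N (heckeOperatorBar N ⟨ℓ, C.prime⟩ x) =
      frobS C • frobS C • reductionModL A N x + ℓ • reductionModL A N x := by
    rw [reductionModL_hecke C x, smul_add]
    congr 1
    refine (map_nsmul (DistribSMul.toAddMonoidHom (JZeroC (kA A) N) (frobS C)) ℓ _).trans ?_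
    exact congrArg (ℓ • ·) (smul_inv_smul (frobS C) _)
  rw [h]
  abel

end FLTAgent.Reduction
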