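import Fermat.Agent.Good.API
import Fermat.Agent.Reduction.Torsion
import Fermat.Agent.Reduction.Galois
import Fermat.Agent.Reduction.Kronecker
import Fermat.Prelude.Def_ModularCurve_HeckeModule

/-!
Interface: reduction of the modular Jacobian at a prime `ℓ ∤ N` (owner: helper7; proofs being filled in).
-/

set_option autoImplicit false

noncomputable section

open ModularCurve

namespace FLTAgent.Reduction

variable (N : ℕ) [NeZero N] {ℓ : ℕ} (hℓ : ℓ.Prime) (hℓN : ¬ ℓ ∣ N)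
  (A : ValuationSubring (AlgebraicClosure ℚ)) (hA : A.LiesOverPrime ℓ)

include hℓ hℓN hA

theorem reductionInputsModL : ReductionInputsModL A N := reductionInputs ⟨hℓ, hℓN, hA⟩

/-- reduction is injective on torsion prime to `ℓ` -/
theorem eq_zero_of_reductionModL_eq_zero {m : ℕ} (hm : ¬ ℓ ∣ m) {z : JZero N} (hmz : m • z = 0)
    (hz : reductionModL A N z = 0) : z = 0 :=
  eq_zero_of_torsion ⟨hℓ, hℓN, hA⟩ hm hmz hz

/-- the congruence relation on torsion prime to `ℓ` -/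
theorem frobenius_quadratic {σ : AlgebraicClosure ℚ ≃ₐ[ℚ] AlgebraicClosure ℚ}
    (hσ : A.IsFrobeniusAt σ ℓ) {m : ℕ} (hm : ¬ ℓ ∣ m) {x : JZero N} (hx : m • x = 0) :
    σ • σ • x - heckeOperatorBar N ⟨ℓ, hℓ⟩ (σ • x) + ℓ • x = 0 := by
  haveI : NeZero ℓ := ⟨hℓ.ne_zero⟩
  have C : Ctx A N ℓ := ⟨hℓ, hℓN, hA⟩
  have hσm : m • σ • x = 0 := by
    have h := map_nsmul (DistribSMul.toAddMonoidHom (JZero N) σ) m x
    rw [hx, map_zero] at h
    exact h.symm
  refine eq_zero_of_torsion C hm ?_ ?_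
  · rw [nsmul_add, nsmul_sub, ← map_nsmul (heckeOperatorBar N ⟨ℓ, hℓ⟩), hσm, map_zero,
      show m • ℓ • x = ℓ • m • x from smul_comm m ℓ x, hx, smul_zero,
      show m • σ • σ • x = σ • (m • σ • x) from
        (map_nsmul (DistribSMul.toAddMonoidHom (JZero N) σ) m (σ • x)).symm, hσm]
    rw [sub_zero, add_zero]
    exact map_zero (DistribSMul.toAddMonoidHom (JZero N) σ)
  · rw [map_add, map_sub, map_nsmul, reductionModL_frobenius C hσ,
      show heckeOperatorBar N ⟨ℓ, hℓ⟩ (σ • x) = σ • heckeOperatorBar N ⟨ℓ, hℓ⟩ x from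
        (HeckeJ.smul_hecke N σ _ x).symm,
      reductionModL_frobenius C hσ, reductionModL_frobenius C hσ]
    exact reductionModL_quadratic C x

/-- inertia fixes torsion prime to `ℓ` -/
theorem inertia_trivial {σ : AlgebraicClosure ℚ ≃ₐ[ℚ] AlgebraicClosure ℚ}
    (hσ : σ ∈ A.inertiaSubgroupIn ℚ) {m : ℕ} (hm : ¬ ℓ ∣ m) {x : JZero N} (hx : m • x = 0) :
    σ • x = x := by
  refine sub_eq_zero.mp (eq_zero_of_torsion ⟨hℓ, hℓN, hA⟩ hm ?_ ?_)
  · rw [nsmul_sub, show m • σ • x = σ • (m • x) from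
      (map_nsmul (DistribSMul.toAddMonoidHom (JZero N) σ) m x).symm, hx, sub_zero]
    exact map_zero (DistribSMul.toAddMonoidHom (JZero N) σ)
  · rw [map_sub, reductionModL_inertia ⟨hℓ, hℓN, hA⟩ hσ, sub_self]

end FLTAgent.Reduction
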