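import Fermat.Agent.Reduction.Gauss

/-!
The charts are exactly the Gauss integral functions regular over the chart.
-/

set_option autoImplicit false
set_option linter.unusedSectionVars false
set_option synthInstance.maxHeartbeats 100000

noncomputable section

open ModularCurve AlgebraicCurve Polynomial IsLocalRing
open FLTAgent.RR (Bd KK)

namespace FLTAgent.Reduction

variable {A : ValuationSubring Qb} {N : ℕ} [NeZero N] {ℓ : ℕ}

theorem phiA_false_mem_fieldRange (s : Bool) {L : Type*} [Field L] (ρ : L →+* FB N)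
    (hconst : ∀ c : Qb, cB N c ∈ ρ.fieldRange) (ht : tB N s ∈ ρ.fieldRange) (p : A[X]) :
    phiA A N false p ∈ ρ.fieldRange := by
  have hj : tB N false ∈ ρ.fieldRange := by
    cases s
    · exact ht
    · have := inv_mem ht
      simpa [tB] using this
  induction p using Polynomial.induction_on' with
  | add p q hp hq => rw [map_add]; exact add_mem hp hq
  | monomial n a =>
      rw [← Polynomial.C_mul_X_pow_eq_monomial, map_mul, map_pow]
      refine mul_mem ?_ (pow_mem ?_ n)
      · simpa [phiA] using hconst (a : Qb)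
      · simpa [phiA] using hj

variable (C : Ctx A N ℓ)
include C

/-- a polynomial in the coordinate is Gauss integral iff its coefficients are -/
theorem exists_lift_of_aeval_mem {s : Bool} {q : Qb[X]}
    (h : Polynomial.aeval (tB N s) q ∈ GR A N) : ∃ Q : A[X], Q.map A.subtype = q := by
  rcases eq_or_ne q 0 with rfl | hq
  · exact ⟨0, Polynomial.map_zero _⟩
  obtain ⟨γ, Q, hγ, hQ, _, hQi⟩ := exists_normalize (A := A) (fun _ : Unit => q) ⟨(), hq⟩
  have hu : UG A N (phiA A N s (Q ())) :=
    ⟨phiA_mem s _, by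
      rw [red_phiA C]
      exact fun h0 => hQi ((transcendental_iff.mp (transcendental_tS A N s)) _ h0)⟩
  have he : cB N γ * phiA A N s (Q ()) = Polynomial.aeval (tB N s) q := by
    rw [← hQ (), map_mul, aeval_C, phiA_apply]
  have hγA : γ ∈ A := mem_A_of_UG_mul C hu (he ▸ h)
  refine ⟨Polynomial.C ⟨γ, hγA⟩ * Q (), ?_⟩
  rw [Polynomial.map_mul, Polynomial.map_C, ← hQ ()]
  rfl

theorem BT_of_mem {s : Bool} {b : FB N} (hreg : b ∈ regOn Qb (tB N s)) (hb : b ∈ GR A N) :
    BT A N s b := by
  classical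
  haveI := finite_tB N s
  haveI := separable_tB N s
  obtain ⟨B⟩ := nonempty_basis0 C
  refine with_sepChart (transcendental_tB N s) ?_
  intro _ _ _ _ _ _ hp hxv _
  set ρ : RatFunc Qb →+* FB N := algebraMap (RatFunc Qb) (FB N) with hρ
  have hρpoly : ∀ q : Qb[X], ρ (algebraMap Qb[X] (RatFunc Qb) q) = Polynomial.aeval (tB N s) q :=
    fun q => by rw [hρ, ← IsScalarTower.algebraMap_apply, hp]
  let O : ValuationSubring (RatFunc Qb) :=
    { (GR A N).comap ρ with
      mem_or_inv_mem' := fun r => by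
        show ρ r ∈ GR A N ∨ ρ r⁻¹ ∈ GR A N
        rw [map_inv₀]
        exact mem_or_inv_mem_GR C (ρ r) }
  have hO : ∀ r, r ∈ O ↔ ρ r ∈ GR A N := fun r => Iff.rfl
  letI algO : Algebra O (FB N) := (ρ.comp O.subtype).toAlgebra
  haveI : IsScalarTower O (RatFunc Qb) (FB N) := IsScalarTower.of_algebraMap_eq fun r => rfl
  let S : Subalgebra O (FB N) :=
    { (GR A N).toSubsemiring with
      algebraMap_mem' := fun r => (hO r.1).mp r.2 }
  have hconst : ∀ c : Qb, cB N c ∈ ρ.fieldRange := fun c =>
    ⟨algebraMap Qb[X] (RatFunc Qb) (Polynomial.C c), by rw [hρpoly, aeval_C]⟩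
  have ht : tB N s ∈ ρ.fieldRange :=
    ⟨algebraMap Qb[X] (RatFunc Qb) Polynomial.X, by rw [hρpoly, aeval_X]⟩
  have hfg : (Subalgebra.toSubmodule S).FG := by
    refine ⟨Finset.univ.image B.e, le_antisymm ?_ ?_⟩
    · rw [Submodule.span_le]
      intro z hz
      rw [Finset.coe_image] at hz
      obtain ⟨i, -, rfl⟩ := hz
      exact BT.mem_GR C (B.bt i)
    · intro z (hz : z ∈ GR A N)
      rcases eq_or_ne z 0 with rfl | hz0
      · exact zero_mem _
      obtain ⟨c, Q, P, hc, hQ, ⟨i, hi⟩, h⟩ := exists_repr C B hz0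
      have hQ0 := aeval_tS_ne_zero C false hQ
      have hQF : phiA A N false Q ≠ 0 := fun h0 => hQ0 (by rw [h0, redS_zero])
      have hcb : cB N c * B.comb P ∈ GR A N := h ▸ mul_mem hz (phiA_mem false Q)
      have hcA : c ∈ A := mem_A_of_cB_mul C (comb_mem C B P)
        (fun h0 => hi ((redS_comb C B P).2 h0 i)) hcb
      have hz' : z = ∑ j, (cB N c * phiA A N false (P j) / phiA A N false Q) * B.e j := by
        rw [eq_comm, ← mul_right_inj' hQF, Finset.mul_sum, mul_comm (phiA A N false Q) z, h,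
          Basis0.comb, Finset.mul_sum]
        refine Finset.sum_congr rfl fun j _ => ?_
        field_simp
      rw [hz']
      refine sum_mem fun j _ => ?_
      have hmem : cB N c * phiA A N false (P j) / phiA A N false Q ∈ GR A N :=
        (mem_GR_of_mul_eq C (phiA_mem false Q) hQ0 (mul_mem (cB_mem hcA) (phiA_mem false (P j)))
          (div_mul_cancel₀ _ hQF)).1
      obtain ⟨r, hr⟩ : cB N c * phiA A N false (P j) / phiA A N false Q ∈ ρ.fieldRange :=
        div_mem (mul_mem (hconst c) (phiA_false_mem_fieldRange s ρ hconst ht _))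
          (phiA_false_mem_fieldRange s ρ hconst ht _)
      rw [← hr]
      have hrO : r ∈ O := (hO r).mpr (hr ▸ hmem)
      have : ρ r * B.e j = (⟨r, hrO⟩ : O) • B.e j :=
        (Algebra.smul_def (⟨r, hrO⟩ : O) (B.e j)).symm
      rw [this]
      exact Submodule.smul_mem _ _ (Submodule.subset_span (by simp))
  have hintO : IsIntegral O b := IsIntegral.of_mem_of_fg S hfg b hb
  have hintP : IsIntegral Qb[X] b := RR.Chart.mem_A_of_bd (K := Qb) fun v hv =>
    hreg v (by rw [← hxv]; exact hv)
  have e1 := minpoly.isIntegrallyClosed_eq_field_fractions' (RatFunc Qb) hintP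
  have e2 := minpoly.isIntegrallyClosed_eq_field_fractions' (RatFunc Qb) hintO
  set m := minpoly Qb[X] b with hm
  have hcoef : ∀ n, ∃ Q : A[X], Q.map A.subtype = m.coeff n := by
    intro n
    refine exists_lift_of_aeval_mem C ?_ (s := s)
    rw [← hρpoly]
    have h12 := congrArg (fun q => Polynomial.coeff q n) (e1.symm.trans e2)
    simp only [Polynomial.coeff_map] at h12
    rw [h12]
    exact (hO _).mp ((minpoly O b).coeff n).2
  have hlift : m ∈ Polynomial.lifts (Polynomial.mapRingHom A.subtype) :=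
    (Polynomial.lifts_iff_coeff_lifts _).mpr fun n => by
      obtain ⟨Q, hQ⟩ := hcoef n
      exact ⟨Q, hQ⟩
  obtain ⟨q, hq, -, hqm⟩ := Polynomial.lifts_and_natDegree_eq_and_monic hlift (minpoly.monic hintP)
  refine ⟨q, hqm, ?_⟩
  have hφ : phiA A N s = (algebraMap Qb[X] (FB N)).comp (Polynomial.mapRingHom A.subtype) :=
    RingHom.ext fun p => by rw [phiA_apply, RingHom.comp_apply, hp]; rfl
  rw [hφ, ← Polynomial.eval₂_map, hq]
  exact minpoly.aeval Qb[X] b

theorem BT_iff {s : Bool} {b : FB N} :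
    BT A N s b ↔ b ∈ regOn Qb (tB N s) ∧ b ∈ GR A N :=
  ⟨fun h => ⟨h.mem_regOn, BT.mem_GR C h⟩, fun h => BT_of_mem C h.1 h.2⟩

theorem BS_iff {s : Bool} {x : FS A N} : BS A N s x ↔ x ∈ regOn (kA A) (tS A N s) := by
  haveI := finite_tS C s
  haveI := separable_tS C s
  refine ⟨fun h => mem_regOn_of_isIntegral _ (fun p => ?_) h, fun h => ?_⟩
  · exact Algebra.adjoin_le (Set.singleton_subset_iff.mpr (self_mem_regOn _))
      (Polynomial.aeval_mem_adjoin_singleton (kA A) _)
  · exact isIntegral_of_mem_regOn (transcendental_tS A N s) h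

end FLTAgent.Reduction
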