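import Fermat.Agent.RR.Global

/-! Values of functions at places, and fibrewise sums of divisors. -/

set_option autoImplicit false
set_option linter.unusedSectionVars false

noncomputable section

open AlgebraicCurve Polynomial
open FLTAgent.RR (Bd)

namespace FLTAgent.Reduction

variable {K F : Type*} [Field K] [Field F] [Algebra K F]

/-- `x` takes the value `c` at `v` -/
def Val (v : Place K F) (x : F) (c : K) : Prop := Bd v (x - algebraMap K F c) (-1)

namespace Val

variable {v : Place K F} {x y : F} {c d : K}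

theorem const (c : K) : Val v (algebraMap K F c) c := by
  rw [Val, sub_self]; exact RR.Bd.zero

theorem bd (h : Val v x c) : Bd v x 0 := by
  have := (RR.Bd.mono h (by norm_num : (-1 : ℤ) ≤ 0)).add (RR.Bd.of_algebraMap (v := v) c)
  rwa [sub_add_cancel] at this

theorem add (h : Val v x c) (h' : Val v y d) : Val v (x + y) (c + d) := by
  have := RR.Bd.add h h'
  rwa [Val, map_add, add_sub_add_comm]

theorem sub (h : Val v x c) (h' : Val v y d) : Val v (x - y) (c - d) := by
  have := RR.Bd.sub h h'
  rwa [Val, map_sub, sub_sub_sub_comm]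

theorem mul (h : Val v x c) (h' : Val v y d) : Val v (x * y) (c * d) := by
  have e : x * y - algebraMap K F (c * d) =
      (x - algebraMap K F c) * y + algebraMap K F c * (y - algebraMap K F d) := by
    rw [map_mul]; ring
  rw [Val, e]
  exact (by simpa using RR.Bd.mul h h'.bd : Bd v ((x - algebraMap K F c) * y) (-1)).add
    (by simpa using RR.Bd.mul (RR.Bd.of_algebraMap (v := v) c) h')

theorem one : Val v (1 : F) (1 : K) := by simpa using const (v := v) (1 : K)

theorem zero : Val v (0 : F) (0 : K) := by simpa using const (v := v) (0 : K)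

theorem pow (h : Val v x c) : ∀ n : ℕ, Val v (x ^ n) (c ^ n)
  | 0 => by simpa using one
  | n + 1 => by rw [pow_succ, pow_succ]; exact (pow h n).mul h

theorem unique (h : Val v x c) (h' : Val v x d) : c = d := by
  have h2 := RR.Bd.sub h' h
  rw [sub_sub_sub_cancel_left, ← map_sub, RR.bd_iff] at h2
  rcases h2 with h2 | h2
  · exact sub_eq_zero.mp ((map_eq_zero _).mp h2)
  · rw [RR.ord_algebraMap] at h2
    omega

theorem zero_iff : Val v x 0 ↔ x = 0 ∨ 1 ≤ v.ord x := by
  rw [Val, map_zero, sub_zero, RR.bd_iff]; simp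

theorem ord_pos (h : Val v x 0) (hx : x ≠ 0) : 1 ≤ v.ord x := (zero_iff.mp h).resolve_left hx

theorem ord_eq_zero (h : Val v x c) (hc : c ≠ 0) : x ≠ 0 ∧ v.ord x = 0 := by
  refine RR.ord_eq_of_bd h.bd fun h' => hc ?_
  refine h.unique ?_
  rw [Val, map_zero, sub_zero]
  exact h'.mono (by norm_num)

theorem inv (h : Val v x c) (hc : c ≠ 0) : Val v x⁻¹ c⁻¹ := by
  obtain ⟨hx, hord⟩ := h.ord_eq_zero hc
  have e : x⁻¹ - algebraMap K F c⁻¹ = (-(algebraMap K F c⁻¹) * x⁻¹) * (x - algebraMap K F c) := by
    rw [map_inv₀]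
    have : algebraMap K F c ≠ 0 := (_root_.map_ne_zero _).mpr hc
    field_simp
    ring
  rw [Val, e]
  have hb : Bd v x⁻¹ 0 := RR.bd_iff.mpr (Or.inr (by rw [v.ord_inv, hord]))
  simpa using RR.Bd.mul (RR.Bd.mul (RR.Bd.of_algebraMap (v := v) c⁻¹).neg hb) h

theorem aeval (h : Val v x c) (p : K[X]) : Val v (Polynomial.aeval x p) (p.eval c) := by
  induction p using Polynomial.induction_on' with
  | add p q hp hq => rw [map_add, Polynomial.eval_add]; exact hp.add hq
  | monomial n a =>
      rw [← Polynomial.C_mul_X_pow_eq_monomial, map_mul, map_pow, aeval_C, aeval_X,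
        Polynomial.eval_mul, Polynomial.eval_C, Polynomial.eval_pow, Polynomial.eval_X]
      exact (const a).mul (h.pow n)

end Val

theorem val_zero_of_ord_pos {v : Place K F} {x : F} (h : 0 < v.ord x) : Val v x (0 : K) :=
  Val.zero_iff.mpr (Or.inr (by omega))

theorem bd_inv_of_not_bd {v : Place K F} {x : F} (h : ¬ Bd v x 0) : Bd v x⁻¹ (-1) := by
  rw [RR.not_bd_iff] at h
  rw [RR.bd_iff_ord (inv_ne_zero h.1), v.ord_inv]
  omega

theorem exists_val {v : Place K F} (hv : RR.HasRes v) {x : F} (h : Bd v x 0) :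
    ∃ c : K, Val v x c :=
  hv x h

/-- the divisor image, evaluated at a point -/
theorem mapDomain_apply_eq_sum {α β : Type*} [DecidableEq β] (f : α → β) (D : α →₀ ℤ) (Q : β)
    (S : Finset α) (hS : D.support ⊆ S) :
    Finsupp.mapDomain f D Q = ∑ P ∈ S.filter (fun P => f P = Q), D P := by
  rw [Finsupp.mapDomain, Finsupp.sum_apply, Finset.sum_filter,
    Finsupp.sum_of_support_subset D hS _ (by simp)]
  exact Finset.sum_congr rfl fun P _ => by rw [Finsupp.single_apply]

theorem mapDomain_congr_fibre {α β : Type*} (f : α → β) (D E : α →₀ ℤ) (Q : β)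
    (h : ∀ P, f P = Q → D P = E P) : Finsupp.mapDomain f D Q = Finsupp.mapDomain f E Q := by
  classical
  rw [mapDomain_apply_eq_sum f D Q (D.support ∪ E.support) Finset.subset_union_left,
    mapDomain_apply_eq_sum f E Q (D.support ∪ E.support) Finset.subset_union_right]
  exact Finset.sum_congr rfl fun P hP => h P (Finset.mem_filter.mp hP).2

end FLTAgent.Reduction
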