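import Fermat.Agent.Reduction.ChartMem
import Fermat.Agent.Reduction.Val
import Fermat.Agent.RR.API

/-!
The reduction map on places.
-/

set_option autoImplicit false
set_option linter.unusedSectionVars false
set_option synthInstance.maxHeartbeats 100000

noncomputable section

open ModularCurve AlgebraicCurve Polynomial IsLocalRing
open FLTAgent.RR (Bd KK)

namespace FLTAgent.Reduction

variable (A : ValuationSubring Qb) (N : ℕ) [NeZero N]

/-- places of `ℚ̄(X₀(N))` -/
abbrev PB : Type := Place Qb (FB N)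

/-- places of the special fibre -/
abbrev PS : Type := Place (kA A) (FS A N)

variable {A N}

/-- `Q` is a reduction of `P` -/
def Red (P : PB N) (Q : PS A N) : Prop :=
  ∀ (s : Bool) (b : FB N) (d c : Qb), BT A N s b → Val P (tB N s) d → d ∈ A → Val P b c →
    ∃ hc : c ∈ A, Val Q (red A N b) (residue A ⟨c, hc⟩)

/-- transfer regularity between the two charts -/
theorem exists_pow_mul_mem {K F : Type*} [Field K] [Field F] [Algebra K F] {t y : F}
    (ht : t ≠ 0) (hfin : y ≠ 0 → {v : Place K F | Bd v t 0 ∧ v.ord y ≠ 0}.Finite)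
    (hy : y ∈ regOn K t⁻¹) : ∃ a : ℕ, t ^ a * y ∈ regOn K t := by
  classical
  rcases eq_or_ne y 0 with rfl | hy0
  · exact ⟨0, by simpa using (regOn K t).zero_mem⟩
  set a := ∑ v ∈ (hfin hy0).toFinset, (-v.ord y).toNat
  refine ⟨a, fun v hv => ?_⟩
  have hv' := (RR.bd_iff_ord ht).mp hv
  rw [RR.bd_iff_ord (mul_ne_zero (pow_ne_zero _ ht) hy0), v.ord_mul (pow_ne_zero _ ht) hy0,
    RR.ord_pow]
  rcases eq_or_lt_of_le (show 0 ≤ v.ord t by omega) with h0 | hpos
  · have := (RR.bd_iff_ord hy0).mp (hy v (RR.bd_iff.mpr (Or.inr (by rw [v.ord_inv]; omega))))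
    rw [← h0]
    simp
    omega
  · by_cases hmem : v ∈ (hfin hy0).toFinset
    · have h1 : (-v.ord y).toNat ≤ a :=
        Finset.single_le_sum (f := fun v => (-v.ord y).toNat) (fun i _ => Nat.zero_le _) hmem
      have h2 := Int.self_le_toNat (-v.ord y)
      nlinarith
    · rw [Set.Finite.mem_toFinset, Set.mem_setOf_eq, not_and, not_not] at hmem
      rw [hmem hv]
      nlinarith

theorem finite_ord_B {y : FB N} (hy : y ≠ 0) : {v : PB N | v.ord y ≠ 0}.Finite :=
  RR.finite_ord_ne (K := Qb) hy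

theorem val_exists_B {P : PB N} {x : FB N} (h : Bd P x 0) : ∃ c, Val P x c :=
  exists_val (RR.hasRes P) h

variable {ℓ : ℕ} (C : Ctx A N ℓ)
include C

theorem hasRes_S (Q : PS A N) : RR.HasRes Q := by
  haveI := finite_tS C false
  haveI := separable_tS C false
  haveI := finite_tS C true
  haveI := separable_tS C true
  by_cases h : Bd Q (tS A N false) 0
  · exact hasRes_of_finite (transcendental_tS A N false) h
  · refine hasRes_of_finite (transcendental_tS A N true) ?_
    have := bd_inv_of_not_bd h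
    rw [← tS_not] at this
    exact this.mono (by norm_num)

theorem val_exists_S {Q : PS A N} {x : FS A N} (h : Bd Q x 0) : ∃ c, Val Q x c :=
  exists_val (hasRes_S C Q) h

theorem finite_ord_S (s : Bool) {x : FS A N} (hx : x ≠ 0) :
    {Q : PS A N | Bd Q (tS A N s) 0 ∧ Q.ord x ≠ 0}.Finite := by
  haveI := finite_tS C s
  haveI := separable_tS C s
  exact finite_ord_of_finite (transcendental_tS A N s) hx

theorem exists_pow_mul_BT {s : Bool} {b : FB N} (hb : BT A N (!s) b) :
    ∃ a : ℕ, BT A N s (tB N s ^ a * b) := by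
  obtain ⟨a, ha⟩ := exists_pow_mul_mem (tB_ne_zero N s)
    (fun hy => (finite_ord_B hy).subset fun v hv => hv.2)
    (y := b) (by rw [← tB_not]; exact hb.mem_regOn)
  exact ⟨a, BT_of_mem C ha (mul_mem (pow_mem (tB_mem s) a) (BT.mem_GR C hb))⟩

/-- values of chart functions at integral points are integral -/
theorem val_mem_A {s : Bool} {b : FB N} {P : PB N} {d c : Qb} (hb : BT A N s b)
    (hd : Val P (tB N s) d) (hdA : d ∈ A) (hc : Val P b c) : c ∈ A := by
  obtain ⟨p, hp, hpb⟩ := hb
  set ev : A[X] →+* A := Polynomial.evalRingHom ⟨d, hdA⟩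
  have hev : ∀ q : A[X], Val P (phiA A N s q) ((ev q : A) : Qb) := by
    intro q
    rw [phiA_apply]
    have := hd.aeval (q.map A.subtype)
    rwa [show (q.map A.subtype).eval d = ((ev q : A) : Qb) by
      rw [Polynomial.eval_map]
      exact Polynomial.eval₂_at_apply (f := A.subtype) (r := ⟨d, hdA⟩)] at this
  have hval : ∀ n : ℕ, Val P (∑ i ∈ Finset.range n, phiA A N s (p.coeff i) * b ^ i)
      (∑ i ∈ Finset.range n, ((ev (p.coeff i) : A) : Qb) * c ^ i) := by
    intro n
    induction n with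
    | zero => simpa using Val.zero
    | succ n ih =>
        rw [Finset.sum_range_succ, Finset.sum_range_succ]
        exact ih.add ((hev _).mul (hc.pow n))
  have h1 := hval (p.natDegree + 1)
  rw [← Polynomial.eval₂_eq_sum_range, hpb] at h1
  have h2 := h1.unique Val.zero
  refine mem_A_of_isIntegral A ⟨p.map ev, hp.map _, ?_⟩
  rw [Polynomial.eval₂_map, Polynomial.eval₂_eq_sum_range]
  exact h2

omit C in
/-- one of the two coordinates has an integral value, the other a small one -/
theorem exists_chart (P : PB N) (s : Bool) :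
    (∃ d, d ∈ A ∧ Val P (tB N s) d) ∨
      (∃ d, A.valuation d < 1 ∧ Val P (tB N (!s)) d ∧
        ∀ d', Val P (tB N s) d' → d' ∉ A) := by
  by_cases h : Bd P (tB N s) 0
  · obtain ⟨d, hd⟩ := val_exists_B h
    by_cases hdA : d ∈ A
    · exact Or.inl ⟨d, hdA, hd⟩
    · have hd0 : d ≠ 0 := fun h0 => hdA (h0 ▸ A.zero_mem)
      refine Or.inr ⟨d⁻¹, ?_, by rw [tB_not]; exact hd.inv hd0, fun d' hd' => ?_⟩
      · rw [map_inv₀, inv_lt_one_iff₀]
        exact Or.inr (lt_of_not_ge fun hle => hdA ((A.valuation_le_one_iff d).mp hle))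
      · rwa [← hd.unique hd']
  · refine Or.inr ⟨0, by simp, ?_, fun d' hd' => absurd hd'.bd h⟩
    rw [tB_not, Val, map_zero, sub_zero]
    exact bd_inv_of_not_bd h

theorem exists_red_of_chart {P : PB N} {s : Bool} {d : Qb} (hd : Val P (tB N s) d) (hdA : d ∈ A) :
    ∃ Q : PS A N, Bd Q (tS A N s) 0 ∧ Red P Q := by
  haveI := finite_tS C s
  haveI := separable_tS C s
  set t := tS A N s with ht
  let I : Ideal (regOn (kA A) t) :=
    { carrier := {x | ∃ (b : FB N) (c : Qb), BT A N s b ∧ Val P b c ∧ A.valuation c < 1 ∧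
        red A N b = (x : FS A N)}
      add_mem' := by
        rintro x y ⟨b, c, hb, hc, hc1, h⟩ ⟨b', c', hb', hc', hc1', h'⟩
        refine ⟨b + b', c + c', hb.add hb', hc.add hc',
          lt_of_le_of_lt (A.valuation.map_add c c') (max_lt hc1 hc1'), ?_⟩
        rw [red_add C (BT.mem_GR C hb) (BT.mem_GR C hb'), h, h']
        rfl
      zero_mem' := ⟨0, 0, by simpa using BT_const (A := A) (N := N) s A.zero_mem, Val.zero,
        by simp, red_zero C⟩
      smul_mem' := by
        rintro ⟨y, hy⟩ x ⟨b, c, hb, hc, hc1, h⟩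
        obtain ⟨b', hb', hr⟩ := exists_lift C ((BS_iff C).mpr hy)
        obtain ⟨c', hc'⟩ := val_exists_B (hb'.mem_regOn P hd.bd)
        refine ⟨b' * b, c' * c, hb'.mul hb, hc'.mul hc, ?_, ?_⟩
        · rw [map_mul]
          exact lt_of_le_of_lt (mul_le_mul_left (val_le_one_of_mem (val_mem_A C hb' hd hdA hc')) _)
            (by rwa [one_mul])
        · rw [red_mul C (BT.mem_GR C hb') (BT.mem_GR C hb), h, hr]
          rfl }
  have hI : I ≠ ⊤ := by
    rw [Ne, Ideal.eq_top_iff_one]
    rintro ⟨b, c, hb, hc, hc1, h⟩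
    have hsub := hb.sub (BT_one s)
    have hr0 : red A N (b - 1) = 0 := by
      rw [red_sub C (BT.mem_GR C hb) (one_mem _), h, red_one C]
      simp
    obtain ⟨γ, z, hγ, hz, he⟩ := exists_small C (BT.mem_GR C hsub) hr0
    rcases eq_or_ne γ 0 with rfl | hγ0
    · simp only [cB, map_zero, zero_mul, sub_eq_zero] at he
      subst he
      rw [hc.unique Val.one, map_one] at hc1
      exact lt_irrefl _ hc1
    · have hzBT : BT A N s z := by
        refine BT_of_mem C ?_ hz
        have : z = cB N γ⁻¹ * (b - 1) := by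
          rw [he, ← mul_assoc, ← map_mul, inv_mul_cancel₀ hγ0, map_one, one_mul]
        rw [this]
        exact mul_mem ((regOn Qb (tB N s)).algebraMap_mem _) hsub.mem_regOn
      obtain ⟨e, he'⟩ := val_exists_B (hzBT.mem_regOn P hd.bd)
      have heA := val_mem_A C hzBT hd hdA he'
      have h1 : Val P (b - 1) (γ * e) := he ▸ (Val.const γ).mul he'
      have h2 := h1.unique (hc.sub Val.one)
      have h3 : A.valuation (1 : Qb) < 1 := by
        rw [show (1 : Qb) = c - γ * e by rw [h2]; ring]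
        refine lt_of_le_of_lt (A.valuation.map_sub c (γ * e)) (max_lt hc1 ?_)
        rw [map_mul]
        exact lt_of_le_of_lt (mul_le_mul_right (val_le_one_of_mem heA) _) (by rwa [mul_one])
      rw [map_one] at h3
      exact lt_irrefl _ h3
  obtain ⟨Q, hQ, hQI⟩ := exists_place_of_ideal (transcendental_tS A N s) I hI
  -- the same chart
  have key : ∀ (b : FB N) (c : Qb), BT A N s b → Val P b c →
      ∃ hc : c ∈ A, Val Q (red A N b) (residue A ⟨c, hc⟩) := by
    intro b c hb hc
    have hcA := val_mem_A C hb hd hdA hc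
    refine ⟨hcA, ?_⟩
    have hbc : BT A N s (b - cB N c) := hb.sub (BT_const s hcA)
    have hr : red A N (b - cB N c) =
        red A N b - algebraMap (kA A) (FS A N) (residue A ⟨c, hcA⟩) := by
      rw [red_sub C (BT.mem_GR C hb) (cB_mem hcA), red_cB C ⟨c, hcA⟩]
    rw [Val, ← hr]
    exact hQI ⟨_, (BS_iff C).mp (red_BS C hbc)⟩
      ⟨b - cB N c, c - c, hbc, hc.sub (Val.const c), by simp, rfl⟩
  refine ⟨Q, hQ, fun s' b d' c hb hd' hd'A hc => ?_⟩
  rcases Bool.eq_or_eq_not s' s with rfl | rfl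
  · exact key b c hb hc
  · have hdd : d * d' = 1 := by
      refine Val.unique (hd.mul hd') ?_
      rw [tB_not, mul_inv_cancel₀ (tB_ne_zero N s)]
      exact Val.one
    obtain ⟨a, hab⟩ := exists_pow_mul_BT C hb
    obtain ⟨htA, h2⟩ := key _ _ (BT_tB s) hd
    have hcA : c ∈ A := val_mem_A C hb hd' hd'A hc
    refine ⟨hcA, ?_⟩
    obtain ⟨hacA, h1⟩ := key _ _ hab ((hd.pow a).mul hc)
    rw [red_tB C] at h2
    rw [red_mul C (pow_mem (tB_mem s) a) (BT.mem_GR C hb), red_pow C (tB_mem s), red_tB C] at h1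
    have hu : residue A ⟨d, htA⟩ ≠ 0 := by
      intro h0
      have := congrArg (residue A) (Subtype.ext hdd : (⟨d, htA⟩ : A) * ⟨d', hd'A⟩ = 1)
      rw [map_mul, map_one, h0, zero_mul] at this
      exact zero_ne_one this
    have h3 := ((h2.pow a).inv (pow_ne_zero a hu)).mul h1
    rw [← mul_assoc, inv_mul_cancel₀ (pow_ne_zero a (h2.ord_eq_zero hu).1), one_mul] at h3
    have e : (residue A ⟨d, htA⟩ ^ a)⁻¹ * residue A ⟨d ^ a * c, hacA⟩ = residue A ⟨c, hcA⟩ := by
      rw [inv_mul_eq_iff_eq_mul₀ (pow_ne_zero a hu), ← map_pow, ← map_mul]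
      rfl
    rwa [e] at h3

theorem exists_red (P : PB N) : ∃ Q : PS A N, Red P Q := by
  rcases exists_chart (A := A) P false with ⟨d, hdA, hd⟩ | ⟨d, hd1, hd, -⟩
  · obtain ⟨Q, -, h⟩ := exists_red_of_chart C hd hdA
    exact ⟨Q, h⟩
  · obtain ⟨Q, -, h⟩ := exists_red_of_chart C hd ((A.valuation_le_one_iff d).mp hd1.le)
    exact ⟨Q, h⟩

omit C

/-- the reduction of places -/
def rP (C : Ctx A N ℓ) (P : PB N) : PS A N := (exists_red C P).choose

theorem red_rP (C : Ctx A N ℓ) (P : PB N) : Red P (rP C P) := (exists_red C P).choose_spec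

include C

theorem val_rP {s : Bool} {b : FB N} {P : PB N} {d c : Qb} (hb : BT A N s b)
    (hd : Val P (tB N s) d) (hdA : d ∈ A) (hc : Val P b c) :
    ∃ hc : c ∈ A, Val (rP C P) (red A N b) (residue A ⟨c, hc⟩) :=
  red_rP C P s b d c hb hd hdA hc

theorem fin_rP_iff {s : Bool} {P : PB N} :
    Bd (rP C P) (tS A N s) 0 ↔ ∃ d, d ∈ A ∧ Val P (tB N s) d := by
  constructor
  · intro h
    rcases exists_chart (A := A) P s with h1 | ⟨d, hd1, hd, -⟩
    · exact h1
    · exfalso
      have hdA := (A.valuation_le_one_iff d).mp hd1.le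
      obtain ⟨_, h2⟩ := val_rP C (BT_tB (!s)) hd hdA hd
      rw [red_tB C, show residue A ⟨d, hdA⟩ = 0 from (res_eq_zero_iff A _).mpr hd1] at h2
      have hne := tS_ne_zero A N s
      have h3 := h2.ord_pos (tS_ne_zero A N (!s))
      rw [tS_not, Place.ord_inv] at h3
      have h4 := (RR.bd_iff_ord hne).mp h
      omega
  · rintro ⟨d, hdA, hd⟩
    obtain ⟨_, h2⟩ := val_rP C (BT_tB s) hd hdA hd
    rw [red_tB C] at h2
    exact h2.bd

omit C

end FLTAgent.Reduction
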