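import Fermat.Agent.RR.Global

/-!
Function fields in any characteristic, separable over a coordinate: what the reduction argument needs
from one affine chart.
-/

set_option autoImplicit false
set_option linter.unusedSectionVars false

noncomputable section

open AlgebraicCurve Polynomial IsDedekindDomain
open FLTAgent.RR (Bd KK)

namespace FLTAgent.Reduction

variable {K F : Type*} [Field K] [Field F] [Algebra K F]

variable (K) in
/-- the functions without a pole where `x` has none -/
def regOn (x : F) : Subalgebra K F where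
  carrier := {f | ∀ v : Place K F, Bd v x 0 → Bd v f 0}
  mul_mem' := fun ha hb v hv => by simpa using (ha v hv).mul (hb v hv)
  one_mem' := fun v _ => by simpa using RR.Bd.of_algebraMap (v := v) (1 : K)
  add_mem' := fun ha hb v hv => (ha v hv).add (hb v hv)
  zero_mem' := fun _ _ => RR.Bd.zero
  algebraMap_mem' := fun c _ _ => RR.Bd.of_algebraMap c

theorem mem_regOn {x f : F} : f ∈ regOn K x ↔ ∀ v : Place K F, Bd v x 0 → Bd v f 0 := Iff.rfl

theorem self_mem_regOn (x : F) : x ∈ regOn K x := fun _ h => h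

/-- integral elements have no poles where the coordinate has none -/
theorem mem_regOn_of_isIntegral {R : Type*} [CommRing R] (φ : R →+* F) {x f : F}
    (hφ : ∀ r, φ r ∈ regOn K x) (hf : φ.IsIntegralElem f) : f ∈ regOn K x := by
  intro v hv
  obtain ⟨p, hp, hpf⟩ := hf
  set ψ : R →+* v.toValuationSubring :=
    φ.codRestrict v.toValuationSubring.toSubring fun r => RR.mem_iff_bd.mpr (hφ r v hv) with hψ
  have hint : IsIntegral v.toValuationSubring f := by
    refine ⟨p.map ψ, hp.map _, ?_⟩
    rw [Polynomial.eval₂_map]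
    exact hpf
  obtain ⟨y, hy⟩ := IsIntegrallyClosed.isIntegral_iff.mp hint
  rw [← hy]
  exact RR.mem_iff_bd.mp y.2

variable [IsAlgClosed K]

/-- run a proof inside the chart of a separating coordinate -/
theorem with_sepChart {P : Prop} {x : F} (hx : Transcendental K x)
    [FiniteDimensional (KK K x) F] [Algebra.IsSeparable (KK K x) F]
    (h : ∀ [Algebra K[X] F] [IsScalarTower K K[X] F] [Algebra (RatFunc K) F]
      [IsScalarTower K[X] (RatFunc K) F] [FiniteDimensional (RatFunc K) F]
      [Algebra.IsSeparable (RatFunc K) F],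
      (∀ p : K[X], algebraMap K[X] F p = Polynomial.aeval x p) →
      RR.Chart.xv K F = x →
      Module.finrank (RatFunc K) F = RR.ndeg K x → P) : P := by
  letI := RR.polyAlg (K := K) x
  letI := RR.ratAlg hx
  haveI := RR.chart_tower_K (K := K) x
  haveI := RR.chart_tower_rat hx
  haveI := RR.chart_finite hx
  haveI : Algebra.IsSeparable (RatFunc K) F :=
    Algebra.IsSeparable.of_equiv_equiv
      (RatFunc.algEquivOfTranscendental x hx).toRingEquiv.symm (RingEquiv.refl F) (by
        ext a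
        show ((RatFunc.algEquivOfTranscendental x hx
          ((RatFunc.algEquivOfTranscendental x hx).symm a) : KK K x) : F) = (a : F)
        simp)
  exact h (fun _ => rfl) (by show Polynomial.aeval x Polynomial.X = x; simp) (RR.chart_finrank hx)

variable {x : F}

theorem isIntegral_of_mem_regOn (hx : Transcendental K x) [FiniteDimensional (KK K x) F]
    [Algebra.IsSeparable (KK K x) F] {f : F} (hf : f ∈ regOn K x) :
    ∃ p : (K[X])[X], p.Monic ∧ p.eval₂ (Polynomial.aeval (R := K) x).toRingHom f = 0 := by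
  refine with_sepChart hx ?_
  intro _ _ _ _ _ _ hp hxv _
  obtain ⟨p, hp1, hp2⟩ := RR.Chart.mem_A_of_bd (K := K) (f := f)
    (fun v hv => hf v (by rw [← hxv]; exact hv))
  refine ⟨p, hp1, ?_⟩
  rw [show (Polynomial.aeval (R := K) x).toRingHom = algebraMap K[X] F from
    RingHom.ext fun q => (hp q).symm]
  exact hp2

theorem hasRes_of_finite (hx : Transcendental K x) [FiniteDimensional (KK K x) F]
    [Algebra.IsSeparable (KK K x) F] {v : Place K F} (hv : Bd v x 0) : RR.HasRes v := by
  refine with_sepChart hx ?_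
  intro _ _ _ _ _ _ hp hxv _
  exact RR.Chart.hasRes_of_fin (show Bd v (RR.Chart.xv K F) 0 by rw [hxv]; exact hv)

theorem finite_ord_of_finite (hx : Transcendental K x) [FiniteDimensional (KK K x) F]
    [Algebra.IsSeparable (KK K x) F] {f : F} (hf : f ≠ 0) :
    {v : Place K F | Bd v x 0 ∧ v.ord f ≠ 0}.Finite := by
  refine with_sepChart hx ?_
  intro _ _ _ _ _ _ hp hxv _
  refine (RR.Chart.finite_ord (K := K) hf).subset fun v hv => ⟨?_, hv.2⟩
  show Bd v (RR.Chart.xv K F) 0
  rw [hxv]; exact hv.1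

theorem exists_zeros (hx : Transcendental K x) [FiniteDimensional (KK K x) F]
    [Algebra.IsSeparable (KK K x) F] :
    ∃ s : Finset (Place K F), (∀ v, v ∈ s ↔ 0 < v.ord x) ∧
      ∑ v ∈ s, v.ord x = RR.ndeg K x := by
  refine with_sepChart hx ?_
  intro _ _ _ _ _ _ hp hxv hn
  refine ⟨RR.Chart.zset K F, fun v => ?_, ?_⟩
  · rw [RR.Chart.mem_zset_iff_ord, hxv]
  · rw [← hn, ← RR.Chart.sum_ord_zset, hxv]

/-- a proper ideal of the chart vanishes at some place -/
theorem exists_place_of_ideal (hx : Transcendental K x) [FiniteDimensional (KK K x) F]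
    [Algebra.IsSeparable (KK K x) F] (I : Ideal (regOn K x)) (hI : I ≠ ⊤) :
    ∃ v : Place K F, Bd v x 0 ∧ ∀ a ∈ I, Bd v (a : F) (-1) := by
  refine with_sepChart hx ?_
  intro _ _ _ _ _ _ hp hxv _
  have hmem : ∀ a : RR.Chart.A K F, (a : F) ∈ regOn K x := fun a v hv =>
    RR.Chart.A_bd (show Bd v (RR.Chart.xv K F) 0 by rw [hxv]; exact hv) a
  set φ : RR.Chart.A K F →+* regOn K x :=
    ((algebraMap (RR.Chart.A K F) F).codRestrict (regOn K x).toSubring hmem) with hφ
  have hA : ∀ a : regOn K x, IsIntegral K[X] (a : F) := fun a =>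
    RR.Chart.mem_A_of_bd (K := K) fun v hv => a.2 v (by rw [← hxv]; exact hv)
  have hJ : I.comap φ ≠ ⊤ := by
    intro h
    apply hI
    rw [Ideal.eq_top_iff_one] at h ⊢
    simpa using h
  obtain ⟨J, hJmax, hle⟩ := Ideal.exists_le_maximal _ hJ
  have hnf : ¬ IsField (RR.Chart.A K F) := by
    intro hF
    have hXne : (algebraMap K[X] (RR.Chart.A K F) Polynomial.X) ≠ 0 := fun h =>
      RR.Chart.xv_ne_zero K F (congrArg Subtype.val h)
    obtain ⟨b, hb⟩ := hF.mul_inv_cancel hXne
    obtain ⟨s, hs, hs'⟩ := exists_zeros (K := K) hx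
    obtain ⟨v, hv⟩ : s.Nonempty := by
      rcases s.eq_empty_or_nonempty with rfl | h
      · haveI := Module.finrank_pos (R := KK K x) (M := F)
        simp only [Finset.sum_empty] at hs'
        have : 0 < RR.ndeg K x := by unfold RR.ndeg; assumption
        omega
      · exact h
    have hv' := (hs v).mp hv
    have hb0 : Bd v (b : F) 0 := hmem b v (RR.bd_iff.mpr (Or.inr (by omega)))
    have h1 : Bd v (x * (b : F)) (-1) := by
      simpa using (RR.bd_iff.mpr (Or.inr (by omega)) : Bd v x (-1)).mul hb0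
    have h2 : x * (b : F) = 1 := by rw [← hxv]; exact congrArg Subtype.val hb
    rw [h2, RR.bd_iff] at h1
    simp at h1
  obtain ⟨hne⟩ : PLift (J ≠ ⊥) := ⟨fun h => hnf (Ring.isField_iff_isSimpleOrder_ideal.mpr
    ⟨fun K' => by
      rcases eq_or_ne K' ⊥ with hK | hK
      · exact Or.inl hK
      · refine Or.inr ?_
        by_contra hK'
        obtain ⟨M, hM, hKM⟩ := Ideal.exists_le_maximal _ hK'
        have : J = M := hJmax.eq_of_le hM.ne_top (h ▸ bot_le)
        exact hK (le_bot_iff.mp (hKM.trans (this.symm.trans h).le))⟩)⟩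
  set v := RR.Chart.ofPrime (K := K) ⟨J, hJmax.isPrime, hne⟩ with hv
  have hfin := RR.Chart.fin_ofPrime (K := K) (⟨J, hJmax.isPrime, hne⟩ : HeightOneSpectrum _)
  refine ⟨v, by rw [← hxv]; exact hfin, fun a ha => ?_⟩
  have haJ : (⟨(a : F), hA a⟩ : RR.Chart.A K F) ∈ J := hle (by
    rw [Ideal.mem_comap]
    exact ha)
  by_contra hc
  have hb : Bd v (a : F) 0 := a.2 v (by rw [← hxv]; exact hfin)
  have hord := RR.ord_eq_of_bd hb (by simpa using hc)
  have ha0 : (a : F) ≠ 0 := hord.1
  have hinv : (a : F)⁻¹ ∈ v.toValuationSubring :=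
    RR.mem_iff_bd.mpr (RR.bd_iff.mpr (Or.inr (by rw [v.ord_inv, hord.2]; simp)))
  obtain ⟨c, s, h⟩ := HeightOneSpectrum.exists_primeCompl_mul_eq_of_integer
    (⟨J, hJmax.isPrime, hne⟩ : HeightOneSpectrum (RR.Chart.A K F)) _ hinv
  refine s.2 ?_
  have hsc : (s.1 : RR.Chart.A K F) = c * ⟨(a : F), hA a⟩ := Subtype.ext (by
    show (s.1 : F) = (c : F) * (a : F)
    have h' : (a : F)⁻¹ * (s.1 : F) = (c : F) := h
    rw [← h']; field_simp)
  rw [hsc]
  exact Ideal.mul_mem_left _ _ haJ

/-- an element of the chart vanishing at `v` and not at `w` -/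
theorem exists_separate (hx : Transcendental K x) [FiniteDimensional (KK K x) F]
    [Algebra.IsSeparable (KK K x) F] {v w : Place K F} (hv : Bd v x 0) (hw : Bd w x 0)
    (hne : v ≠ w) : ∃ g ∈ regOn K x, Bd v g (-1) ∧ g ≠ 0 ∧ w.ord g = 0 := by
  refine with_sepChart hx ?_
  intro _ _ _ _ _ _ hp hxv _
  obtain ⟨g, h0, h1, h2⟩ := RR.Chart.exists_sep (show Bd w (RR.Chart.xv K F) 0 by
    rw [hxv]; exact hw) {v}
    (fun u hu => by
      rw [Finset.mem_singleton] at hu; subst hu
      show Bd u (RR.Chart.xv K F) 0; rw [hxv]; exact hv) 1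
  exact ⟨g, fun u hu => RR.Chart.A_bd (show Bd u (RR.Chart.xv K F) 0 by rw [hxv]; exact hu) g,
    by simpa using h2 v (Finset.mem_singleton_self v) hne, h0, h1⟩

/-- a uniformiser in the chart -/
theorem exists_unif (hx : Transcendental K x) [FiniteDimensional (KK K x) F]
    [Algebra.IsSeparable (KK K x) F] {v : Place K F} (hv : Bd v x 0) :
    ∃ g ∈ regOn K x, g ≠ 0 ∧ v.ord g = 1 := by
  refine with_sepChart hx ?_
  intro _ _ _ _ _ _ hp hxv _
  obtain ⟨g, h0, h1⟩ := RR.Chart.exists_unif (show Bd v (RR.Chart.xv K F) 0 by rw [hxv]; exact hv)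
  exact ⟨g, fun u hu => RR.Chart.A_bd (show Bd u (RR.Chart.xv K F) 0 by rw [hxv]; exact hu) g,
    h0, h1⟩

end FLTAgent.Reduction
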