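import Fermat.Agent.Reduction.Atkin
import Fermat.Agent.Reduction.Galois

/-!
The norm from `X₀(Nℓ)` to `X₀(N)` of a dilated function, and its reduction modulo `ℓ`.
-/

set_option autoImplicit false
set_option linter.unusedSectionVars false
set_option synthInstance.maxHeartbeats 200000

noncomputable section

open ModularCurve AlgebraicCurve IsLocalRing

namespace FLTAgent.Reduction

variable {N ℓ : ℕ} [NeZero N] [NeZero ℓ]

/-- the norm is the product over the conjugates, given in any field -/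
theorem norm_eq_prod_homs {F L M : Type*} [Field F] [Field L] [Field M] [Algebra F L]
    [Module.Finite F L] [Algebra.IsSeparable F L] (b : F →+* M) {I : Type*} [Fintype I]
    (e : I → (L →+* M)) (he : ∀ i g, e i (algebraMap F L g) = b g) (hinj : Function.Injective e)
    (hcard : Fintype.card I = Module.finrank F L) (x : L) :
    b (Algebra.norm F x) = ∏ i, e i x := by
  classical
  letI : Algebra F (AlgebraicClosure M) := ((algebraMap M (AlgebraicClosure M)).comp b).toAlgebra
  let E : I → (L →ₐ[F] AlgebraicClosure M) := fun i =>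
    { toRingHom := (algebraMap M (AlgebraicClosure M)).comp (e i)
      commutes' := fun g => congrArg (algebraMap M (AlgebraicClosure M)) (he i g) }
  have hE : Function.Injective E := fun i j h => hinj (RingHom.ext fun y =>
    (algebraMap M (AlgebraicClosure M)).injective (DFunLike.congr_fun h y))
  have hbij : Function.Bijective E :=
    (Fintype.bijective_iff_injective_and_card E).mpr ⟨hE, by rw [AlgHom.card, hcard]⟩
  refine (algebraMap M (AlgebraicClosure M)).injective ?_
  refine (Algebra.norm_eq_prod_embeddings F (AlgebraicClosure M) x).trans ?_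
  rw [← Fintype.prod_bijective E hbij (fun i => E i x) _ (fun i => rfl), map_prod]
  rfl

/-- the norm along the first degeneracy map of the image under the second one -/
def normBeta (N ℓ : ℕ) [NeZero N] [NeZero ℓ] (f : FB N) : FB N :=
  letI := algebraAlong (heckeAlphaBar Qb N ℓ)
  Algebra.norm (FB N) (heckeBetaBar Qb N ℓ f)

theorem coe_jqModC_neg_one (u : Qbˣ) :
    (twist u (jqModC Qb)).coeff (-1) = ((u ^ (-1 : ℤ) : Qbˣ) : Qb) := by
  rw [twist_coeff, coeff_jqModC_neg_one, mul_one]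

set_option maxHeartbeats 1600000 in
/-- the norm as a product over the `ℓ + 1` conjugates, after substituting `q ↦ q^ℓ` -/
theorem qExpand_normBeta (hℓ : ℓ.Prime) (hℓN : ¬ ℓ ∣ N) {u : Qbˣ} (hu : IsPrimitiveRoot u ℓ)
    (f : FB N) :
    qExpand Qb ℓ ((normBeta N ℓ f : FB N) : LaurentSeries Qb) =
      qExpand Qb ℓ (qExpand Qb ℓ (f : LaurentSeries Qb)) *
        ∏ i : Fin ℓ, twist (u ^ (i : ℕ)) (f : LaurentSeries Qb) := by
  classical
  obtain ⟨W, hWα, hWβ⟩ := exists_atkin hℓ hℓN
  letI := algebraAlong (heckeAlphaBar Qb N ℓ)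
  haveI := isScalarTower_along (heckeAlphaBar Qb N ℓ)
  haveI hfin : Module.Finite (FB N) (FB (N * ℓ)) := HeckeJ.finiteAlong (heckeAlphaBar Qb N ℓ)
  haveI : CharZero (FB N) := charZero_of_injective_algebraMap (algebraMap Qb (FB N)).injective
  haveI : Algebra.IsIntegral (FB N) (FB (N * ℓ)) := Algebra.IsIntegral.of_finite _ _
  haveI : Algebra.IsSeparable (FB N) (FB (N * ℓ)) := Algebra.IsSeparable.of_integral _ _
  let vN : FB N →+* LaurentSeries Qb := (modularFunctionFieldBar N).val.toRingHom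
  let vM : FB (N * ℓ) →+* LaurentSeries Qb := (modularFunctionFieldBar (N * ℓ)).val.toRingHom
  have hvN : ∀ g, vN g = (g : LaurentSeries Qb) := fun g => rfl
  have hvM : ∀ g, vM g = (g : LaurentSeries Qb) := fun g => rfl
  have hα : ∀ g : FB N, algebraMap (FB N) (FB (N * ℓ)) g = heckeAlphaBar Qb N ℓ g := fun g => rfl
  let e : Option (Fin ℓ) → (FB (N * ℓ) →+* LaurentSeries Qb) := fun o =>
    o.elim ((qExpand Qb ℓ).comp vM) fun i => (twist (u ^ (i : ℕ))).comp (vM.comp W.toRingHom)
  have he₀ : ∀ x, e none x = qExpand Qb ℓ (x : LaurentSeries Qb) := fun x => rfl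
  have he₁ : ∀ i x, e (some i) x = twist (u ^ (i : ℕ)) ((W x : FB (N * ℓ)) : LaurentSeries Qb) :=
    fun i x => rfl
  have he : ∀ o g, e o (algebraMap (FB N) (FB (N * ℓ)) g) = ((qExpand Qb ℓ).comp vN) g := by
    rintro (_ | i) g
    · rw [he₀, hα, coe_heckeAlphaBar, RingHom.comp_apply, hvN]
    · rw [he₁, hα, hWα, coe_heckeBetaBar, RingHom.comp_apply, hvN,
        twist_qExpand _ _ (by rw [← pow_mul, mul_comm, pow_mul, hu.pow_eq_one, one_pow])]
  -- the conjugates of `j(ℓτ)` are distinct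
  have hj : ((ModFun.jBar N : FB N) : LaurentSeries Qb) = jqModC Qb := by
    rw [jqModC_eq_coeffEmb]; rfl
  have hE0 : e none (heckeBetaBar Qb N ℓ (ModFun.jBar N)) =
      qExpand Qb ℓ (qExpand Qb ℓ (jqModC Qb)) := by
    rw [he₀, coe_heckeBetaBar, hj]
  have hE1 : ∀ i, e (some i) (heckeBetaBar Qb N ℓ (ModFun.jBar N)) =
      twist (u ^ (i : ℕ)) (jqModC Qb) := fun i => by
    rw [he₁, hWβ, coe_heckeAlphaBar, hj]
  have hnd : ¬ (ℓ : ℤ) ∣ -1 := fun h => hℓ.one_lt.ne' (Nat.eq_one_of_dvd_one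
    (by exact_mod_cast (dvd_neg.mp h)))
  have hinj : Function.Injective e := by
    have hne : ∀ i, e none ≠ e (some i) := fun i h => by
      have h1 := congrArg (fun s : LaurentSeries Qb => s.coeff (-1))
        ((hE0.symm.trans (DFunLike.congr_fun h _)).trans (hE1 i))
      simp only [coe_jqModC_neg_one, qExpand_coeff_of_not_dvd ℓ _ hnd] at h1
      exact ((u ^ (i : ℕ)) ^ (-1 : ℤ)).ne_zero h1.symm
    rintro (_ | i) (_ | j) h
    · rfl
    · exact absurd h (hne j)
    · exact absurd h.symm (hne i)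
    · have h1 := congrArg (fun s : LaurentSeries Qb => s.coeff (-1))
        (((hE1 i).symm.trans (DFunLike.congr_fun h _)).trans (hE1 j))
      simp only [coe_jqModC_neg_one] at h1
      have h2 : u ^ (i : ℕ) = u ^ (j : ℕ) := by
        simpa using Units.ext h1
      rw [Fin.ext (hu.pow_inj i.2 j.2 h2)]
  have hcard : Fintype.card (Option (Fin ℓ)) = Module.finrank (FB N) (FB (N * ℓ)) := by
    rw [Fintype.card_option, Fintype.card_fin]
    exact (finrankAlong_alpha hℓ hℓN).symm
  have hn := norm_eq_prod_homs ((qExpand Qb ℓ).comp vN) e he hinj hcard (heckeBetaBar Qb N ℓ f)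
  rw [RingHom.comp_apply, hvN] at hn
  refine hn.trans ?_
  rw [Fintype.prod_option]
  refine congrArg₂ (· * ·) ?_ (Finset.prod_congr rfl fun i _ => ?_)
  · rw [he₀, coe_heckeBetaBar]
  · rw [he₁, hWβ, coe_heckeAlphaBar]

variable {A : ValuationSubring Qb} (C : Ctx A N ℓ)
include C

set_option maxHeartbeats 800000 in
/-- Kronecker: the norm reduces to `Φ ȳ · (Φ⁻¹ ȳ)^ℓ` -/
theorem red_normBeta {f : FB N} {G : LaurentSeries A} (hG : up A G = (f : LaurentSeries Qb))
    {fr : FS A N} (hfr : (fr : LaurentSeries (kA A)) = dn A G) :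
    normBeta N ℓ f ∈ GR A N ∧
      red A N (normBeta N ℓ f) = frobS C • fr * ((frobS C)⁻¹ • fr) ^ ℓ := by
  classical
  haveI := Fact.mk C.prime
  haveI := charP_residue A C.prime C.lies
  haveI : NeZero (ℓ : Qb) := ⟨Nat.cast_ne_zero.mpr C.prime.ne_zero⟩
  obtain ⟨ζ, hζ⟩ := HasEnoughRootsOfUnity.exists_primitiveRoot Qb ℓ
  have hζA : ζ ∈ A := mem_A_of_isIntegral A ⟨Polynomial.X ^ ℓ - 1,
    Polynomial.monic_X_pow_sub_C 1 C.prime.ne_zero, by simp [hζ.pow_eq_one]⟩
  have hζ' : (⟨ζ, hζA⟩ : A) ^ ℓ = 1 := Subtype.ext hζ.pow_eq_one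
  set uA : Aˣ := Units.ofPowEqOne ⟨ζ, hζA⟩ ℓ hζ' C.prime.ne_zero with huA
  have hu : IsPrimitiveRoot (Units.map (A.subtype : A →* Qb) uA) ℓ :=
    IsPrimitiveRoot.coe_units_iff.mp (by simpa [huA] using hζ)
  have hu1 : Units.map (residue A : A →* kA A) uA = 1 := by
    refine Units.ext ?_
    have h1 : (residue A ⟨ζ, hζA⟩ - 1) ^ ℓ = 0 := by
      rw [sub_pow_char, ← map_pow, hζ', map_one, one_pow, sub_self]
    simpa [huA, sub_eq_zero] using eq_zero_of_pow_eq_zero h1
  set H : LaurentSeries A := qExpand A ℓ (qExpand A ℓ G) * ∏ i : Fin ℓ, twist (uA ^ (i : ℕ)) G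
    with hH
  have hupH : up A H = qExpand Qb ℓ ((normBeta N ℓ f : FB N) : LaurentSeries Qb) := by
    rw [qExpand_normBeta C.prime C.not_dvd hu, hH, map_mul, map_prod, coeffMap_qExpand,
      coeffMap_qExpand, hG]
    refine congrArg _ (Finset.prod_congr rfl fun i _ => ?_)
    rw [coeffMap_twist, hG, map_pow]
  have hdiv : ∀ k : ℤ, ¬ (ℓ : ℤ) ∣ k → H.coeff k = 0 := fun k hk => Subtype.ext (by
    have h1 := congrArg (fun s : LaurentSeries Qb => s.coeff k) hupH
    simpa [qExpand_coeff_of_not_dvd ℓ _ hk] using h1)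
  have hG' : up A (deflate ℓ H) = ((normBeta N ℓ f : FB N) : LaurentSeries Qb) := by
    refine qExpand_injective (R := Qb) (N := ℓ) ?_
    rw [← coeffMap_qExpand, qExpand_deflate ℓ H hdiv, hupH]
  refine ⟨mem_GR_of_series hG', Subtype.ext ?_⟩
  rw [coe_red C (mem_GR_of_series hG'), redS_series hG', MulMemClass.coe_mul, SubmonoidClass.coe_pow,
    frobS, coe_fullAut_smul, coe_fullAut_inv_smul]
  refine qExpand_injective (R := kA A) (N := ℓ) ?_
  rw [← coeffMap_qExpand, qExpand_deflate ℓ H hdiv, hH, map_mul, map_prod, coeffMap_qExpand,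
    coeffMap_qExpand, map_mul, map_pow, hfr]
  have hp : ∀ i : Fin ℓ, coeffMap (residue A) (twist (uA ^ (i : ℕ)) G) = dn A G := fun i => by
    rw [coeffMap_twist, map_pow, hu1, one_pow, twist_one_apply]
  rw [Finset.prod_congr rfl fun i _ => hp i, Finset.prod_const, Finset.card_univ, Fintype.card_fin]
  have hfrob : ∀ z : LaurentSeries (kA A),
      z ^ ℓ = qExpand (kA A) ℓ (coeffMap (frobK C : kA A →+* kA A) z) := fun z =>
    (pow_char_eq ℓ z).trans (congrArg _ (coeffMap_congr (RingHom.ext fun _ => rfl) z))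
  have hinv : ∀ z : LaurentSeries (kA A),
      coeffMap (frobK C : kA A →+* kA A) (coeffMap ((frobK C).symm : kA A →+* kA A) z) = z := fun z => by
    rw [coeffMap_coeffMap, coeffMap_congr (g := RingHom.id _)
      (RingHom.ext fun a => (frobK C).apply_symm_apply a) z, coeffMap_id]
  have hz : coeffMap ((frobK C).symm : kA A →+* kA A) (dn A G) ^ ℓ = qExpand (kA A) ℓ (dn A G) := by
    rw [hfrob, hinv]
  rw [← map_pow (qExpand (kA A) ℓ), hz, hfrob (dn A G)]
  exact mul_comm _ _

end FLTAgent.Reduction
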