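import Mathlib
import Fermat.Agent.RR.Defs

/-!
Generic facts on elements of an intermediate field, seen in the field itself or in the ambient field.
-/

set_option autoImplicit false
set_option linter.unusedSectionVars false

noncomputable section

open Polynomial

namespace FLTAgent.Reduction

theorem isIntegral_adjoin_iff {R S : Type*} [CommRing R] [CommRing S] [Algebra R S] (t b : S) :
    IsIntegral (Algebra.adjoin R ({t} : Set S)) b ↔
      (Polynomial.aeval (R := R) t).toRingHom.IsIntegralElem b := by
  set φ : R[X] →+* Algebra.adjoin R ({t} : Set S) :=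
    ((Polynomial.aeval (R := R) t).toRingHom).codRestrict (Algebra.adjoin R ({t} : Set S)).toSubring
      (fun p => Polynomial.aeval_mem_adjoin_singleton R t) with hφ
  have hs : Function.Surjective φ := by
    rintro ⟨x, hx⟩
    rw [Algebra.adjoin_singleton_eq_range_aeval] at hx
    obtain ⟨p, rfl⟩ := hx
    exact ⟨p, rfl⟩
  constructor
  · rintro ⟨p, hp, hpb⟩
    obtain ⟨q, hq, -, hqm⟩ := Polynomial.lifts_and_natDegree_eq_and_monic
      ((Polynomial.mem_lifts _).mpr (Polynomial.map_surjective _ hs p)) hp
    refine ⟨q, hqm, ?_⟩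
    rw [← hq, Polynomial.eval₂_map] at hpb
    exact hpb
  · rintro ⟨q, hqm, hq⟩
    refine ⟨q.map φ, hqm.map _, ?_⟩
    rw [Polynomial.eval₂_map]
    exact hq

theorem isIntegralElem_comp_iff {R S T : Type*} [CommRing R] [CommRing S] [CommRing T]
    (φ : R →+* S) (g : S →+* T) (hg : Function.Injective g) (x : S) :
    (g.comp φ).IsIntegralElem (g x) ↔ φ.IsIntegralElem x := by
  constructor
  · rintro ⟨p, hp, hpb⟩
    refine ⟨p, hp, hg ?_⟩
    rw [Polynomial.hom_eval₂, hpb, map_zero]
  · rintro ⟨p, hp, hpb⟩
    refine ⟨p, hp, ?_⟩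
    rw [← Polynomial.hom_eval₂, hpb, map_zero]

variable {K L : Type*} [Field K] [Field L] [Algebra K L] (E : IntermediateField K L)

theorem isIntegralElem_iff_adjoin {R : Type*} [CommRing R] [Algebra R L] (ι : R →+* K)
    (hι : ∀ r, algebraMap R L r = algebraMap K L (ι r)) (t b : E) :
    (Polynomial.eval₂RingHom ((algebraMap K E).comp ι) t).IsIntegralElem b ↔
      IsIntegral (Algebra.adjoin R ({(t : L)} : Set L)) (b : L) := by
  rw [isIntegral_adjoin_iff]
  have hcomp : (E.val.toRingHom).comp (Polynomial.eval₂RingHom ((algebraMap K E).comp ι) t)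
      = (Polynomial.aeval (R := R) (t : L)).toRingHom := by
    refine Polynomial.ringHom_ext (fun a => ?_) ?_
    · simp [hι]
    · simp
  rw [← hcomp]
  exact (isIntegralElem_comp_iff _ E.val.toRingHom Subtype.val_injective b).symm

theorem map_adjoin_self (x : E) :
    (IntermediateField.adjoin K ({x} : Set E)).map E.val =
      IntermediateField.adjoin K ({(x : L)} : Set L) := by
  rw [IntermediateField.adjoin_map, Set.image_singleton]
  rfl

/-- `K(x)` inside `E` and inside `L` -/
def equivAdjoinSelf (x : E) :
    IntermediateField.adjoin K ({x} : Set E) ≃+* IntermediateField.adjoin K ({(x : L)} : Set L) :=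
  (((IntermediateField.adjoin K ({x} : Set E)).equivMap E.val).trans
    (IntermediateField.equivOfEq (map_adjoin_self E x))).toRingEquiv

theorem coe_equivAdjoinSelf (x : E) (z : IntermediateField.adjoin K ({x} : Set E)) :
    ((equivAdjoinSelf E x z) : L) = ((z : E) : L) := rfl

theorem ndeg_eq_finrank (x : E) (hle : IntermediateField.adjoin K ({(x : L)} : Set L) ≤ E) :
    RR.ndeg K x = Module.finrank (IntermediateField.adjoin K ({(x : L)} : Set L))
      (IntermediateField.extendScalars hle) :=
  Algebra.finrank_eq_of_equiv_equiv (equivAdjoinSelf E x) (RingEquiv.refl _) (by ext a; rfl)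

theorem isSeparable_of_ambient (x : E) {y : E}
    (h : IsSeparable (IntermediateField.adjoin K ({(x : L)} : Set L)) (y : L)) :
    IsSeparable (IntermediateField.adjoin K ({x} : Set E)) y := by
  set e := equivAdjoinSelf E x
  have hsep : ((minpoly (IntermediateField.adjoin K ({(x : L)} : Set L)) (y : L)).map
      e.symm.toRingHom).Separable := Polynomial.Separable.map h
  refine Polynomial.Separable.of_dvd hsep (minpoly.dvd _ _ (Subtype.val_injective ?_))
  rw [Polynomial.aeval_def, Polynomial.eval₂_map]
  show (E.val.toRingHom) (Polynomial.eval₂ _ y _) = 0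
  rw [Polynomial.hom_eval₂]
  have hcomp : (E.val.toRingHom).comp
      ((algebraMap (IntermediateField.adjoin K ({x} : Set E)) E).comp e.symm.toRingHom)
        = algebraMap (IntermediateField.adjoin K ({(x : L)} : Set L)) L := by
    ext z
    show ((e.symm z : E) : L) = (z : L)
    rw [← coe_equivAdjoinSelf, RingEquiv.apply_symm_apply]
  rw [hcomp]
  exact minpoly.aeval _ (y : L)

end FLTAgent.Reduction
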