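import Fermat.Agent.Reduction.Basic
import Fermat.Agent.Reduction.Charts
import Fermat.Agent.Reduction.Subfield
import Fermat.Agent.Genus.Cosets
import Fermat.Agent.ModFun.API

/-!
The generic and special function fields of `X₀(N)`, the two coordinates `j`, `1/j` and their charts.
-/

set_option autoImplicit false
set_option linter.unusedSectionVars false
set_option synthInstance.maxHeartbeats 100000

noncomputable section

open ModularCurve AlgebraicCurve Polynomial IsLocalRing
open FLTAgent.RR (Bd KK)

namespace FLTAgent.Reduction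

/-- `ℚ̄(X₀(N))` -/
abbrev FB (N : ℕ) : Type := ↥(modularFunctionFieldBar N)

/-- the special fibre function field -/
abbrev FS (A : ValuationSubring Qb) (N : ℕ) : Type :=
  ↥(modularFunctionFieldFullC (kA A) N)

/-- the hypotheses: `A` lies over a prime not dividing the level -/
structure Ctx (A : ValuationSubring Qb) (N ℓ : ℕ) : Prop where
  prime : ℓ.Prime
  not_dvd : ¬ ℓ ∣ N
  lies : A.LiesOverPrime ℓ

/-! ### the coordinates -/

theorem jqModC_eq_coeffEmb : jqModC Qb = coeffEmb Qb jq := by
  rw [← jqModC_rat, coeffEmb, coeffMap_jqModC]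

theorem isUnit_jqModC (R : Type*) [CommRing R] : IsUnit (jqModC R) := by
  rw [jqModC]
  refine IsUnit.mul ?_ ?_
  · exact ⟨⟨HahnSeries.single (-1 : ℤ) 1, HahnSeries.single (1 : ℤ) 1,
      by simp [HahnSeries.single_mul_single], by simp [HahnSeries.single_mul_single]⟩, rfl⟩
  · refine IsUnit.map _ (PowerSeries.isUnit_iff_constantCoeff.mpr ?_)
    rw [← PowerSeries.coeff_zero_eq_constantCoeff, PowerSeries.coeff_map,
      PowerSeries.coeff_zero_eq_constantCoeff, constantCoeff_jNum, map_one]
    exact isUnit_one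

theorem algebraMap_A_series (B : ValuationSubring Qb) (a : B) :
    algebraMap B (LaurentSeries Qb) a = algebraMap Qb (LaurentSeries Qb) (a : Qb) := by
  rw [algebraMap_laurentSeries_eq_single, HahnSeries.algebraMap_apply',
    PowerSeries.algebraMap_apply, HahnSeries.ofPowerSeries_C]
  rfl

theorem ne_zero_of_transc {K F : Type*} [Field K] [Field F] [Algebra K F] {x : F}
    (hx : Transcendental K x) : x ≠ 0 :=
  fun h => hx (h ▸ isAlgebraic_zero)

theorem jqModC_transcendental (K : Type*) [Field K] : Transcendental K (jqModC K) := by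
  rw [transcendental_iff]
  intro p hp
  by_contra h0
  have hc : ((Polynomial.aeval (jqModC K)) p).coeff (-(p.natDegree : ℤ)) = p.leadingCoeff := by
    rw [Polynomial.aeval_def, Polynomial.eval₂_eq_sum_range, HahnSeries.coeff_sum,
      Finset.sum_eq_single p.natDegree]
    · rw [algebraMap_laurentSeries_eq_single, HahnSeries.coeff_single_zero_mul,
        coeff_jqModC_pow_self, mul_one]
      rfl
    · intro i hi hne
      rw [Finset.mem_range] at hi
      rw [algebraMap_laurentSeries_eq_single, HahnSeries.coeff_single_zero_mul,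
        coeff_jqModC_pow_of_lt K (by omega), mul_zero]
    · simp
  rw [hp] at hc
  exact h0 (leadingCoeff_eq_zero.mp (by simpa using hc.symm))

variable (A : ValuationSubring Qb) (N : ℕ) [NeZero N]

/-- `coeffMap` into `ℚ̄((q))` -/
abbrev up : LaurentSeries A →+* LaurentSeries Qb := coeffMap A.subtype

/-- reduction of coefficients -/
abbrev dn : LaurentSeries A →+* LaurentSeries (kA A) := coeffMap (residue A)

/-- the two coordinates: `j` and `1/j` -/
def tA : Bool → LaurentSeries A
  | false => jqModC A
  | true => Ring.inverse (jqModC A)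

/-- on the generic fibre -/
def tB : Bool → FB N
  | false => ModFun.jBar N
  | true => (ModFun.jBar N)⁻¹

/-- `j` on the special fibre -/
def jS : FS A N := ⟨jqModC (kA A), jqModC_mem_full _ N⟩

/-- on the special fibre -/
def tS : Bool → FS A N
  | false => jS A N
  | true => (jS A N)⁻¹

theorem coe_jBar : ((ModFun.jBar N : FB N) : LaurentSeries Qb) = coeffEmb Qb jq := rfl

theorem map_ringInverse {R S : Type*} [CommRing R] [Field S] (f : R →+* S) {x : R} (hx : IsUnit x) :
    f (Ring.inverse x) = (f x)⁻¹ := by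
  refine eq_inv_of_mul_eq_one_left ?_
  rw [← map_mul, Ring.inverse_mul_cancel _ hx, map_one]

theorem up_jqModC : up A (jqModC A) = coeffEmb Qb jq := by
  show coeffMap A.subtype (jqModC A) = _
  rw [coeffMap_jqModC, jqModC_eq_coeffEmb]

theorem up_tA (s : Bool) : up A (tA A s) = (tB N s : LaurentSeries Qb) := by
  cases s
  · exact up_jqModC A
  · show up A (Ring.inverse (jqModC A)) = (((ModFun.jBar N)⁻¹ : FB N) : LaurentSeries Qb)
    rw [map_ringInverse _ (isUnit_jqModC A), up_jqModC]
    rfl

theorem dn_tA (s : Bool) : dn A (tA A s) = (tS A N s : LaurentSeries (kA A)) := by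
  cases s
  · exact coeffMap_jqModC _
  · show dn A (Ring.inverse (jqModC A)) = (((jS A N)⁻¹ : FS A N) : LaurentSeries (kA A))
    rw [map_ringInverse _ (isUnit_jqModC A), show dn A (jqModC A) = jqModC (kA A) from
      coeffMap_jqModC _]
    rfl

theorem transcendental_jS : Transcendental (kA A) (jS A N) :=
  (transcendental_algebraMap_iff
    (FaithfulSMul.algebraMap_injective (FS A N) (LaurentSeries (kA A)))).mp
    (jqModC_transcendental (kA A))

theorem transcendental_tS : ∀ s : Bool, Transcendental (kA A) (tS A N s)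
  | false => transcendental_jS A N
  | true => RR.transcendental_inv (transcendental_jS A N)

theorem transcendental_tB : ∀ s : Bool, Transcendental Qb (tB N s)
  | false => ModFun.transcendental_jBar N
  | true => RR.transcendental_inv (ModFun.transcendental_jBar N)

theorem tB_ne_zero (s : Bool) : tB N s ≠ 0 :=
  ne_zero_of_transc (transcendental_tB N s)

theorem tS_ne_zero (s : Bool) : tS A N s ≠ 0 :=
  ne_zero_of_transc (transcendental_tS A N s)

theorem tB_not (s : Bool) : tB N (!s) = (tB N s)⁻¹ := by cases s <;> simp [tB]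

theorem tS_not (s : Bool) : tS A N (!s) = (tS A N s)⁻¹ := by cases s <;> simp [tS]

theorem KK_tB (s : Bool) : KK Qb (tB N s) = KK Qb (ModFun.jBar N) := by
  cases s
  · rfl
  · exact RR.KK_inv _

theorem KK_tS (s : Bool) : KK (kA A) (tS A N s) = KK (kA A) (jS A N) := by
  cases s
  · rfl
  · exact RR.KK_inv _

theorem ndeg_jBar_eq : RR.ndeg Qb (ModFun.jBar N) = dedekindPsi N := by
  rw [← Genus.card_cosetSpace N, ModFun.ndeg_jBar N]

theorem ndeg_tB (s : Bool) : RR.ndeg Qb (tB N s) = dedekindPsi N := by
  rw [RR.ndeg_congr (KK_tB N s), ndeg_jBar_eq]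

theorem finite_tB (s : Bool) : FiniteDimensional (KK Qb (tB N s)) (FB N) :=
  RR.finiteDimensional_KK (transcendental_tB N s)

theorem separable_tB (s : Bool) : Algebra.IsSeparable (KK Qb (tB N s)) (FB N) :=
  haveI := finite_tB N s
  haveI : CharZero (KK Qb (tB N s)) :=
    charZero_of_injective_algebraMap (algebraMap Qb (KK Qb (tB N s))).injective
  inferInstance

variable {A N} {ℓ : ℕ} (C : Ctx A N ℓ)
include C

theorem dedekindPsi_pos : 0 < dedekindPsi N := by
  have h := RR.ndeg_pos (transcendental_tB N false)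
  rwa [ndeg_tB] at h

theorem ndeg_jS : RR.ndeg (kA A) (jS A N) = dedekindPsi N := by
  rw [← Good.finrank_fullC A N C.prime C.not_dvd C.lies]
  exact ndeg_eq_finrank (modularFunctionFieldFullC (kA A) N) (jS A N) _

theorem ndeg_tS (s : Bool) : RR.ndeg (kA A) (tS A N s) = dedekindPsi N := by
  rw [RR.ndeg_congr (KK_tS A N s), ndeg_jS C]

theorem finite_tS (s : Bool) : FiniteDimensional (KK (kA A) (tS A N s)) (FS A N) :=
  FiniteDimensional.of_finrank_pos (by
    have h := ndeg_tS C s
    unfold RR.ndeg at h
    rw [h]; exact dedekindPsi_pos C)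

theorem separable_tS (s : Bool) : Algebra.IsSeparable (KK (kA A) (tS A N s)) (FS A N) := by
  haveI := finite_tS C s
  refine ⟨fun x => ?_⟩
  have hj : IsSeparable (KK (kA A) (jS A N)) x :=
    isSeparable_of_ambient (modularFunctionFieldFullC (kA A) N) (jS A N)
      (Good.isSeparable_fullC A N C.prime C.not_dvd C.lies x.2)
  have key : ∀ L L' : IntermediateField (kA A) (FS A N), L = L' →
      IsSeparable L' x → IsSeparable L x := by rintro L _ rfl h; exact h
  exact key _ _ (KK_tS A N s) hj

omit C

/-! ### integrality over `A[t]` -/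

variable (A N)

/-- `A[X] → F`, `X ↦ t` -/
def phiA (s : Bool) : A[X] →+* FB N :=
  Polynomial.eval₂RingHom ((algebraMap Qb (FB N)).comp A.subtype) (tB N s)

/-- the chart: integral over `A[t]` -/
def BT (s : Bool) (b : FB N) : Prop := (phiA A N s).IsIntegralElem b

theorem phiA_apply (s : Bool) (p : A[X]) :
    phiA A N s p = Polynomial.aeval (tB N s) (p.map A.subtype) := by
  rw [Polynomial.aeval_def, Polynomial.eval₂_map]
  rfl

theorem BT_iff_adjoin (s : Bool) (b : FB N) :
    BT A N s b ↔ IsIntegral (Algebra.adjoin A ({(tB N s : LaurentSeries Qb)} : Set _))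
      (b : LaurentSeries Qb) :=
  isIntegralElem_iff_adjoin (modularFunctionFieldBar N) A.subtype (algebraMap_A_series A)
    (tB N s) b

theorem BT_fin_iff (b : FB N) : BT A N false b ↔ Good.InFin A N (b : LaurentSeries Qb) := by
  rw [BT_iff_adjoin]
  exact ⟨fun h => ⟨b.2, h⟩, fun h => h.2⟩

theorem BT_inf_iff (b : FB N) : BT A N true b ↔ Good.InInf A N (b : LaurentSeries Qb) := by
  rw [BT_iff_adjoin]
  exact ⟨fun h => ⟨b.2, h⟩, fun h => h.2⟩

/-- the chart of the special fibre -/
def BS (s : Bool) (x : FS A N) : Prop :=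
  (Polynomial.aeval (R := kA A) (tS A N s)).toRingHom.IsIntegralElem x

theorem BS_iff_adjoin (s : Bool) (x : FS A N) :
    BS A N s x ↔ IsIntegral (Algebra.adjoin (kA A) ({(tS A N s : LaurentSeries (kA A))} : Set _))
      (x : LaurentSeries (kA A)) :=
  isIntegralElem_iff_adjoin (modularFunctionFieldFullC (kA A) N) (RingHom.id (kA A))
    (fun _ => rfl) (tS A N s) x

theorem BS_fin_iff (x : FS A N) :
    BS A N false x ↔ Good.InFinRes A N (x : LaurentSeries (kA A)) := by
  rw [BS_iff_adjoin]
  exact ⟨fun h => ⟨x.2, h⟩, fun h => h.2⟩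

theorem BS_inf_iff (x : FS A N) :
    BS A N true x ↔ Good.InInfRes A N (x : LaurentSeries (kA A)) := by
  rw [BS_iff_adjoin]
  exact ⟨fun h => ⟨x.2, h⟩, fun h => h.2⟩

variable {A N}

theorem BT_phiA (s : Bool) (p : A[X]) : BT A N s (phiA A N s p) :=
  RingHom.isIntegralElem_map (phiA A N s)

theorem BT_tB (s : Bool) : BT A N s (tB N s) := by
  simpa [phiA] using BT_phiA (A := A) (N := N) s Polynomial.X

theorem BT_const (s : Bool) {a : Qb} (ha : a ∈ A) : BT A N s (algebraMap Qb (FB N) a) := by
  simpa [phiA] using BT_phiA (A := A) (N := N) s (Polynomial.C ⟨a, ha⟩)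

theorem BT.add {s : Bool} {b c : FB N} (h : BT A N s b) (h' : BT A N s c) : BT A N s (b + c) :=
  RingHom.IsIntegralElem.add _ h h'

theorem BT.sub {s : Bool} {b c : FB N} (h : BT A N s b) (h' : BT A N s c) : BT A N s (b - c) :=
  RingHom.IsIntegralElem.sub _ h h'

theorem BT.mul {s : Bool} {b c : FB N} (h : BT A N s b) (h' : BT A N s c) : BT A N s (b * c) :=
  RingHom.IsIntegralElem.mul _ h h'

theorem BT_one (s : Bool) : BT A N s 1 := RingHom.isIntegralElem_one _

theorem BT.pow {s : Bool} {b : FB N} (h : BT A N s b) : ∀ n : ℕ, BT A N s (b ^ n)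
  | 0 => by simpa using BT_one (A := A) (N := N) s
  | n + 1 => by rw [pow_succ]; exact (BT.pow h n).mul h

theorem BT.mem_regOn {s : Bool} {b : FB N} (h : BT A N s b) : b ∈ regOn Qb (tB N s) :=
  mem_regOn_of_isIntegral (phiA A N s) (fun p => by
    rw [phiA_apply]
    refine Algebra.adjoin_le ?_ (Polynomial.aeval_mem_adjoin_singleton Qb _)
    exact Set.singleton_subset_iff.mpr (self_mem_regOn _)) h

end FLTAgent.Reduction
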