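import Fermat.Agent.Reduction.Separate

/-!
The reduction of places is compatible with divisors of functions; existence of the reduction data.
-/

set_option autoImplicit false
set_option linter.unusedSectionVars false
set_option synthInstance.maxHeartbeats 100000

noncomputable section

open ModularCurve AlgebraicCurve Polynomial IsLocalRing
open FLTAgent.RR (Bd KK)

namespace FLTAgent.Reduction

variable {N : ℕ} [NeZero N]

open scoped Classical in
/-- the divisor of a function -/
def dv (y : FB N) : Divisor Qb (FB N) :=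
  if hy : y ≠ 0 then Finsupp.onFinset (finite_ord_B hy).toFinset (fun v => v.ord y)
    (fun v hv => (Set.Finite.mem_toFinset _).mpr hv) else 0

theorem dv_apply (y : FB N) (v : PB N) : dv y v = v.ord y := by
  rw [dv]
  split_ifs with h
  · rfl
  · push Not at h
    simp [h]

theorem dv_mul {x y : FB N} (hx : x ≠ 0) (hy : y ≠ 0) : dv (x * y) = dv x + dv y :=
  Finsupp.ext fun v => by rw [Finsupp.add_apply, dv_apply, dv_apply, dv_apply, v.ord_mul hx hy]

variable {A : ValuationSubring Qb} {ℓ : ℕ} (C : Ctx A N ℓ)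

/-- the image of the divisor against the divisor of the reduction -/
def defect (y : FB N) (Q : PS A N) : ℤ :=
  Finsupp.mapDomain (rP C) (dv y) Q - Q.ord (red A N y)

/-- compatibility for `y` -/
def Compat (y : FB N) : Prop := UG A N y ∧ ∀ Q, defect C y Q = 0

include C

theorem defect_mul {x y : FB N} (hx : UG A N x) (hy : UG A N y) (Q : PS A N) :
    defect C (x * y) Q = defect C x Q + defect C y Q := by
  rw [defect, defect, defect, dv_mul (hx.ne_zero C) (hy.ne_zero C), Finsupp.mapDomain_add,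
    Finsupp.add_apply, red_mul C hx.1 hy.1, Q.ord_mul hx.2 hy.2]
  ring

theorem defect_one (Q : PS A N) : defect C 1 Q = 0 := by
  have h := defect_mul C (UG_one C) (UG_one C) Q
  rw [mul_one] at h
  omega

theorem UG_pow {x : FB N} (hx : UG A N x) (n : ℕ) : UG A N (x ^ n) :=
  ⟨pow_mem hx.1 _, by rw [red_pow C hx.1]; exact pow_ne_zero _ hx.2⟩

theorem defect_pow {x : FB N} (hx : UG A N x) (n : ℕ) (Q : PS A N) :
    defect C (x ^ n) Q = n * defect C x Q := by
  induction n with
  | zero => simp [defect_one C]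
  | succ n ih => rw [pow_succ, defect_mul C (UG_pow C hx n) hx, ih]; push_cast; ring

theorem defect_nonneg {s : Bool} {b : FB N} (hb : BT A N s b) (hU : UG A N b) {Q : PS A N}
    (hQ : Bd Q (tS A N s) 0) : 0 ≤ defect C b Q := by
  classical
  set D := dv b with hD
  set S := D.support.filter (fun P => Bd P (tB N s) 0) with hS
  obtain ⟨x, hx, hxU, hxo, hxQ⟩ := exists_prod_elem C hQ S
    (fun P hP => (Finset.mem_filter.mp hP).2) (fun P => (D P).toNat)
  have hD0 : ∀ P : PB N, Bd P (tB N s) 0 → 0 ≤ D P := fun P hP => by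
    rw [hD, dv_apply]
    have := (RR.bd_iff_ord (hU.ne_zero C)).mp (hb.mem_regOn P hP)
    simpa using this
  obtain ⟨hbi, hbr⟩ := hU.inv C
  have hz : BT A N s (x * b⁻¹) := by
    refine BT_of_mem C (fun P hP => ?_) (mul_mem hxU.1 hbi.1)
    rw [RR.bd_iff_ord (mul_ne_zero (hxU.ne_zero C) (inv_ne_zero (hU.ne_zero C))),
      P.ord_mul (hxU.ne_zero C) (inv_ne_zero (hU.ne_zero C)), P.ord_inv, ← dv_apply b P]
    have hDP : dv b P = D P := by rw [hD]
    by_cases hPS : P ∈ S
    · have := hxo P hPS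
      have h2 := hD0 P hP
      omega
    · have h3 : D P = 0 := by
        by_contra h
        exact hPS (Finset.mem_filter.mpr ⟨Finsupp.mem_support_iff.mpr h, hP⟩)
      have h4 : 0 ≤ P.ord x := by
        have := (RR.bd_iff_ord (hxU.ne_zero C)).mp (hx.mem_regOn P hP)
        simpa using this
      omega
  have hzr := (RR.bd_iff_ord (by
    rw [red_mul C hxU.1 hbi.1, hbr]
    exact mul_ne_zero hxU.2 (inv_ne_zero hU.2))).mp ((BS_iff C).mp (red_BS C hz) Q hQ)
  rw [red_mul C hxU.1 hbi.1, hbr, Q.ord_mul hxU.2 (inv_ne_zero hU.2), Q.ord_inv, hxQ] at hzr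
  have hsum : Finsupp.mapDomain (rP C) D Q = ∑ P ∈ S.filter (fun P => rP C P = Q),
      ((D P).toNat : ℤ) := by
    rw [mapDomain_apply_eq_sum (rP C) D Q D.support subset_rfl, hS, Finset.filter_filter,
      Finset.sum_congr (s₁ := D.support.filter (fun P => rP C P = Q))
        (s₂ := D.support.filter (fun P => Bd P (tB N s) 0 ∧ rP C P = Q)) (g := fun P => D P) ?_
        (fun P _ => rfl)]
    · refine Finset.sum_congr rfl fun P hP => ?_
      rw [Int.toNat_of_nonneg (hD0 P (Finset.mem_filter.mp hP).2.1)]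
    · refine Finset.filter_congr fun P _ => ⟨fun h => ⟨?_, h⟩, fun h => h.2⟩
      obtain ⟨d, -, hd⟩ := (fin_rP_iff C).mp (h ▸ hQ : Bd (rP C P) (tS A N s) 0)
      exact hd.bd
  rw [defect, ← hD, hsum]
  omega

theorem UG_sub_const (s : Bool) {c : Qb} (hc : c ∈ A) :
    UG A N (tB N s - cB N c) ∧
      red A N (tB N s - cB N c) = tS A N s - algebraMap (kA A) (FS A N) (residue A ⟨c, hc⟩) := by
  have h : red A N (tB N s - cB N c) =
      tS A N s - algebraMap (kA A) (FS A N) (residue A ⟨c, hc⟩) := by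
    rw [red_sub C (tB_mem s) (cB_mem hc), red_tB C, red_cB C ⟨c, hc⟩]
  refine ⟨⟨sub_mem (tB_mem s) (cB_mem hc), ?_⟩, h⟩
  rw [h]
  exact ne_zero_of_transc (RR.transcendental_sub_const (transcendental_tS A N s) _)

/-- the zeros of `t - a` on the special fibre -/
theorem exists_zeros_S (s : Bool) (a : kA A) :
    ∃ sS : Finset (PS A N),
      (∀ v, v ∈ sS ↔ 0 < v.ord (tS A N s - algebraMap (kA A) (FS A N) a)) ∧
      ∑ v ∈ sS, v.ord (tS A N s - algebraMap (kA A) (FS A N) a) = dedekindPsi N := by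
  have key : ∀ (L : IntermediateField (kA A) (FS A N)), L = KK (kA A) (tS A N s) →
      FiniteDimensional L (FS A N) ∧ Algebra.IsSeparable L (FS A N) := by
    rintro L rfl; exact ⟨finite_tS C s, separable_tS C s⟩
  obtain ⟨h1, h2⟩ := key _ (RR.KK_sub_const (tS A N s) a)
  haveI := h1
  haveI := h2
  obtain ⟨sS, h3, h4⟩ := exists_zeros
    (RR.transcendental_sub_const (transcendental_tS A N s) a)
  exact ⟨sS, h3, by rw [h4, RR.ndeg_congr (RR.KK_sub_const (tS A N s) a), ndeg_tS C s]⟩

set_option maxHeartbeats 800000 in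
/-- counting: `t - c` is compatible on the chart of `t` -/
theorem defect_sub_const_fin (s : Bool) {c : Qb} (hc : c ∈ A) {Q : PS A N}
    (hQ : Bd Q (tS A N s) 0) : defect C (tB N s - cB N c) Q = 0 := by
  classical
  set y := tB N s - cB N c
  set y' := tS A N s - algebraMap (kA A) (FS A N) (residue A ⟨c, hc⟩)
  obtain ⟨hU, hr⟩ : UG A N y ∧ red A N y = y' := UG_sub_const C s hc
  have hy0 := hU.ne_zero C
  have hy'0 : y' ≠ 0 := hr ▸ hU.2
  have hb : BT A N s y := (BT_tB s).sub (BT_const s hc)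
  obtain ⟨sS, hsS, hsum⟩ := exists_zeros_S C s (residue A ⟨c, hc⟩)
  set sB := RR.zeros (K := Qb) y
  have hsumB : ∑ v ∈ sB, v.ord y = dedekindPsi N := by
    rw [RR.sum_zeros (RR.transcendental_sub_const (transcendental_tB N s) c),
      RR.ndeg_congr (RR.KK_sub_const _ _), ndeg_tB]
  have hfinS : ∀ v ∈ sS, Bd v (tS A N s) 0 := fun v hv => by
    have h1 : Val v y' 0 := val_zero_of_ord_pos ((hsS v).mp hv)
    have h2 := h1.add (Val.const (v := v) (residue A ⟨c, hc⟩))
    rw [sub_add_cancel] at h2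
    exact h2.bd
  have hmap : ∀ P ∈ sB, rP C P ∈ sS := by
    intro P hP
    have h1 : Val P (tB N s) c := by
      have := (val_zero_of_ord_pos (RR.mem_zeros.mp hP)).add (Val.const (v := P) c)
      rwa [sub_add_cancel, zero_add] at this
    obtain ⟨_, h2⟩ := val_rP C (BT_tB s) h1 hc h1
    rw [red_tB C] at h2
    have h3 := h2.sub (Val.const (v := rP C P) (residue A ⟨c, hc⟩))
    rw [sub_self] at h3
    rw [hsS]
    have := h3.ord_pos hy'0
    omega
  have hfib : ∀ P : PB N, Bd (rP C P) (tS A N s) 0 → P.ord y ≠ 0 → P ∈ sB := by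
    intro P hP hne
    rw [RR.mem_zeros]
    obtain ⟨d, -, hd⟩ := (fin_rP_iff C).mp hP
    have := (RR.bd_iff_ord hy0).mp (hb.mem_regOn P hd.bd)
    omega
  have hval : ∀ Q : PS A N, Bd Q (tS A N s) 0 →
      Finsupp.mapDomain (rP C) (dv y) Q = ∑ P ∈ sB.filter (fun P => rP C P = Q), P.ord y := by
    intro Q hQ
    rw [mapDomain_apply_eq_sum (rP C) (dv y) Q ((dv y).support ∪ sB) Finset.subset_union_left]
    simp only [dv_apply]
    refine (Finset.sum_subset ?_ ?_).symm
    · exact Finset.filter_subset_filter _ Finset.subset_union_right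
    · intro P hP hP'
      rw [Finset.mem_filter] at hP hP'
      by_contra hne
      exact hP' ⟨hfib P (hP.2 ▸ hQ) hne, hP.2⟩
  have hnn : ∀ v ∈ sS, 0 ≤ defect C y v := fun v hv => defect_nonneg C hb hU (hfinS v hv)
  have htot : ∑ v ∈ sS, defect C y v = 0 := by
    simp only [defect, hr]
    rw [Finset.sum_sub_distrib, hsum, Finset.sum_congr rfl fun v hv => hval v (hfinS v hv),
      Finset.sum_fiberwise_of_maps_to hmap (fun P => P.ord y), hsumB, sub_self]
  by_cases hQS : Q ∈ sS
  · exact (Finset.sum_eq_zero_iff_of_nonneg hnn).mp htot Q hQS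
  · rw [defect, hr, hval Q hQ]
    have h1 : sB.filter (fun P => rP C P = Q) = ∅ :=
      Finset.filter_eq_empty_iff.mpr fun {P} hP h => hQS (h ▸ hmap P hP)
    have h2 : Q.ord y' = 0 := by
      have h3 := (RR.bd_iff_ord hy'0).mp
        (((self_mem_regOn (tS A N s)) Q hQ).sub (RR.Bd.of_algebraMap (residue A ⟨c, hc⟩)))
      rw [hsS] at hQS
      change ¬ 0 < Q.ord y' at hQS
      omega
    rw [h1, Finset.sum_empty, h2, sub_zero]

theorem defect_tB (s : Bool) (Q : PS A N) : defect C (tB N s) Q = 0 := by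
  by_cases hQ : Bd Q (tS A N s) 0
  · have h := defect_sub_const_fin C s A.zero_mem hQ
    simpa [cB] using h
  · have hQ' : Bd Q (tS A N (!s)) 0 := by
      rw [tS_not]; exact (bd_inv_of_not_bd hQ).mono (by norm_num)
    have h := defect_sub_const_fin C (!s) A.zero_mem hQ'
    simp only [cB, map_zero, sub_zero] at h
    have h2 := defect_mul C (UG_tB C s) (UG_tB C (!s)) Q
    rw [h, tB_not, mul_inv_cancel₀ (tB_ne_zero N s), defect_one C] at h2
    omega

theorem ord_sub_const_of_pole {K F : Type*} [Field K] [Field F] [Algebra K F] {v : Place K F}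
    {x : F} (h : ¬ Bd v x 0) (c : K) : v.ord (x - algebraMap K F c) = v.ord x := by
  obtain ⟨hx, hneg⟩ := RR.not_bd_iff.mp h
  rw [sub_eq_add_neg]
  refine (RR.ord_add_eq v hx ?_).2
  rcases eq_or_ne c 0 with rfl | hc
  · exact Or.inl (by simp)
  · exact Or.inr (by rw [RR.ord_neg, RR.ord_algebraMap]; simpa using hneg)

theorem compat_sub_const (s : Bool) {c : Qb} (hc : c ∈ A) :
    Compat C (tB N s - cB N c) := by
  refine ⟨(UG_sub_const C s hc).1, fun Q => ?_⟩
  by_cases hQ : Bd Q (tS A N s) 0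
  · exact defect_sub_const_fin C s hc hQ
  · rw [defect, (UG_sub_const C s hc).2, ord_sub_const_of_pole C hQ, ← red_tB C,
      mapDomain_congr_fibre (rP C) (dv (tB N s - cB N c)) (dv (tB N s)) Q fun P hP => ?_]
    · exact defect_tB C s Q
    · rw [dv_apply, dv_apply]
      by_cases hb : Bd P (tB N s) 0
      · obtain ⟨d, hd⟩ := val_exists_B hb
        have hdA : d ∉ A := fun hdA => hQ (hP ▸ (fin_rP_iff C).mpr ⟨d, hdA, hd⟩)
        have hd0 : d ≠ 0 := fun h0 => hdA (h0 ▸ A.zero_mem)
        have hdc : d - c ≠ 0 := fun h0 => hdA (sub_eq_zero.mp h0 ▸ hc)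
        rw [(hd.ord_eq_zero hd0).2, ((hd.sub (Val.const c)).ord_eq_zero hdc).2]
      · exact ord_sub_const_of_pole C hb c

theorem Compat.mul {x y : FB N} (hx : Compat C x) (hy : Compat C y) : Compat C (x * y) :=
  ⟨hx.1.mul C hy.1, fun Q => by rw [defect_mul C hx.1 hy.1, hx.2, hy.2, add_zero]⟩

theorem compat_one : Compat C (1 : FB N) := ⟨UG_one C, defect_one C⟩

theorem compat_tB (s : Bool) : Compat C (tB N s) := ⟨UG_tB C s, defect_tB C s⟩

/-- every linear factor is a constant times a compatible element -/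
theorem exists_compat_linear (s : Bool) (r : Qb) :
    ∃ (γ : Qb) (u : FB N), γ ≠ 0 ∧ Compat C u ∧ tB N s - cB N r = cB N γ * u := by
  by_cases hr : r ∈ A
  · exact ⟨1, _, one_ne_zero, compat_sub_const C s hr, by simp⟩
  · have hr0 : r ≠ 0 := fun h0 => hr (h0 ▸ A.zero_mem)
    have hrA : r⁻¹ ∈ A := (A.mem_or_inv_mem r).resolve_left hr
    refine ⟨-r, _, neg_ne_zero.mpr hr0,
      (compat_sub_const C (!s) hrA).mul C (compat_tB C s), ?_⟩
    rw [tB_not]
    have := tB_ne_zero N s
    have h2 : cB N r ≠ 0 := (_root_.map_ne_zero _).mpr hr0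
    simp only [cB, map_neg, map_inv₀] at h2 ⊢
    field_simp
    ring

theorem exists_compat_pow {y : FB N} (hy : ∃ (γ : Qb) (u : FB N),
      γ ≠ 0 ∧ Compat C u ∧ y = cB N γ * u) (n : ℕ) :
    ∃ (γ : Qb) (u : FB N), γ ≠ 0 ∧ Compat C u ∧ y ^ n = cB N γ * u := by
  obtain ⟨γ, u, hγ, hu, rfl⟩ := hy
  refine ⟨γ ^ n, u ^ n, pow_ne_zero _ hγ,
    ⟨UG_pow C hu.1 n, fun Q => by rw [defect_pow C hu.1, hu.2, mul_zero]⟩, ?_⟩
  simp only [cB, mul_pow, map_pow]

/-- a compatible multiplier making the chart regular -/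
theorem exists_clear (s : Bool) {y : FB N} (hy : y ≠ 0) :
    ∃ (γ : Qb) (u : FB N), γ ≠ 0 ∧ Compat C u ∧ u * y ∈ regOn Qb (tB N s) := by
  classical
  set S := (finite_ord_B hy).toFinset.filter (fun P => Bd P (tB N s) 0) with hS
  have hS' : ∀ P ∈ S, ∃ d, Val P (tB N s) d := fun P hP =>
    val_exists_B (Finset.mem_filter.mp hP).2
  choose! d hd using hS'
  have key : ∀ T ⊆ S, ∃ (γ : Qb) (u : FB N), γ ≠ 0 ∧ Compat C u ∧
      cB N γ * u = ∏ P ∈ T, (tB N s - cB N (d P)) ^ (P.ord y).natAbs := by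
    intro T hT
    induction T using Finset.induction_on with
    | empty => exact ⟨1, 1, one_ne_zero, compat_one C, by simp⟩
    | insert P T hP ih =>
        obtain ⟨γ, u, hγ, hu, he⟩ := ih fun x hx => hT (Finset.mem_insert_of_mem hx)
        obtain ⟨γ', u', hγ', hu', he'⟩ :=
          exists_compat_pow C (exists_compat_linear C s (d P)) (P.ord y).natAbs
        refine ⟨γ' * γ, u' * u, mul_ne_zero hγ' hγ, hu'.mul C hu, ?_⟩
        rw [Finset.prod_insert hP, ← he, he']
        simp only [cB, map_mul]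
        ring
  obtain ⟨γ, u, hγ, hu, he⟩ := key S subset_rfl
  refine ⟨γ, u, hγ, hu, fun P hP => ?_⟩
  have hreg : ∀ P' : PB N, Bd P (tB N s - cB N (d P')) 0 := fun P' =>
    ((self_mem_regOn (tB N s)) P hP).sub (RR.Bd.of_algebraMap _)
  have hne : ∀ P' : PB N, (tB N s - cB N (d P')) ≠ 0 := fun P' =>
    ne_zero_of_transc (RR.transcendental_sub_const (transcendental_tB N s) _)
  have hu0 := hu.1.ne_zero C
  have hord : P.ord u = ∑ P' ∈ S, (P'.ord y).natAbs * P.ord (tB N s - cB N (d P')) := by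
    have h1 : P.ord (cB N γ * u) = P.ord u := by
      rw [P.ord_mul ((_root_.map_ne_zero _).mpr hγ) hu0, RR.ord_algebraMap, zero_add]
    rw [← h1, he, RR.ord_prod P _ _ fun P' _ => pow_ne_zero _ (hne P')]
    exact Finset.sum_congr rfl fun P' _ => RR.ord_pow _ _ _
  have hterm : ∀ P' ∈ S, 0 ≤ ((P'.ord y).natAbs : ℤ) * P.ord (tB N s - cB N (d P')) :=
    fun P' _ => mul_nonneg (by positivity)
      (by have := (RR.bd_iff_ord (hne P')).mp (hreg P'); omega)
  rw [RR.bd_iff_ord (mul_ne_zero hu0 hy), P.ord_mul hu0 hy, hord]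
  have hnn := Finset.sum_nonneg hterm
  by_cases hy' : P.ord y = 0
  · omega
  · have hPS : P ∈ S := Finset.mem_filter.mpr ⟨(Set.Finite.mem_toFinset _).mpr hy', hP⟩
    have h2 := Finset.single_le_sum hterm hPS
    have h3 : 1 ≤ P.ord (tB N s - cB N (d P)) := by
      refine Val.ord_pos ?_ (hne P)
      simpa using (hd P hPS).sub (Val.const (d P))
    have h4 : ((P.ord y).natAbs : ℤ) ≤ ((P.ord y).natAbs : ℤ) * P.ord (tB N s - cB N (d P)) :=
      le_mul_of_one_le_right (by positivity) h3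
    omega

theorem defect_BT_fin {s : Bool} {b : FB N} (hb : BT A N s b) (hU : UG A N b) {Q : PS A N}
    (hQ : Bd Q (tS A N s) 0) : defect C b Q = 0 := by
  obtain ⟨hi, -⟩ := hU.inv C
  obtain ⟨γ, u, -, hu, hreg⟩ := exists_clear C s (hi.ne_zero C)
  have hb' : BT A N s (u * b⁻¹) := BT_of_mem C hreg (mul_mem hu.1.1 hi.1)
  have h1 := defect_nonneg C hb hU hQ
  have h2 := defect_nonneg C hb' (hu.1.mul C hi) hQ
  have h3 := defect_mul C (hu.1.mul C hi) hU Q
  rw [mul_assoc, inv_mul_cancel₀ (hU.ne_zero C), mul_one, hu.2] at h3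
  omega

theorem defect_eq_zero {y : FB N} (hy : UG A N y) (Q : PS A N) : defect C y Q = 0 := by
  have key : ∀ s : Bool, Bd Q (tS A N s) 0 → defect C y Q = 0 := by
    intro s hQ
    obtain ⟨γ, u, -, hu, hreg⟩ := exists_clear C s (hy.ne_zero C)
    have h1 := defect_BT_fin C (BT_of_mem C hreg (mul_mem hu.1.1 hy.1)) (hu.1.mul C hy) hQ
    rw [defect_mul C hu.1 hy, hu.2, zero_add] at h1
    exact h1
  by_cases hQ : Bd Q (tS A N false) 0
  · exact key false hQ
  · exact key true (by
      rw [show true = !false from rfl, tS_not]; exact (bd_inv_of_not_bd hQ).mono (by norm_num))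

theorem deg_rP (P : PB N) : (rP C P).deg = P.deg := by
  rw [(hasRes_S C _).deg_eq_one, (RR.hasRes (K := Qb) P).deg_eq_one]

theorem isPlaceReduction_rP : IsPlaceReductionModL A N (rP C) := by
  refine ⟨deg_rP C, fun y hy hyk hne D hD Q => ?_⟩
  set y0 : FB N := ⟨coeffMap A.subtype y, hy⟩
  have hGR : y0 ∈ GR A N := mem_GR_of_series (y := y0) (G := y) rfl
  have hred : red A N y0 = ⟨coeffMap (residue A) y, hyk⟩ :=
    Subtype.ext ((coe_red C hGR).trans (redS_series (y := y0) (G := y) rfl))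
  have hU : UG A N y0 := ⟨hGR, by rw [hred]; exact fun h => hne (congrArg Subtype.val h)⟩
  have h := defect_eq_zero C hU Q
  have hDd : dv y0 = D := Finsupp.ext fun P => by rw [dv_apply, hD]
  rw [defect, hDd, hred, sub_eq_zero] at h
  exact h

theorem principalGenerated : PrincipalGeneratedByIntegral A (residue A) N := by
  rintro D ⟨f, hf, hD⟩
  obtain ⟨B⟩ := nonempty_basis0 C
  obtain ⟨c, Q, P, hc, hQ, ⟨i, hi⟩, h⟩ := exists_repr C B hf
  have hQ0 := aeval_tS_ne_zero C false hQ
  have hint : ∀ {b : FB N}, BT A N false b → redS A N b ≠ 0 →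
      dv b ∈ integralPrincipalDivisors A (residue A) N := by
    intro b hb hne
    obtain ⟨G, x, hG, hx, -⟩ := exists_series_BT C false hb
    have hr : redS A N b = dn A G := redS_series hG
    refine ⟨G, ?_, ?_, ?_, fun P => ?_⟩
    · show up A G ∈ _
      rw [hG]; exact b.2
    · show dn A G ∈ _
      rw [← hx]; exact x.2
    · show dn A G ≠ 0
      rwa [← hr]
    · rw [dv_apply]
      congr 1
      exact Subtype.ext hG.symm
  have hQF : phiA A N false Q ≠ 0 := fun h0 => hQ0 (by rw [h0, redS_zero])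
  have hPF : B.comb P ≠ 0 := fun h0 =>
    hi ((redS_comb C B P).2 (by rw [h0, redS_zero]) i)
  have hcomb : BT A N false (B.comb P) := by
    refine BT_of_mem C ?_ (comb_mem C B P)
    exact Subalgebra.sum_mem _ fun j _ =>
      Subalgebra.mul_mem _ (BT_phiA (A := A) (N := N) false (P j)).mem_regOn (B.bt j).mem_regOn
  have hDeq : D = dv (B.comb P) - dv (phiA A N false Q) := by
    ext v
    have h1 := congrArg (fun z => v.ord z) h
    simp only [v.ord_mul hf hQF, v.ord_mul ((_root_.map_ne_zero _).mpr hc : cB N c ≠ 0) hPF,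
      RR.ord_algebraMap, zero_add] at h1
    rw [Finsupp.sub_apply, hD, dv_apply, dv_apply]
    omega
  rw [hDeq]
  refine AddSubgroup.sub_mem _ (AddSubgroup.subset_closure (hint hcomb ?_))
    (AddSubgroup.subset_closure (hint (BT_phiA false Q) hQ0))
  exact fun h0 => hi ((redS_comb C B P).2 h0 i)

theorem reductionInputs : ReductionInputsModL A N :=
  ⟨rP C, isPlaceReduction_rP C, principalGenerated C⟩

end FLTAgent.Reduction
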