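import Fermat.Agent.Genus.Embed
import Fermat.Agent.Genus.Cosets
import Fermat.Agent.HeckeJ.API

/-!
The Atkin–Lehner automorphism at a prime `ℓ ∤ N` of the function field of `X₀(Nℓ)`, and the degree
of `X₀(Nℓ) → X₀(N)`.
-/

set_option autoImplicit false
set_option linter.unusedSectionVars false

noncomputable section

open ModularCurve AlgebraicCurve UpperHalfPlane CongruenceSubgroup
open scoped MatrixGroups
open FLTAgent.ModFun

namespace FLTAgent.Reduction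

local notation "Kb" => AlgebraicClosure ℚ

variable {N ℓ : ℕ} [NeZero N] [NeZero ℓ]

theorem scale_scale (d e : ℕ) [NeZero d] [NeZero e] [NeZero (d * e)] (τ : ℍ) :
    scale d (scale e τ) = scale (d * e) τ :=
  UpperHalfPlane.ext (by rw [coe_scale, coe_scale, coe_scale, Nat.cast_mul, mul_assoc])

theorem jFun_scale_congr {a b : ℕ} [NeZero a] [NeZero b] (h : a = b) (τ : ℍ) :
    jFun (scale a τ) = jFun (scale b τ) := by subst h; rfl

/-- the point `γ (ℓ τ)`, `γ ∈ Γ₀(N)`, realises the Atkin–Lehner involution on all `j(dτ)` -/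
theorem exists_atkin_point (hℓ : ℓ.Prime) (hℓN : ¬ ℓ ∣ N) :
    ∃ T : ℍ → ℍ, ∀ (d : ℕ) [NeZero d] [NeZero (d * ℓ)], d ∣ N → ∀ τ,
      jFun (scale d (T τ)) = jFun (scale (d * ℓ) τ) ∧
      jFun (scale (d * ℓ) (T τ)) = jFun (scale d τ) := by
  obtain ⟨u, v, huv⟩ : IsCoprime (ℓ : ℤ) (N : ℤ) :=
    Nat.isCoprime_iff_coprime.mpr (hℓ.coprime_iff_not_dvd.mpr hℓN)
  let γ : SL(2, ℤ) := ⟨!![u, -v; (N : ℤ), (ℓ : ℤ)], by
    simp [Matrix.det_fin_two]; linear_combination huv⟩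
  have hγ : γ ∈ Gamma0 N := by rw [Gamma0_mem]; simp [γ]
  refine ⟨fun τ => γ • scale ℓ τ, fun d _ _ hdN τ => ⟨?_, ?_⟩⟩
  · have hd : γ ∈ Gamma0 d := by
      rw [Gamma0_mem, ZMod.intCast_zmod_eq_zero_iff_dvd]
      show (d : ℤ) ∣ (N : ℤ)
      exact_mod_cast hdN
    obtain ⟨γ', h⟩ := scale_smul_Gamma0 d hd (scale ℓ τ)
    rw [h, jFun_smul, scale_scale]
  · obtain ⟨e, he⟩ := hdN
    have he' : (N : ℤ) = d * e := by exact_mod_cast he
    let γ' : SL(2, ℤ) := ⟨!![(ℓ : ℤ) * u, -((d : ℤ) * v); (e : ℤ), 1], by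
      simp [Matrix.det_fin_two]
      linear_combination huv - v * he'⟩
    have h := (scale_smul_eq (d * ℓ) γ γ' d 0 ℓ (by simp [γ, γ']; ring) (by simp [γ, γ']; ring)
      (by simp [γ, γ']; linear_combination he') (by simp [γ, γ']) (scale ℓ τ)).1
    rw [h, jFun_smul]
    congr 1
    refine UpperHalfPlane.ext ?_
    rw [coe_aff, coe_scale, coe_scale]
    have : (ℓ : ℂ) ≠ 0 := Nat.cast_ne_zero.mpr (NeZero.ne ℓ)
    field_simp
    push_cast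
    ring

variable (N ℓ) in
/-- the swap `d ↔ dℓ` -/
def swapNat (d : ℕ) : ℕ := if ℓ ∣ d then d / ℓ else d * ℓ

theorem swap_cases (hℓ : ℓ.Prime) (hℓN : ¬ ℓ ∣ N) {d : ℕ} (hd : d ∣ N * ℓ) :
    (d ∣ N ∧ swapNat ℓ d = d * ℓ) ∨ ∃ e, e ∣ N ∧ d = e * ℓ ∧ swapNat ℓ d = e := by
  by_cases h : ℓ ∣ d
  · obtain ⟨e, rfl⟩ := h
    refine Or.inr ⟨e, ?_, mul_comm _ _, ?_⟩
    · exact (Nat.mul_dvd_mul_iff_left hℓ.pos).mp (by rwa [mul_comm N ℓ] at hd)
    · rw [swapNat, if_pos (dvd_mul_right _ _), Nat.mul_div_cancel_left _ hℓ.pos]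
  · refine Or.inl ⟨?_, by rw [swapNat, if_neg h]⟩
    exact (Nat.Coprime.dvd_of_dvd_mul_right
      (Nat.coprime_comm.mp (hℓ.coprime_iff_not_dvd.mpr h)) hd)

theorem swapNat_dvd (hℓ : ℓ.Prime) (hℓN : ¬ ℓ ∣ N) {d : ℕ} (hd : d ∣ N * ℓ) :
    swapNat ℓ d ∣ N * ℓ := by
  rcases swap_cases hℓ hℓN hd with ⟨h, he⟩ | ⟨e, he, -, he'⟩
  · rw [he]; exact Nat.mul_dvd_mul_right h ℓ
  · rw [he']; exact he.mul_right ℓ

theorem swapNat_swapNat (hℓ : ℓ.Prime) (hℓN : ¬ ℓ ∣ N) {d : ℕ} (hd : d ∣ N * ℓ) :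
    swapNat ℓ (swapNat ℓ d) = d := by
  rcases swap_cases hℓ hℓN hd with ⟨h, he⟩ | ⟨e, he, hde, he'⟩
  · rw [he, swapNat, if_pos (dvd_mul_left _ _), Nat.mul_div_cancel _ hℓ.pos]
  · rw [he', swapNat, if_neg fun h => hℓN (h.trans he), hde]

/-- the swap on the divisors of `Nℓ` -/
def swapDiv (hℓ : ℓ.Prime) (hℓN : ¬ ℓ ∣ N) (d : (N * ℓ).divisors) : (N * ℓ).divisors :=
  ⟨swapNat ℓ d, Nat.mem_divisors.mpr ⟨swapNat_dvd hℓ hℓN (Nat.dvd_of_mem_divisors d.2),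
    mul_ne_zero (NeZero.ne N) (NeZero.ne ℓ)⟩⟩

theorem swapDiv_swapDiv (hℓ : ℓ.Prime) (hℓN : ¬ ℓ ∣ N) (d : (N * ℓ).divisors) :
    swapDiv hℓ hℓN (swapDiv hℓ hℓN d) = d :=
  Subtype.ext (swapNat_swapNat hℓ hℓN (Nat.dvd_of_mem_divisors d.2))

set_option maxHeartbeats 1600000 in
theorem rel_swap (hℓ : ℓ.Prime) (hℓN : ¬ ℓ ∣ N) (P : MvPolynomial (N * ℓ).divisors Kb)
    (h : MvPolynomial.aeval (Genus.jgen (N * ℓ)) P = 0) :
    MvPolynomial.aeval (Genus.jgen (N * ℓ) ∘ swapDiv hℓ hℓN) P = 0 := by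
  haveI : ∀ d : (N * ℓ).divisors, NeZero ((d : ℕ)) := fun d =>
    ⟨(Nat.pos_of_mem_divisors d.2).ne'⟩
  obtain ⟨T, hT⟩ := exists_atkin_point hℓ hℓN
  rw [← MvPolynomial.aeval_rename]
  refine (transferBar ModFun.embC (fun d : (N * ℓ).divisors => (d : ℕ)) _).mpr fun τ => ?_
  rw [MvPolynomial.map_rename, MvPolynomial.eval_rename]
  have h1 := (transferBar ModFun.embC (fun d : (N * ℓ).divisors => (d : ℕ)) P).mp h (T τ)
  refine Eq.trans ?_ h1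
  congr 2
  funext d
  show jFun (scale ((swapDiv hℓ hℓN d : ℕ)) τ) = jFun (scale (d : ℕ) (T τ))
  haveI : NeZero (swapNat ℓ (d : ℕ)) := ⟨NeZero.ne ((swapDiv hℓ hℓN d : ℕ))⟩
  rcases swap_cases hℓ hℓN (Nat.dvd_of_mem_divisors d.2) with ⟨hd, he⟩ | ⟨e, hd, hde, he⟩
  · haveI : NeZero ((d : ℕ) * ℓ) := ⟨mul_ne_zero (NeZero.ne _) (NeZero.ne ℓ)⟩
    exact (jFun_scale_congr he τ).trans ((hT (d : ℕ) hd τ).1).symm
  · haveI : NeZero e := ⟨fun h0 => NeZero.ne (d : ℕ) (by rw [hde, h0, zero_mul])⟩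
    haveI : NeZero (e * ℓ) := ⟨mul_ne_zero (NeZero.ne e) (NeZero.ne ℓ)⟩
    exact (jFun_scale_congr he τ).trans
      (((hT e hd τ).2).symm.trans (jFun_scale_congr hde.symm (T τ)))

set_option maxHeartbeats 1000000 in
/-- the Atkin–Lehner automorphism, exchanging the two degeneracy maps -/
theorem exists_atkin (hℓ : ℓ.Prime) (hℓN : ¬ ℓ ∣ N) :
    ∃ W : modularFunctionFieldBar (N * ℓ) →ₐ[Kb] modularFunctionFieldBar (N * ℓ),
      (∀ f, W (heckeAlphaBar Kb N ℓ f) = heckeBetaBar Kb N ℓ f) ∧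
      ∀ f, W (heckeBetaBar Kb N ℓ f) = heckeAlphaBar Kb N ℓ f := by
  haveI : ∀ d : (N * ℓ).divisors, NeZero ((d : ℕ)) := fun d =>
    ⟨(Nat.pos_of_mem_divisors d.2).ne'⟩
  set M := N * ℓ with hM
  have hcoe : ∀ P : MvPolynomial M.divisors Kb,
      MvPolynomial.aeval (fun d => Genus.gen M (swapDiv hℓ hℓN d)) P = 0 ↔
        MvPolynomial.aeval (Genus.jgen M ∘ swapDiv hℓ hℓN) P = 0 := by
    intro P
    rw [← MvPolynomial.aeval_rename, ← Genus.coe_aeval_gen, MvPolynomial.aeval_rename]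
    exact (ZeroMemClass.coe_eq_zero).symm
  obtain ⟨W, hW⟩ := Genus.exists_algHom (fun d => Genus.gen M (swapDiv hℓ hℓN d)) fun P => by
    rw [hcoe]
    refine ⟨rel_swap hℓ hℓN P, fun h => ?_⟩
    rw [← MvPolynomial.aeval_rename] at h
    have h2 := rel_swap hℓ hℓN _ h
    rw [MvPolynomial.aeval_rename, Function.comp_assoc] at h2
    rwa [show swapDiv hℓ hℓN ∘ swapDiv hℓ hℓN = id from funext (swapDiv_swapDiv hℓ hℓN),
      Function.comp_id] at h2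
  have hgen : ∀ (d : N.divisors) (d₁ : M.divisors) (_ : (d₁ : ℕ) = (d : ℕ)),
      heckeAlphaBar Kb N ℓ (Genus.gen N d) = Genus.gen M d₁ := fun d d₁ h => Subtype.ext (by
    rw [coe_heckeAlphaBar]
    show Genus.jgen N d = Genus.jgen M d₁
    simp only [Genus.jgen, h])
  have hgen' : ∀ (d : N.divisors) (d₁ : M.divisors) (_ : (d₁ : ℕ) = (d : ℕ) * ℓ),
      heckeBetaBar Kb N ℓ (Genus.gen N d) = Genus.gen M d₁ := fun d d₁ h => Subtype.ext (by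
    rw [coe_heckeBetaBar]
    haveI : NeZero (d : ℕ) := ⟨(Nat.pos_of_mem_divisors d.2).ne'⟩
    show qExpand Kb ℓ (Genus.jgen N d) = Genus.jgen M d₁
    haveI : NeZero (ℓ * (d : ℕ)) := ⟨mul_ne_zero (NeZero.ne ℓ) (NeZero.ne _)⟩
    simp only [Genus.jgen]
    rw [coeffEmb, ← ModularCurve.coeffMap_qExpand, qExpand_qExpand]
    simp only [h, mul_comm ℓ (d : ℕ)])
  have hd₁ : ∀ d : N.divisors, (d : ℕ) ∈ M.divisors ∧ (d : ℕ) * ℓ ∈ M.divisors ∧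
      swapNat ℓ (d : ℕ) = (d : ℕ) * ℓ := fun d => by
    have h := Nat.dvd_of_mem_divisors d.2
    refine ⟨Nat.mem_divisors.mpr ⟨h.mul_right ℓ, NeZero.ne _⟩,
      Nat.mem_divisors.mpr ⟨Nat.mul_dvd_mul_right h ℓ, NeZero.ne _⟩, ?_⟩
    rw [swapNat, if_neg fun hh => hℓN (hh.trans h)]
  have e1 : W.comp (heckeAlphaBar Kb N ℓ) = heckeBetaBar Kb N ℓ := Genus.algHom_ext fun d => by
    obtain ⟨m1, m2, hs⟩ := hd₁ d
    rw [AlgHom.comp_apply, hgen d ⟨_, m1⟩ rfl, hW]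
    exact (hgen' d _ hs).symm
  have e2 : W.comp (heckeBetaBar Kb N ℓ) = heckeAlphaBar Kb N ℓ := Genus.algHom_ext fun d => by
    obtain ⟨m1, m2, hs⟩ := hd₁ d
    rw [AlgHom.comp_apply, hgen' d ⟨_, m2⟩ rfl, hW]
    refine (hgen d _ ?_).symm
    show swapNat ℓ ((d : ℕ) * ℓ) = d
    rw [swapNat, if_pos (dvd_mul_left _ _), Nat.mul_div_cancel _ hℓ.pos]
  exact ⟨W, fun f => DFunLike.congr_fun e1 f, fun f => DFunLike.congr_fun e2 f⟩

theorem dedekindPsi_prime (hℓ : ℓ.Prime) : dedekindPsi ℓ = ℓ + 1 := by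
  simpa using Genus.dedekindPsi_prime_pow hℓ one_pos

/-- the degree of `X₀(Nℓ) → X₀(N)` -/
theorem finrankAlong_alpha (hℓ : ℓ.Prime) (hℓN : ¬ ℓ ∣ N) :
    finrankAlong Kb (heckeAlphaBar Kb N ℓ) = ℓ + 1 := by
  letI := algebraAlong (heckeAlphaBar Kb N ℓ)
  haveI := isScalarTower_along (heckeAlphaBar Kb N ℓ)
  show Module.finrank (modularFunctionFieldBar N) (modularFunctionFieldBar (N * ℓ)) = ℓ + 1
  have h := HeckeJ.ndeg_algebraMap (K := Kb) (F := modularFunctionFieldBar N)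
    (F' := modularFunctionFieldBar (N * ℓ)) (jBar N)
  have e : algebraMap (modularFunctionFieldBar N) (modularFunctionFieldBar (N * ℓ)) (jBar N) =
      jBar (N * ℓ) := Subtype.ext (coe_heckeAlphaBar N ℓ _)
  rw [e, ndeg_jBar, ndeg_jBar] at h
  have h' : dedekindPsi (N * ℓ) = dedekindPsi N * Module.finrank (modularFunctionFieldBar N)
      (modularFunctionFieldBar (N * ℓ)) := by
    rw [← Genus.card_cosetSpace (N * ℓ), ← Genus.card_cosetSpace N]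
    exact h
  rw [Genus.dedekindPsi_mul (Nat.coprime_comm.mp (hℓ.coprime_iff_not_dvd.mpr hℓN)),
    dedekindPsi_prime hℓ] at h'
  have hpos : 0 < dedekindPsi N := by
    have h1 := RR.ndeg_pos (transcendental_jBar N)
    rw [ndeg_jBar] at h1
    rw [← Genus.card_cosetSpace N]
    exact h1
  exact (Nat.eq_of_mul_eq_mul_left hpos h').symm

end FLTAgent.Reduction
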