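import Fermat.Agent.Good.API

/-!
Elementary facts on a place `A` of `ℚ̄` above `ℓ`.
-/

set_option autoImplicit false
set_option linter.unusedSectionVars false

noncomputable section

open ModularCurve IsLocalRing

namespace FLTAgent.Reduction

/-- the algebraic closure of `ℚ` -/
abbrev Qb : Type := AlgebraicClosure ℚ

variable (A : ValuationSubring Qb)

/-- the residue field -/
abbrev kA : Type := IsLocalRing.ResidueField A

theorem mem_A_of_isIntegral {x : Qb} (hx : IsIntegral A x) : x ∈ A := by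
  obtain ⟨y, hy⟩ := IsIntegrallyClosed.isIntegral_iff.mp hx
  rw [← hy]; exact y.2

instance instIsAlgClosedResidueField : IsAlgClosed (kA A) := by
  refine IsAlgClosed.of_exists_root _ fun p hp hirr => ?_
  obtain ⟨q, hq, hqd, hqm⟩ :=
    Polynomial.lifts_and_natDegree_eq_and_monic
      ((Polynomial.mem_lifts _).mpr (Polynomial.map_surjective _ residue_surjective p)) hp
  have hd : (q.map A.subtype).degree ≠ 0 := by
    rw [Polynomial.degree_map_eq_of_injective A.subtype_injective, Polynomial.degree_eq_natDegree hqm.ne_zero, hqd]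
    have := hirr.natDegree_pos
    exact_mod_cast this.ne'
  obtain ⟨x, hx⟩ := IsAlgClosed.exists_root _ hd
  have hroot : Polynomial.eval₂ A.subtype x q = 0 := by
    rw [Polynomial.eval₂_eq_eval_map]; exact hx
  have hxA : x ∈ A := mem_A_of_isIntegral A ⟨q, hqm, hroot⟩
  refine ⟨residue A ⟨x, hxA⟩, ?_⟩
  rw [← hq, Polynomial.eval_map, Polynomial.eval₂_hom]
  convert map_zero (residue A)
  refine Subtype.ext ?_
  show A.subtype (q.eval ⟨x, hxA⟩) = 0
  rw [← Polynomial.eval₂_hom]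
  exact hroot

theorem res_eq_zero_iff (a : A) : residue A a = 0 ↔ A.valuation (a : Qb) < 1 := by
  rw [residue_eq_zero_iff, A.valuation_lt_one_iff]

theorem res_ne_zero_iff (a : A) : residue A a ≠ 0 ↔ A.valuation (a : Qb) = 1 := by
  rw [Ne, res_eq_zero_iff]
  rcases A.valuation_lt_one_or_eq_one a with h | h
  · simp [h, h.ne]
  · simp [h]

theorem val_le_one_of_mem {A : ValuationSubring Qb} {x : Qb} (h : x ∈ A) : A.valuation x ≤ 1 :=
  (A.valuation_le_one_iff x).mpr h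

theorem exists_max {ι : Type*} (s : Finset ι) (a : ι → Qb) (h : ∃ i ∈ s, a i ≠ 0) :
    ∃ i₀ ∈ s, a i₀ ≠ 0 ∧ ∀ i ∈ s, a i / a i₀ ∈ A := by
  obtain ⟨i, hi, hi0⟩ := h
  obtain ⟨i₀, hi₀, hmax⟩ := s.exists_max_image (fun j => A.valuation (a j)) ⟨i, hi⟩
  have h0 : a i₀ ≠ 0 := by
    intro h
    have := hmax i hi
    simp only [h, map_zero, le_zero_iff, map_eq_zero] at this
    exact hi0 this
  refine ⟨i₀, hi₀, h0, fun j hj => (A.valuation_le_one_iff _).mp ?_⟩
  rw [map_div₀, div_le_one₀ (zero_lt_iff.mpr ((Valuation.ne_zero_iff _).mpr h0))]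
  exact hmax j hj

variable {ℓ : ℕ} (hℓ : ℓ.Prime) (hA : A.LiesOverPrime ℓ)

theorem valuation_ell_lt_one (hA : A.LiesOverPrime ℓ) : A.valuation (ℓ : Qb) < 1 :=
  A.mem_nonunits_iff.mp hA

theorem natCast_residue (hA : A.LiesOverPrime ℓ) : (ℓ : kA A) = 0 := by
  rw [← map_natCast (residue A), res_eq_zero_iff]
  simpa using valuation_ell_lt_one A hA

theorem charP_residue (hℓ : ℓ.Prime) (hA : A.LiesOverPrime ℓ) : CharP (kA A) ℓ :=
  (CharP.charP_iff_prime_eq_zero hℓ).2 (natCast_residue A hA)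

include hℓ hA

theorem natCast_residue_ne_zero {m : ℕ} (hm : ¬ ℓ ∣ m) : (m : kA A) ≠ 0 := by
  haveI := charP_residue A hℓ hA
  rwa [Ne, CharP.cast_eq_zero_iff (kA A) ℓ]

theorem valuation_natCast {m : ℕ} (hm : ¬ ℓ ∣ m) : A.valuation (m : Qb) = 1 := by
  have h := (res_ne_zero_iff A (m : A)).mp (by
    rw [map_natCast]; exact natCast_residue_ne_zero A hℓ hA hm)
  simpa using h

theorem exists_valuation_natCast (m : ℕ) (hm : m ≠ 0) :
    ∃ e : ℕ, A.valuation (m : Qb) = A.valuation (ℓ : Qb) ^ e := by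
  obtain ⟨e, n, hn, rfl⟩ := Nat.exists_eq_pow_mul_and_not_dvd hm ℓ hℓ.ne_one
  exact ⟨e, by rw [Nat.cast_mul, Nat.cast_pow, map_mul, map_pow, valuation_natCast A hℓ hA hn,
    mul_one]⟩

theorem exists_valuation_rat (q : ℚ) (hq : q ≠ 0) :
    ∃ e : ℤ, A.valuation (algebraMap ℚ Qb q) = A.valuation (ℓ : Qb) ^ e := by
  obtain ⟨e₁, h₁⟩ := exists_valuation_natCast A hℓ hA q.num.natAbs
    (Int.natAbs_ne_zero.mpr (Rat.num_ne_zero.mpr hq))
  obtain ⟨e₂, h₂⟩ := exists_valuation_natCast A hℓ hA q.den q.den_nz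
  refine ⟨(e₁ : ℤ) - e₂, ?_⟩
  have hℓ0 : A.valuation (ℓ : Qb) ≠ 0 :=
    (Valuation.ne_zero_iff _).mpr (Nat.cast_ne_zero.mpr hℓ.ne_zero)
  rw [show algebraMap ℚ Qb q = ((q.num : ℤ) : Qb) / (q.den : Qb) by
    rw [eq_ratCast, Rat.cast_def], map_div₀, zpow_sub₀ hℓ0, zpow_natCast, zpow_natCast, h₂]
  congr 1
  rw [← h₁]
  rcases Int.natAbs_eq q.num with h | h <;> nth_rw 1 [h] <;> simp

theorem exists_valuation_pow {x : Qb} (hx : x ≠ 0) :
    ∃ (n : ℕ) (e : ℤ), 0 < n ∧ A.valuation x ^ n = A.valuation (ℓ : Qb) ^ e := by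
  classical
  set v := A.valuation with hv
  obtain ⟨p, hp0, hp⟩ := ((AlgebraicClosure.isAlgebraic ℚ).isAlgebraic x)
  set s := p.support with hs
  have hsum : ∑ i ∈ s, algebraMap ℚ Qb (p.coeff i) * x ^ i = 0 := by
    rw [Polynomial.aeval_def, Polynomial.eval₂_eq_sum, Polynomial.sum_def] at hp
    exact hp
  have hne : s.Nonempty := Polynomial.support_nonempty.mpr hp0
  obtain ⟨i, hi, hmax⟩ := s.exists_max_image
    (fun i => v (algebraMap ℚ Qb (p.coeff i) * x ^ i)) hne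
  have hti : ∀ j ∈ s, algebraMap ℚ Qb (p.coeff j) * x ^ j ≠ 0 := fun j hj =>
    mul_ne_zero ((map_ne_zero _).mpr (Polynomial.mem_support_iff.mp hj)) (pow_ne_zero _ hx)
  obtain ⟨j, hj, hji, hje⟩ : ∃ j ∈ s, j ≠ i ∧
      v (algebraMap ℚ Qb (p.coeff j) * x ^ j) = v (algebraMap ℚ Qb (p.coeff i) * x ^ i) := by
    by_contra hc
    push Not at hc
    have := v.map_sum_eq_of_lt hi (by
      intro j hj
      rw [Finset.mem_sdiff, Finset.mem_singleton] at hj
      exact lt_of_le_of_ne (hmax j hj.1) (hc j hj.1 hj.2))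
    rw [hsum, map_zero] at this
    exact (Valuation.ne_zero_iff _).mpr (hti i hi) this.symm
  obtain ⟨ei, hei⟩ := exists_valuation_rat A hℓ hA _ (Polynomial.mem_support_iff.mp hi)
  obtain ⟨ej, hej⟩ := exists_valuation_rat A hℓ hA _ (Polynomial.mem_support_iff.mp hj)
  rw [map_mul, map_mul, map_pow, map_pow, hei, hej] at hje
  have hvx : v x ≠ 0 := (Valuation.ne_zero_iff _).mpr hx
  have hℓ0 : v (ℓ : Qb) ≠ 0 := (Valuation.ne_zero_iff _).mpr (Nat.cast_ne_zero.mpr hℓ.ne_zero)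
  rcases Nat.lt_or_gt_of_ne hji with h | h
  · refine ⟨i - j, ej - ei, by omega, ?_⟩
    rw [pow_sub₀ _ hvx h.le, zpow_sub₀ hℓ0, ← div_eq_mul_inv,
      div_eq_div_iff (pow_ne_zero _ hvx) (zpow_ne_zero _ hℓ0), hje]
    exact mul_comm _ _
  · refine ⟨j - i, ei - ej, by omega, ?_⟩
    rw [pow_sub₀ _ hvx h.le, zpow_sub₀ hℓ0, ← div_eq_mul_inv,
      div_eq_div_iff (pow_ne_zero _ hvx) (zpow_ne_zero _ hℓ0), mul_comm, ← hje]

theorem exists_pow_le {c a : Qb} (hc : A.valuation c < 1) (ha : a ≠ 0) :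
    ∃ n : ℕ, A.valuation c ^ n ≤ A.valuation a := by
  rcases eq_or_ne c 0 with rfl | hc0
  · exact ⟨1, by simp⟩
  obtain ⟨n, e, hn, he⟩ := exists_valuation_pow A hℓ hA hc0
  obtain ⟨n', e', hn', he'⟩ := exists_valuation_pow A hℓ hA ha
  set v := A.valuation
  set l := v (ℓ : Qb)
  have hl : l < 1 := valuation_ell_lt_one A hA
  have hl0 : 0 < l := zero_lt_iff.mpr ((Valuation.ne_zero_iff _).mpr (Nat.cast_ne_zero.mpr hℓ.ne_zero))
  have hepos : 0 < e := by
    by_contra hle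
    push Not at hle
    have h1 : v c ^ n < 1 := pow_lt_one₀ zero_le hc hn.ne'
    rw [he] at h1
    exact absurd h1 (not_lt.mpr (one_le_zpow_of_nonpos₀ hl0 hl.le hle))
  refine ⟨n * e'.toNat, ?_⟩
  rw [pow_mul, he]
  by_contra hlt
  push Not at hlt
  have h2 := pow_lt_pow_left₀ hlt zero_le hn'.ne'
  rw [he', ← zpow_natCast (l ^ e), ← zpow_mul, ← zpow_natCast, ← zpow_mul] at h2
  rw [zpow_lt_zpow_iff_right_of_lt_one₀ hl0 hl] at h2
  have h3 : (0 : ℤ) ≤ e'.toNat := by positivity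
  have h4 := Int.self_le_toNat e'
  nlinarith [mul_le_mul_of_nonneg_left (show (1 : ℤ) ≤ e by omega) h3,
    mul_le_mul_of_nonneg_right (show (1 : ℤ) ≤ (n' : ℤ) by omega)
      (show (0 : ℤ) ≤ e * e'.toNat by positivity)]

omit hℓ hA

/-- a series with all coefficients in `A` comes from `A((q))` -/
theorem exists_series {f : LaurentSeries Qb} (hf : ∀ i, f.coeff i ∈ A) :
    ∃ b : LaurentSeries A, coeffMap A.subtype b = f := by
  refine ⟨⟨fun i => ⟨f.coeff i, hf i⟩, f.isPWO_support.mono fun i hi => ?_⟩, HahnSeries.ext rfl⟩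
  intro h
  exact hi (Subtype.ext h)

theorem toBar_injective : Function.Injective (coeffMap A.subtype) := fun x y h =>
  HahnSeries.ext (funext fun i => Subtype.ext (by
    simpa using congrArg (fun s : LaurentSeries Qb => s.coeff i) h))

end FLTAgent.Reduction
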