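import Fermat.Agent.Reduction.PlaceMap

/-!
Elements with prescribed zero whose reduction has the least possible zero.
-/

set_option autoImplicit false
set_option linter.unusedSectionVars false
set_option synthInstance.maxHeartbeats 100000

noncomputable section

open ModularCurve AlgebraicCurve Polynomial IsLocalRing
open FLTAgent.RR (Bd KK)

namespace FLTAgent.Reduction

variable {A : ValuationSubring Qb} {N : ℕ} [NeZero N] {ℓ : ℕ} (C : Ctx A N ℓ)
include C

open scoped Classical in
theorem exists_sep_elem {s : Bool} {P : PB N} (hP : Bd P (tB N s) 0) {Q : PS A N}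
    (hQ : Bd Q (tS A N s) 0) :
    ∃ x : FB N, BT A N s x ∧ UG A N x ∧ 1 ≤ P.ord x ∧
      Q.ord (red A N x) = if rP C P = Q then 1 else 0 := by
  rcases exists_chart (A := A) P s with ⟨d, hdA, hd⟩ | ⟨d, hd1, hd, hno⟩
  · -- `P` is integral in the chart
    haveI := finite_tS C s
    haveI := separable_tS C s
    have hrP : Bd (rP C P) (tS A N s) 0 := (fin_rP_iff C).mpr ⟨d, hdA, hd⟩
    obtain ⟨g, hg, hg0, hgord⟩ : ∃ g : FS A N, g ∈ regOn (kA A) (tS A N s) ∧
        (Val (rP C P) g 0 ∧ g ≠ 0) ∧ Q.ord g = if rP C P = Q then 1 else 0 := by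
      by_cases h : rP C P = Q
      · subst h
        obtain ⟨g, hg, hg0, hg1⟩ := exists_unif (transcendental_tS A N s) hrP
        exact ⟨g, hg, ⟨val_zero_of_ord_pos (by omega), hg0⟩, by rw [if_pos rfl, hg1]⟩
      · obtain ⟨g, hg, hg1, hg0, hg2⟩ :=
          exists_separate (transcendental_tS A N s) hrP hQ h
        exact ⟨g, hg, ⟨by rwa [Val, map_zero, sub_zero], hg0⟩, by rw [if_neg h, hg2]⟩
    obtain ⟨b, hb, hbg⟩ := exists_lift C ((BS_iff C).mpr hg)
    obtain ⟨c, hc⟩ := val_exists_B (hb.mem_regOn P hd.bd)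
    obtain ⟨hcA, hval⟩ := val_rP C hb hd hdA hc
    rw [hbg] at hval
    have hres : residue A ⟨c, hcA⟩ = 0 := hval.unique hg0.1
    refine ⟨b - cB N c, hb.sub (BT_const s hcA), ?_⟩
    have hred : red A N (b - cB N c) = g := by
      rw [red_sub C (BT.mem_GR C hb) (cB_mem hcA), red_cB C ⟨c, hcA⟩, hres, map_zero, sub_zero,
        hbg]
    have hUG : UG A N (b - cB N c) :=
      ⟨sub_mem (BT.mem_GR C hb) (cB_mem hcA), by rw [hred]; exact hg0.2⟩
    refine ⟨hUG, ?_, by rw [hred, hgord]⟩
    refine Val.ord_pos ?_ (hUG.ne_zero C)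
    simpa using hc.sub (Val.const c)
  · -- `P` reduces outside the chart
    obtain ⟨d', hd'⟩ := val_exists_B hP
    have hd'A := hno d' hd'
    have hd'0 : d' ≠ 0 := fun h0 => hd'A (h0 ▸ A.zero_mem)
    have he : A.valuation d'⁻¹ < 1 := by
      rw [map_inv₀, inv_lt_one_iff₀]
      exact Or.inr (lt_of_not_ge fun hle => hd'A ((A.valuation_le_one_iff d').mp hle))
    have heA : d'⁻¹ ∈ A := (A.valuation_le_one_iff _).mp he.le
    have hx : BT A N s (1 - cB N d'⁻¹ * tB N s) := (BT_one s).sub ((BT_const s heA).mul (BT_tB s))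
    have hred : red A N (1 - cB N d'⁻¹ * tB N s) = 1 := by
      rw [red_sub C (one_mem _) (mul_mem (cB_mem heA) (tB_mem s)), red_one C,
        red_mul C (cB_mem heA) (tB_mem s), red_cB C ⟨_, heA⟩,
        show residue A ⟨d'⁻¹, heA⟩ = 0 from (res_eq_zero_iff A _).mpr he]
      simp
    have hUG : UG A N (1 - cB N d'⁻¹ * tB N s) :=
      ⟨BT.mem_GR C hx, by rw [hred]; exact one_ne_zero⟩
    refine ⟨_, hx, hUG, ?_, ?_⟩
    · refine Val.ord_pos ?_ (hUG.ne_zero C)
      have h := (Val.one (v := P)).sub ((Val.const d'⁻¹).mul hd')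
      rwa [inv_mul_cancel₀ hd'0, sub_self] at h
    · rw [hred, Q.ord_one, if_neg]
      intro h
      subst h
      obtain ⟨d'', hd''A, hd''⟩ := (fin_rP_iff C).mp hQ
      exact hno d'' hd'' hd''A

open scoped Classical in
/-- a product of separating elements: zeros at least `E`, reduction exactly `∑ E` at `Q` -/
theorem exists_prod_elem {s : Bool} {Q : PS A N} (hQ : Bd Q (tS A N s) 0) (S : Finset (PB N))
    (hS : ∀ P ∈ S, Bd P (tB N s) 0) (E : PB N → ℕ) :
    ∃ x : FB N, BT A N s x ∧ UG A N x ∧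
      (∀ P ∈ S, (E P : ℤ) ≤ P.ord x) ∧
      Q.ord (red A N x) = ∑ P ∈ S.filter (fun P => rP C P = Q), (E P : ℤ) := by
  induction S using Finset.induction_on with
  | empty => exact ⟨1, BT_one s, UG_one C, by simp, by simp [red_one C]⟩
  | insert P S hP ih =>
      obtain ⟨x, hx, hxU, hxo, hxQ⟩ := ih fun P' hP' => hS P' (Finset.mem_insert_of_mem hP')
      obtain ⟨y, hy, hyU, hyo, hyQ⟩ := exists_sep_elem C (hS P (Finset.mem_insert_self P S)) hQ
      have hyn := pow_ne_zero (E P) (hyU.ne_zero C)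
      have hpU : UG A N (y ^ E P) :=
        ⟨pow_mem hyU.1 _, by rw [red_pow C hyU.1]; exact pow_ne_zero _ hyU.2⟩
      refine ⟨y ^ E P * x, (hy.pow _).mul hx, hpU.mul C hxU, ?_, ?_⟩
      · intro P' hP'
        rw [P'.ord_mul hyn (hxU.ne_zero C), RR.ord_pow]
        have h1 : 0 ≤ P'.ord y := by
          have := (RR.bd_iff_ord (hyU.ne_zero C)).mp (hy.mem_regOn P' (hS P' hP'))
          simpa using this
        have h2 : 0 ≤ P'.ord x := by
          have := (RR.bd_iff_ord (hxU.ne_zero C)).mp (hx.mem_regOn P' (hS P' hP'))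
          simpa using this
        rcases Finset.mem_insert.mp hP' with rfl | h
        · nlinarith
        · nlinarith [hxo P' h]
      · rw [red_mul C hpU.1 hxU.1, red_pow C hyU.1, Q.ord_mul (pow_ne_zero _ hyU.2) hxU.2,
          RR.ord_pow, hxQ, hyQ, Finset.filter_insert]
        split_ifs with h
        · rw [Finset.sum_insert (fun hm => hP (Finset.mem_filter.mp hm).1), mul_one]
        · rw [mul_zero, zero_add]

end FLTAgent.Reduction
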