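import Fermat.Agent.Reduction.API

/-!
The special fibre of `J₀(N)` as a Hecke module with Frobenius: families of reductions.
-/

set_option autoImplicit false
set_option linter.unusedSectionVars false

noncomputable section

open ModularCurve

namespace FLTAgent.Reduction

section Families

variable {R : Type} [CommRing R] {M : Type} [AddCommGroup M] (Φ : M →+ M) (T : R) (n : ℕ)

/-- the additive families `t ↦ y_t` that satisfy the quadratic relation for the shift by `T` -/
def families : AddSubgroup (R →+ M) where
  carrier := {g | ∀ t, Φ (Φ (g t)) - Φ (g (t * T)) + n • g t = 0}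
  zero_mem' t := by simp
  add_mem' {g g'} hg hg' t := by
    have := congrArg₂ (· + ·) (hg t) (hg' t)
    simp only [AddMonoidHom.add_apply, map_add, nsmul_add, add_zero] at this ⊢
    rw [← this]
    abel
  neg_mem' {g} hg t := by
    have := congrArg Neg.neg (hg t)
    simp only [AddMonoidHom.neg_apply, map_neg, smul_neg, neg_zero] at this ⊢
    rw [← this]
    abel

theorem mem_families {g : R →+ M} :
    g ∈ families Φ T n ↔ ∀ t, Φ (Φ (g t)) - Φ (g (t * T)) + n • g t = 0 := Iff.rfl

/-- the shift action -/
@[implicit_reducible]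
def familiesModule : Module R (families Φ T n) where
  smul s g := ⟨g.1.comp (AddMonoidHom.mulRight s), fun t => by
    simp only [AddMonoidHom.coe_comp, Function.comp_apply, AddMonoidHom.coe_mulRight]
    rw [mul_right_comm t T s]
    exact g.2 (t * s)⟩
  one_smul g := Subtype.ext (AddMonoidHom.ext fun t => congrArg g.1 (mul_one t))
  mul_smul s s' g := Subtype.ext (AddMonoidHom.ext fun t => congrArg g.1 (mul_assoc t s s').symm)
  smul_zero s := Subtype.ext (AddMonoidHom.ext fun t => rfl)
  smul_add s g g' := Subtype.ext (AddMonoidHom.ext fun t => rfl)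
  add_smul s s' g := Subtype.ext (AddMonoidHom.ext fun t => by
    show g.1 (t * (s + s')) = g.1 (t * s) + g.1 (t * s')
    rw [mul_add, map_add])
  zero_smul g := Subtype.ext (AddMonoidHom.ext fun t => by
    show g.1 (t * 0) = 0
    rw [mul_zero, map_zero])

/-- the endomorphism induced by `Φ` -/
def familiesMap : families Φ T n →+ families Φ T n where
  toFun g := ⟨Φ.comp g.1, fun t => by
    have := congrArg Φ (g.2 t)
    simpa using this⟩
  map_zero' := Subtype.ext (AddMonoidHom.ext fun t => map_zero Φ)
  map_add' g g' := Subtype.ext (AddMonoidHom.ext fun t => map_add Φ _ _)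

end Families

variable (N : ℕ) [NeZero N]

set_option maxHeartbeats 1000000 in
theorem specializationExists (p : ℕ) (hcomm : HeckeOperatorsCommuteBar N) :
    letI := heckeModuleBar N
    ∀ (_ : SMulCommClass (AlgebraicClosure ℚ ≃ₐ[ℚ] AlgebraicClosure ℚ) HeckeAlg (JZero N)),
      SpecializationExists (K := ℚ) (L := AlgebraicClosure ℚ) N p (JZero N) := by
  letI := heckeModuleBar N
  intro hscc ℓ hℓ hℓNp A hA
  have hℓN : ¬ ℓ ∣ N := fun h => hℓNp (h.mul_right p)
  have hℓp : ¬ ℓ ∣ p := fun h => hℓNp (h.mul_left N)
  haveI : NeZero ℓ := ⟨hℓ.ne_zero⟩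
  have C : Ctx A N ℓ := ⟨hℓ, hℓN, hA⟩
  set Φ : JZeroC (kA A) N →+ JZeroC (kA A) N := DistribSMul.toAddMonoidHom _ (frobS C) with hΦ
  set T : HeckeAlg := heckeGen ⟨ℓ, hℓ⟩ with hT
  let sp₀ : JZero N → (HeckeAlg →+ JZeroC (kA A) N) := fun x =>
    { toFun := fun t => reductionModL A N (t • x)
      map_zero' := (congrArg (reductionModL A N) (zero_smul HeckeAlg x)).trans (map_zero _)
      map_add' := fun t t' => (congrArg (reductionModL A N) (add_smul t t' x)).trans (map_add _ _ _) }
  have hmem : ∀ x, sp₀ x ∈ families Φ T ℓ := fun x t => by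
    show Φ (Φ (reductionModL A N (t • x))) - Φ (reductionModL A N ((t * T) • x)) +
      ℓ • reductionModL A N (t • x) = 0
    have e : (t * T) • x = heckeOperatorBar N ⟨ℓ, hℓ⟩ (t • x) := by
      rw [mul_comm t T, mul_smul]
      exact heckeModuleBar_heckeGen_smul hcomm _ _
    rw [e]
    exact reductionModL_quadratic C (t • x)
  let sp : JZero N →+ families Φ T ℓ :=
    { toFun := fun x => ⟨sp₀ x, hmem x⟩
      map_zero' := Subtype.ext (AddMonoidHom.ext fun t => by
        show reductionModL A N (t • (0 : JZero N)) = 0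
        rw [smul_zero, map_zero])
      map_add' := fun x y => Subtype.ext (AddMonoidHom.ext fun t => by
        show reductionModL A N (t • (x + y)) = _
        rw [smul_add, map_add]; rfl) }
  have hsp : ∀ x t, (sp x).1 t = reductionModL A N (t • x) := fun x t => rfl
  letI := familiesModule Φ T ℓ
  refine ⟨families Φ T ℓ, inferInstance, familiesModule Φ T ℓ, sp, familiesMap Φ T ℓ,
    ⟨fun s x => ?_, fun σ hσ x => ?_, fun σ hσ x => ?_, fun x hx h0 => ?_⟩, fun g => ?_⟩
  · refine Subtype.ext (AddMonoidHom.ext fun t => ?_)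
    show reductionModL A N (t • s • x) = (sp x).1 (t * s)
    rw [hsp, ← mul_smul]
  · refine Subtype.ext (AddMonoidHom.ext fun t => ?_)
    rw [hsp, hsp, ← smul_comm σ t x, reductionModL_inertia C hσ]
  · refine Subtype.ext (AddMonoidHom.ext fun t => ?_)
    show reductionModL A N (t • σ • x) = Φ (reductionModL A N (t • x))
    rw [← smul_comm σ t x, reductionModL_frobenius C hσ]
    rfl
  · obtain ⟨k, hk⟩ := hx
    refine eq_zero_of_torsion C (fun h => hℓp (hℓ.dvd_of_dvd_pow h)) hk ?_
    have h1 := hsp x 1
    rw [h0, one_smul] at h1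
    exact h1.symm
  · refine Subtype.ext (AddMonoidHom.ext fun t => ?_)
    exact g.2 t

end FLTAgent.Reduction
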